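import Mathlib

/-!
# S51, the `5`-side: algebraic identities

Pure polynomial identities behind the `x`-coordinate duplication map on a Weierstrass curve,
the `5`-division polynomial, and the Hauptmodul `h = Δ / (x(P) - x(2P))^6` of `X₀(5)`.
-/

open WeierstrassCurve WeierstrassCurve.Affine

namespace Fermat.Agent.S51.Five

variable {K : Type*} [Field K]

/-- value of the `2`-torsion polynomial -/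
def dD (b₂ b₄ b₆ x : K) : K := 4*x^3 + b₂*x^2 + 2*b₄*x + b₆
/-- numerator of the duplication map -/
def dN (b₄ b₆ b₈ x : K) : K := x^4 - b₄*x^2 - 2*b₆*x - b₈
/-- value of the `3`-division polynomial -/
def dPsi3 (b₂ b₄ b₆ b₈ x : K) : K := 3*x^4 + b₂*x^3 + 3*b₄*x^2 + 3*b₆*x + b₈
/-- value of `ψ₄ / ψ₂` -/
def dPre4 (b₂ b₄ b₆ b₈ x : K) : K :=
  2*x^6 + b₂*x^5 + 5*b₄*x^4 + 10*b₆*x^3 + 10*b₈*x^2 + (b₂*b₈ - b₄*b₆)*x + (b₄*b₈ - b₆^2)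
/-- value of the `5`-division polynomial -/
def dPsi5 (b₂ b₄ b₆ b₈ x : K) : K :=
  dPre4 b₂ b₄ b₆ b₈ x * (dD b₂ b₄ b₆ x)^2 - (dPsi3 b₂ b₄ b₆ b₈ x)^3
/-- `D(N/D) * D^3` -/
def dD2 (b₂ b₄ b₆ b₈ x : K) : K :=
  4*(dN b₄ b₆ b₈ x)^3 + b₂*(dN b₄ b₆ b₈ x)^2*(dD b₂ b₄ b₆ x)
    + 2*b₄*(dN b₄ b₆ b₈ x)*(dD b₂ b₄ b₆ x)^2 + b₆*(dD b₂ b₄ b₆ x)^3
/-- `N(N/D) * D^4` -/
def dN2 (b₂ b₄ b₆ b₈ x : K) : K :=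
  (dN b₄ b₆ b₈ x)^4 - b₄*(dN b₄ b₆ b₈ x)^2*(dD b₂ b₄ b₆ x)^2
    - 2*b₆*(dN b₄ b₆ b₈ x)*(dD b₂ b₄ b₆ x)^3 - b₈*(dD b₂ b₄ b₆ x)^4

lemma id1 (b₂ b₄ b₆ b₈ x : K) :
    dN b₄ b₆ b₈ x - x * dD b₂ b₄ b₆ x = - dPsi3 b₂ b₄ b₆ b₈ x := by
  simp only [dN, dD, dPsi3]; ring

lemma id2 (b₂ b₄ b₆ b₈ x : K) (hb : 4 * b₈ = b₂ * b₆ - b₄^2) (h4 : (4:K) ≠ 0) :
    dD2 b₂ b₄ b₆ b₈ x = (dPre4 b₂ b₄ b₆ b₈ x)^2 := by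
  have hb8 : b₈ = (b₂ * b₆ - b₄^2)/4 := by field_simp; linear_combination hb
  subst hb8
  simp only [dD2, dN, dD, dPre4]
  field_simp
  ring

lemma id3 (b₂ b₄ b₆ b₈ x : K) (hb : 4 * b₈ = b₂ * b₆ - b₄^2) (h4 : (4:K) ≠ 0) :
    dN2 b₂ b₄ b₆ b₈ x - x * dD b₂ b₄ b₆ x * dD2 b₂ b₄ b₆ b₈ x
      = - dPsi3 b₂ b₄ b₆ b₈ x * dPsi5 b₂ b₄ b₆ b₈ x := by
  have hb8 : b₈ = (b₂ * b₆ - b₄^2)/4 := by field_simp; linear_combination hb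
  subst hb8
  simp only [dN2, dD2, dN, dD, dPre4, dPsi5, dPsi3]
  field_simp
  ring

/-- `D(N/D) = D2 / D^3` -/
lemma dD_div (b₂ b₄ b₆ b₈ x : K) (hD : dD b₂ b₄ b₆ x ≠ 0) :
    dD b₂ b₄ b₆ (dN b₄ b₆ b₈ x / dD b₂ b₄ b₆ x) * (dD b₂ b₄ b₆ x)^3 = dD2 b₂ b₄ b₆ b₈ x := by
  rw [dD2]
  generalize dN b₄ b₆ b₈ x = n at *
  generalize dD b₂ b₄ b₆ x = d at *
  simp only [dD]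
  field_simp

/-- `N(N/D) = N2 / D^4` -/
lemma dN_div (b₂ b₄ b₆ b₈ x : K) (hD : dD b₂ b₄ b₆ x ≠ 0) :
    dN b₄ b₆ b₈ (dN b₄ b₆ b₈ x / dD b₂ b₄ b₆ x) * (dD b₂ b₄ b₆ x)^4 = dN2 b₂ b₄ b₆ b₈ x := by
  rw [dN2]
  generalize dN b₄ b₆ b₈ x = n at *
  generalize dD b₂ b₄ b₆ x = d at *
  simp only [dN]
  field_simp

variable (E : WeierstrassCurve.Affine K)

lemma dD_eq {x y : K} (h : E.Equation x y) :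
    dD E.b₂ E.b₄ E.b₆ x = (y - E.negY x y)^2 := by
  rw [Affine.equation_iff] at h
  simp only [dD, Affine.negY, WeierstrassCurve.b₂, WeierstrassCurve.b₄, WeierstrassCurve.b₆]
  linear_combination (-4) * h

lemma dN_eq {x y : K} (h : E.Equation x y) :
    dN E.b₄ E.b₆ E.b₈ x = (3 * x ^ 2 + 2 * E.a₂ * x + E.a₄ - E.a₁ * y)^2
      + E.a₁ * (3 * x ^ 2 + 2 * E.a₂ * x + E.a₄ - E.a₁ * y) * (y - E.negY x y)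
      - (E.a₂ + 2 * x) * (y - E.negY x y)^2 := by
  rw [Affine.equation_iff] at h
  simp only [dN, Affine.negY, WeierstrassCurve.b₄, WeierstrassCurve.b₆,
    WeierstrassCurve.b₈]
  linear_combination (4 * E.a₂ + 8 * x + E.a₁^2) * h

lemma dup_X [DecidableEq K] {x y : K} (h : E.Equation x y) (hy : y ≠ E.negY x y) :
    E.addX x x (E.slope x x y y) * dD E.b₂ E.b₄ E.b₆ x = dN E.b₄ E.b₆ E.b₈ x := by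
  rw [Affine.slope_of_Y_ne rfl hy, dD_eq E h, dN_eq E h]
  have h2 : y - E.negY x y ≠ 0 := sub_ne_zero.mpr hy
  simp only [Affine.addX]
  field_simp
  ring

/-- The key identity for the `X₀(5)` Hauptmodul `h = Δ / (u - v)^6`: if `u = x(P)`, `v = x(2P)`
for a point `P` of order `5`, then `c₄ d^5 = Δ^2 + 10 Δ d^3 + 5 d^6` for `d = (u - v)^2`. -/
lemma hauptmodul_identity [CharZero K] (b₂ b₄ b₆ b₈ u v : K)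
    (hb : 4 * b₈ = b₂ * b₆ - b₄^2)
    (R₁ : u^4 - b₄*u^2 - 2*b₆*u - b₈ = v * (4*u^3 + b₂*u^2 + 2*b₄*u + b₆))
    (R₂ : v^4 - b₄*v^2 - 2*b₆*v - b₈ = u * (4*v^3 + b₂*v^2 + 2*b₄*v + b₆))
    (huv : u ≠ v) :
    (b₂^2 - 24*b₄) * ((u - v)^2)^5 =
      (-b₂^2*b₈ - 8*b₄^3 - 27*b₆^2 + 9*b₂*b₄*b₆)^2
      + 10 * (-b₂^2*b₈ - 8*b₄^3 - 27*b₆^2 + 9*b₂*b₄*b₆) * ((u - v)^2)^3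
      + 5 * ((u - v)^2)^6 := by
  have huv' : u - v ≠ 0 := sub_ne_zero.mpr huv
  have R₃ : b₆ = (u+v)*(u^2 - 4*u*v + v^2) - b₂*u*v - b₄*(u+v) := by
    apply mul_left_cancel₀ huv'
    linear_combination R₂ - R₁
  subst R₃
  linear_combination
    (464*u^8 - 5104*u^7*v - 116*u^7*b₂ + 15440*u^6*v^2 - 404*u^6*v*b₂ + 28*u^6*b₂^2 - 1888*u^6*b₄ +
      944*u^5*v^3 + 7956*u^5*v^2*b₂ + 52*u^5*v*b₂^2 + 12240*u^5*v*b₄ + 4*u^5*b₂^3 + 76*u^5*b₂*b₄ -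
      44224*u^4*v^4 - 14348*u^4*v^3*b₂ + 188*u^4*v^2*b₂^2 - 7776*u^4*v^2*b₄ - 88*u^4*v*b₂^3 +
      3804*u^4*v*b₂*b₄ - u^4*b₂^4 - 20*u^4*b₂^2*b₄ + 2332*u^4*b₄^2 + 944*u^3*v^5 - 14348*u^3*v^4*b₂ -
      3128*u^3*v^3*b₂^2 - 39712*u^3*v^3*b₄ + 108*u^3*v^2*b₂^3 - 12520*u^3*v^2*b₂*b₄ - 3*u^3*v*b₂^4 +
      8*u^3*v*b₂^2*b₄ - 5008*u^3*v*b₄^2 + (1/4)*u^3*b₂^5 - 22*u^3*b₂^3*b₄ + 360*u^3*b₂*b₄^2 +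
      15440*u^2*v^6 + 7956*u^2*v^5*b₂ + 188*u^2*v^4*b₂^2 - 7776*u^2*v^4*b₄ + 108*u^2*v^3*b₂^3 -
      12520*u^2*v^3*b₂*b₄ + 55*u^2*v^2*b₂^4 - 1992*u^2*v^2*b₂^2*b₄ - 13656*u^2*v^2*b₄^2 +
      (1/4)*u^2*v*b₂^5 + 86*u^2*v*b₂^3*b₄ - 3528*u^2*v*b₂*b₄^2 + u^2*b₂^4*b₄ - 14*u^2*b₂^2*b₄^2 -
      704*u^2*b₄^3 - 5104*u*v^7 - 404*u*v^6*b₂ + 52*u*v^5*b₂^2 + 12240*u*v^5*b₄ - 88*u*v^4*b₂^3 +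
      3804*u*v^4*b₂*b₄ - 3*u*v^3*b₂^4 + 8*u*v^3*b₂^2*b₄ - 5008*u*v^3*b₄^2 + (1/4)*u*v^2*b₂^5 +
      86*u*v^2*b₂^3*b₄ - 3528*u*v^2*b₂*b₄^2 - (1/4)*u*v*b₂^6 + 19*u*v*b₂^4*b₄ - 284*u*v*b₂^2*b₄^2 -
      2432*u*v*b₄^3 - (1/4)*u*b₂^5*b₄ + 18*u*b₂^3*b₄^2 - 320*u*b₂*b₄^3 + 464*v^8 - 116*v^7*b₂ +
      28*v^6*b₂^2 - 1888*v^6*b₄ + 4*v^5*b₂^3 + 76*v^5*b₂*b₄ - v^4*b₂^4 - 20*v^4*b₂^2*b₄ +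
      2332*v^4*b₄^2 + (1/4)*v^3*b₂^5 - 22*v^3*b₂^3*b₄ + 360*v^3*b₂*b₄^2 + v^2*b₂^4*b₄ -
      14*v^2*b₂^2*b₄^2 - 704*v^2*b₄^3 - (1/4)*v*b₂^5*b₄ + 18*v*b₂^3*b₄^2 - 320*v*b₂*b₄^3 -
      (1/4)*b₂^4*b₄^2 + 16*b₂^2*b₄^3 - 256*b₄^4) * R₁
    + (116*u^8 - 1276*u^7*v - 29*u^7*b₂ + 3860*u^6*v^2 - 101*u^6*v*b₂ - 4*u^6*b₂^2 - 472*u^6*b₄ +
      236*u^5*v^3 + 1989*u^5*v^2*b₂ + 79*u^5*v*b₂^2 + 3060*u^5*v*b₄ + u^5*b₂^3 + 19*u^5*b₂*b₄ -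
      11056*u^4*v^4 - 3587*u^4*v^3*b₂ + 44*u^4*v^2*b₂^2 - 1944*u^4*v^2*b₄ + 5*u^4*v*b₂^3 +
      951*u^4*v*b₂*b₄ - (1/4)*u^4*b₂^4 + 22*u^4*b₂^2*b₄ + 583*u^4*b₄^2 + 236*u^3*v^5 - 3587*u^3*v^4*b₂
      - 1102*u^3*v^3*b₂^2 - 9928*u^3*v^3*b₄ - 54*u^3*v^2*b₂^3 - 3130*u^3*v^2*b₂*b₄ - (3/4)*u^3*v*b₂^4
      - 52*u^3*v*b₂^2*b₄ - 1252*u^3*v*b₄^2 - u^3*b₂^3*b₄ + 90*u^3*b₂*b₄^2 + 3860*u^2*v^6 +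
      1989*u^2*v^5*b₂ + 44*u^2*v^4*b₂^2 - 1944*u^2*v^4*b₄ - 54*u^2*v^3*b₂^3 - 3130*u^2*v^3*b₂*b₄ +
      (1/4)*u^2*v^2*b₂^4 - 660*u^2*v^2*b₂^2*b₄ - 3414*u^2*v^2*b₄^2 + (1/4)*u^2*v*b₂^5 -
      19*u^2*v*b₂^3*b₄ - 882*u^2*v*b₂*b₄^2 + (1/4)*u^2*b₂^4*b₄ - 17*u^2*b₂^2*b₄^2 - 176*u^2*b₄^3 -
      1276*u*v^7 - 101*u*v^6*b₂ + 79*u*v^5*b₂^2 + 3060*u*v^5*b₄ + 5*u*v^4*b₂^3 + 951*u*v^4*b₂*b₄ -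
      (3/4)*u*v^3*b₂^4 - 52*u*v^3*b₂^2*b₄ - 1252*u*v^3*b₄^2 + (1/4)*u*v^2*b₂^5 - 19*u*v^2*b₂^3*b₄ -
      882*u*v^2*b₂*b₄^2 + (1/4)*u*v*b₂^4*b₄ - 98*u*v*b₂^2*b₄^2 - 608*u*v*b₄^3 - 80*u*b₂*b₄^3 + 116*v^8
      - 29*v^7*b₂ - 4*v^6*b₂^2 - 472*v^6*b₄ + v^5*b₂^3 + 19*v^5*b₂*b₄ - (1/4)*v^4*b₂^4 +
      22*v^4*b₂^2*b₄ + 583*v^4*b₄^2 - v^3*b₂^3*b₄ + 90*v^3*b₂*b₄^2 + (1/4)*v^2*b₂^4*b₄ -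
      17*v^2*b₂^2*b₄^2 - 176*v^2*b₄^3 - 80*v*b₂*b₄^3 - (1/4)*b₂^4*b₈ - 64*b₄^4) * hb

end Fermat.Agent.S51.Five
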