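import Mathlib
import Fermat.Agent.S51.FiveAlg

/-!
# S51, the `5`-side: points of order `5` on a Weierstrass curve
-/

open WeierstrassCurve WeierstrassCurve.Affine

namespace Fermat.Agent.S51.Five

variable {K : Type*} [Field K] [DecidableEq K] {E : WeierstrassCurve.Affine K}

/-- the `x`-coordinate of a point, with junk value `0` at infinity -/
def xc : E.Point → K
  | .zero => 0
  | .some x _ _ => x

@[simp] lemma xc_some {x y : K} (h : E.Nonsingular x y) : xc (Point.some x y h) = x := rfl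

lemma xc_neg (P : E.Point) : xc (-P) = xc P := by
  cases P <;> rfl

lemma eq_or_eq_neg_of_xc_eq {P Q : E.Point} (hP : P ≠ 0) (hQ : Q ≠ 0) (h : xc P = xc Q) :
    P = Q ∨ P = -Q := by
  match P, Q with
  | .zero, _ => exact absurd rfl hP
  | _, .zero => exact absurd rfl hQ
  | .some x₁ y₁ h₁, .some x₂ y₂ h₂ => exact Point.X_eq_iff.mp h

/-- doubling formula for `x`-coordinates -/
lemma xc_add_self {P : E.Point} (hP : P ≠ 0) (h2 : P + P ≠ 0) :
    dD E.b₂ E.b₄ E.b₆ (xc P) ≠ 0 ∧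
      xc (P + P) * dD E.b₂ E.b₄ E.b₆ (xc P) = dN E.b₄ E.b₆ E.b₈ (xc P) := by
  match P with
  | .zero => exact absurd rfl hP
  | .some x y h =>
    have hy : y ≠ E.negY x y := fun hy => h2 (Point.add_self_of_Y_eq hy)
    constructor
    · rw [xc_some, dD_eq E h.1]; exact pow_ne_zero 2 (sub_ne_zero.mpr hy)
    · rw [Point.add_self_of_Y_ne hy, xc_some, xc_some]; exact dup_X E h.1 hy

/-- if `D (x P) ≠ 0` then `2P ≠ 0` -/
lemma add_self_ne_zero_of_dD_ne_zero {P : E.Point} (hP : P ≠ 0)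
    (hD : dD E.b₂ E.b₄ E.b₆ (xc P) ≠ 0) : P + P ≠ 0 := by
  match P with
  | .zero => exact absurd rfl hP
  | .some x y h =>
    have hy : y ≠ E.negY x y := by
      intro hy
      apply hD
      rw [xc_some, dD_eq E h.1, ← hy, sub_self]; ring
    rw [Point.add_self_of_Y_ne hy]
    exact Point.some_ne_zero _

section order5

lemma nsmul_eq_zero_iff_of_order5 {P : E.Point} (hP : P ≠ 0) (h5 : 5 • P = 0) (k : ℕ) :
    k • P = 0 ↔ 5 ∣ k := by
  haveI : Fact (Nat.Prime 5) := ⟨by norm_num⟩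
  have ho : addOrderOf P = 5 := addOrderOf_eq_prime h5 hP
  rw [← ho]
  exact addOrderOf_dvd_iff_nsmul_eq_zero.symm

/-- the relations satisfied by `u = x(P)`, `v = x(2P)` for a point `P` of order `5` -/
lemma order5_rel {P : E.Point} (hP : P ≠ 0) (h5 : 5 • P = 0) :
    dD E.b₂ E.b₄ E.b₆ (xc P) ≠ 0 ∧ dD E.b₂ E.b₄ E.b₆ (xc (2 • P)) ≠ 0 ∧
    xc (2 • P) * dD E.b₂ E.b₄ E.b₆ (xc P) = dN E.b₄ E.b₆ E.b₈ (xc P) ∧
    xc P * dD E.b₂ E.b₄ E.b₆ (xc (2 • P)) = dN E.b₄ E.b₆ E.b₈ (xc (2 • P)) ∧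
    xc P ≠ xc (2 • P) := by
  have key := nsmul_eq_zero_iff_of_order5 hP h5
  have h2 : 2 • P ≠ 0 := fun h => by have := (key 2).mp h; omega
  have h3 : 3 • P ≠ 0 := fun h => by have := (key 3).mp h; omega
  have h4 : 4 • P ≠ 0 := fun h => by have := (key 4).mp h; omega
  have e2 : P + P = 2 • P := (two_nsmul P).symm
  have e4 : 2 • P + 2 • P = 4 • P := by rw [← add_nsmul]
  have e4' : 4 • P = -P := by
    rw [eq_neg_iff_add_eq_zero, ← succ_nsmul]; exact h5
  obtain ⟨hD1, hX1⟩ := xc_add_self hP (e2 ▸ h2)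
  obtain ⟨hD2, hX2⟩ := xc_add_self h2 (e4 ▸ h4)
  rw [e2] at hX1
  rw [e4, e4', xc_neg] at hX2
  refine ⟨hD1, hD2, hX1, hX2, ?_⟩
  intro huv
  rcases eq_or_eq_neg_of_xc_eq hP h2 huv with h | h
  · apply hP
    have : P + P = P + 0 := by rw [e2, add_zero]; exact h.symm
    exact (add_left_cancel this)
  · apply h3
    have h' : 2 • P + P = 0 := by
      nth_rewrite 2 [h]
      exact add_neg_cancel _
    rw [succ_nsmul]; exact h'

/-- the `x`-coordinate of a point of order `5` is a root of the `5`-division polynomial -/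
lemma dPsi5_eq_zero_of_order5 [CharZero K] {P : E.Point} (hP : P ≠ 0) (h5 : 5 • P = 0) :
    dPsi5 E.b₂ E.b₄ E.b₆ E.b₈ (xc P) = 0 := by
  obtain ⟨hD1, hD2, hX1, hX2, huv⟩ := order5_rel hP h5
  have h4 : (4:K) ≠ 0 := by norm_num
  have hb := E.b_relation
  set u := xc P with hu
  set v := xc (2 • P) with hv
  have hv' : v = dN E.b₄ E.b₆ E.b₈ u / dD E.b₂ E.b₄ E.b₆ u := by
    rw [eq_div_iff hD1]; exact hX1
  have e1 := dD_div E.b₂ E.b₄ E.b₆ E.b₈ u hD1
  have e2 := dN_div E.b₂ E.b₄ E.b₆ E.b₈ u hD1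
  rw [← hv'] at e1 e2
  have e3 := id3 E.b₂ E.b₄ E.b₆ E.b₈ u hb h4
  have e0 := id1 E.b₂ E.b₄ E.b₆ E.b₈ u
  have hpsi3 : dPsi3 E.b₂ E.b₄ E.b₆ E.b₈ u ≠ 0 := by
    intro h0
    rw [h0, neg_zero, sub_eq_zero, ← hX1] at e0
    exact huv (mul_right_cancel₀ hD1 e0).symm
  have : dPsi3 E.b₂ E.b₄ E.b₆ E.b₈ u * dPsi5 E.b₂ E.b₄ E.b₆ E.b₈ u = 0 := by
    have : dN2 E.b₂ E.b₄ E.b₆ E.b₈ u = u * dD E.b₂ E.b₄ E.b₆ u * dD2 E.b₂ E.b₄ E.b₆ E.b₈ u := by
      rw [← e1, ← e2, ← hX2]; ring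
    rw [this, sub_self] at e3
    linear_combination e3
  exact (mul_eq_zero.mp this).resolve_left hpsi3

end order5

section existence

lemma eval_preΨ'_five (E : WeierstrassCurve.Affine K) (x : K) :
    (E.preΨ' 5).eval x = dPsi5 E.b₂ E.b₄ E.b₆ E.b₈ x := by
  have h := E.preΨ'_odd 0
  simp only [zero_add, Nat.reduceMul, Nat.reduceAdd, preΨ'_four, preΨ'_two, one_pow, mul_one,
    Even.zero, if_true, preΨ'_one, preΨ'_three, one_mul] at h
  rw [h]
  simp only [dPsi5, dPre4, dD, dPsi3, WeierstrassCurve.preΨ₄, WeierstrassCurve.Ψ₂Sq,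
    WeierstrassCurve.Ψ₃, Polynomial.eval_sub, Polynomial.eval_mul, Polynomial.eval_pow,
    Polynomial.eval_add, Polynomial.eval_C, Polynomial.eval_X, Polynomial.eval_ofNat]

/-- every point on the curve: existence of `y` for a given `x` over an algebraically closed
field -/
lemma exists_equation [IsAlgClosed K] [CharZero K] (E : WeierstrassCurve.Affine K) (x : K) :
    ∃ y : K, E.Equation x y := by
  obtain ⟨s, hs⟩ := IsAlgClosed.exists_pow_nat_eq (dD E.b₂ E.b₄ E.b₆ x) (n := 2) (by norm_num)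
  refine ⟨(s - E.a₁ * x - E.a₃) / 2, ?_⟩
  rw [Affine.equation_iff]
  simp only [dD, WeierstrassCurve.b₂, WeierstrassCurve.b₄, WeierstrassCurve.b₆] at hs
  field_simp
  linear_combination hs

/-- key nonvanishing statements at a root of the `5`-division polynomial -/
lemma nonvanishing_of_dPsi5 [CharZero K] {x y : K} (h : E.Nonsingular x y)
    (h5 : dPsi5 E.b₂ E.b₄ E.b₆ E.b₈ x = 0) :
    dD E.b₂ E.b₄ E.b₆ x ≠ 0 ∧ dPsi3 E.b₂ E.b₄ E.b₆ E.b₈ x ≠ 0 ∧
      dPre4 E.b₂ E.b₄ E.b₆ E.b₈ x ≠ 0 := by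
  have h4 : (4:K) ≠ 0 := by norm_num
  have hb := E.b_relation
  have e0 := id1 E.b₂ E.b₄ E.b₆ E.b₈ x
  have e2 := id2 E.b₂ E.b₄ E.b₆ E.b₈ x hb h4
  rw [dPsi5, sub_eq_zero] at h5
  have hD : dD E.b₂ E.b₄ E.b₆ x ≠ 0 := by
    intro hD
    rw [hD] at h5
    have h3 : dPsi3 E.b₂ E.b₄ E.b₆ E.b₈ x = 0 := by
      have : (dPsi3 E.b₂ E.b₄ E.b₆ E.b₈ x)^3 = 0 := by rw [← h5]; ring
      exact pow_eq_zero_iff (by norm_num) |>.mp this
    rw [h3, hD] at e0
    have hN : dN E.b₄ E.b₆ E.b₈ x = 0 := by linear_combination e0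
    have hy : y - E.negY x y = 0 := by
      have := dD_eq E h.1
      rw [hD] at this
      exact pow_eq_zero_iff (by norm_num) |>.mp this.symm
    have hn := dN_eq E h.1
    rw [hN, hy] at hn
    have hn' : 3 * x ^ 2 + 2 * E.a₂ * x + E.a₄ - E.a₁ * y = 0 := by
      have : (3 * x ^ 2 + 2 * E.a₂ * x + E.a₄ - E.a₁ * y)^2 = 0 := by linear_combination -hn
      exact pow_eq_zero_iff (by norm_num) |>.mp this
    rcases (Affine.nonsingular_iff x y).mp h with ⟨-, h' | h'⟩
    · exact h' (by linear_combination -hn')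
    · exact h' (by simp only [Affine.negY] at hy; linear_combination hy)
  have h3 : dPsi3 E.b₂ E.b₄ E.b₆ E.b₈ x ≠ 0 := by
    intro h3
    rw [h3] at h5 e0
    have hp : dPre4 E.b₂ E.b₄ E.b₆ E.b₈ x = 0 := by
      have : dPre4 E.b₂ E.b₄ E.b₆ E.b₈ x * dD E.b₂ E.b₄ E.b₆ x ^ 2 = 0 := by rw [h5]; ring
      exact (mul_eq_zero.mp this).resolve_right (pow_ne_zero 2 hD)
    rw [hp] at e2
    have hN : dN E.b₄ E.b₆ E.b₈ x = x * dD E.b₂ E.b₄ E.b₆ x := by linear_combination e0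
    have : dD2 E.b₂ E.b₄ E.b₆ E.b₈ x = (dD E.b₂ E.b₄ E.b₆ x)^4 := by
      rw [dD2, hN]
      generalize hd : dD E.b₂ E.b₄ E.b₆ x = d
      simp only [dD] at hd
      rw [← hd]; ring
    rw [this] at e2
    exact pow_ne_zero 4 hD (by rw [e2]; ring)
  refine ⟨hD, h3, ?_⟩
  intro hp
  rw [hp] at h5
  apply h3
  have : (dPsi3 E.b₂ E.b₄ E.b₆ E.b₈ x)^3 = 0 := by rw [← h5]; ring
  exact pow_eq_zero_iff (by norm_num) |>.mp this

/-- a root of the `5`-division polynomial is the `x`-coordinate of a point of order `5` -/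
lemma order5_of_dPsi5 [CharZero K] {x y : K} (h : E.Nonsingular x y)
    (h5 : dPsi5 E.b₂ E.b₄ E.b₆ E.b₈ x = 0) :
    5 • (Point.some x y h) = 0 := by
  obtain ⟨hD, h3, hp⟩ := nonvanishing_of_dPsi5 h h5
  have h4 : (4:K) ≠ 0 := by norm_num
  have hb := E.b_relation
  have e0 := id1 E.b₂ E.b₄ E.b₆ E.b₈ x
  have e2 := id2 E.b₂ E.b₄ E.b₆ E.b₈ x hb h4
  have e3 := id3 E.b₂ E.b₄ E.b₆ E.b₈ x hb h4
  set P : E.Point := Point.some x y h with hPdef
  have hP : P ≠ 0 := Point.some_ne_zero _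
  have hxP : xc P = x := rfl
  have h2P : P + P ≠ 0 := add_self_ne_zero_of_dD_ne_zero hP (by rw [hxP]; exact hD)
  obtain ⟨-, hX1⟩ := xc_add_self hP h2P
  rw [hxP] at hX1
  set v := xc (P + P) with hv
  have hv' : v = dN E.b₄ E.b₆ E.b₈ x / dD E.b₂ E.b₄ E.b₆ x := by
    rw [eq_div_iff hD]; exact hX1
  have e1' := dD_div E.b₂ E.b₄ E.b₆ E.b₈ x hD
  have e2' := dN_div E.b₂ E.b₄ E.b₆ E.b₈ x hD
  rw [← hv'] at e1' e2'
  have hDv : dD E.b₂ E.b₄ E.b₆ v ≠ 0 := by
    intro h0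
    rw [h0, zero_mul, e2] at e1'
    exact hp (pow_eq_zero_iff (by norm_num) |>.mp e1'.symm)
  have h4P : (P + P) + (P + P) ≠ 0 := add_self_ne_zero_of_dD_ne_zero h2P hDv
  obtain ⟨-, hX2⟩ := xc_add_self h2P h4P
  rw [← hv] at hX2
  have hx4 : xc ((P + P) + (P + P)) = xc P := by
    rw [hxP]
    have hD3 : dD E.b₂ E.b₄ E.b₆ x ^ 3 ≠ 0 := pow_ne_zero 3 hD
    apply mul_right_cancel₀ hDv
    apply mul_right_cancel₀ (pow_ne_zero 4 hD)
    rw [hX2, e2']
    rw [h5, mul_zero, sub_eq_zero] at e3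
    rw [e3, ← e1']; ring
  rcases eq_or_eq_neg_of_xc_eq h4P hP hx4 with h' | h'
  · -- 4P = P, so 3P = 0, so 2P = -P
    exfalso
    have h3P : P + P = -P := by
      have e : (P + P + P) + P = 0 + P := by
        rw [zero_add]
        exact (by abel : P + P + P + P = P + P + (P + P)).trans h'
      have := add_right_cancel e
      exact eq_neg_of_add_eq_zero_left this
    have : v = x := by rw [hv, h3P, xc_neg, hxP]
    rw [this] at hX1
    rw [← hX1, sub_self] at e0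
    exact h3 (by linear_combination e0)
  · have : 5 • P = (P + P) + (P + P) + P := by
      simp only [succ_nsmul, zero_nsmul, zero_add]; abel
    rw [this, h', neg_add_cancel]

/-- over an algebraically closed field of characteristic `0`, an elliptic curve has a point of
order `5` -/
theorem exists_order5 [IsAlgClosed K] [CharZero K] (E : WeierstrassCurve.Affine K)
    [E.IsElliptic] : ∃ P : E.Point, P ≠ 0 ∧ 5 • P = 0 := by
  have h5K : ((5 : ℕ) : K) ≠ 0 := by norm_num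
  have hdeg : (E.preΨ' 5).degree ≠ 0 := by
    have := E.natDegree_preΨ' h5K
    have hne := E.preΨ'_ne_zero h5K
    rw [Polynomial.degree_eq_natDegree hne, this]
    norm_num [Nat.not_even_iff_odd.mpr (by decide : Odd 5)]
  obtain ⟨x, hx⟩ := IsAlgClosed.exists_root (E.preΨ' 5) hdeg
  rw [Polynomial.IsRoot.def, eval_preΨ'_five] at hx
  obtain ⟨y, hy⟩ := exists_equation E x
  have hns : E.Nonsingular x y := Affine.equation_iff_nonsingular.mp hy
  exact ⟨Point.some x y hns, Point.some_ne_zero _, order5_of_dPsi5 hns hx⟩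

end existence

section counting

variable [CharZero K]

lemma isRoot_of_order5 {P : E.Point} (hP : P ≠ 0) (h5 : 5 • P = 0) :
    (E.preΨ' 5).IsRoot (xc P) := by
  rw [Polynomial.IsRoot.def, eval_preΨ'_five]
  exact dPsi5_eq_zero_of_order5 hP h5

open Classical in
/-- a finite set containing all nonzero points with a given set of `x`-coordinates -/
noncomputable def pointsOver (E : WeierstrassCurve.Affine K) (R : Finset K) : Finset E.Point :=
  R.biUnion fun a =>
    if h : ∃ Q : E.Point, Q ≠ 0 ∧ xc Q = a then {Classical.choose h, -Classical.choose h} else ∅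

lemma card_pointsOver_le (E : WeierstrassCurve.Affine K) (R : Finset K) :
    (pointsOver E R).card ≤ R.card * 2 := by
  classical
  unfold pointsOver
  apply Finset.card_biUnion_le_card_mul
  intro a _
  split_ifs with h
  · exact Finset.card_le_two
  · simp

lemma mem_pointsOver {R : Finset K} {P : E.Point} (hP : P ≠ 0) (hx : xc P ∈ R) :
    P ∈ pointsOver E R := by
  classical
  unfold pointsOver
  rw [Finset.mem_biUnion]
  refine ⟨xc P, hx, ?_⟩
  have h : ∃ Q : E.Point, Q ≠ 0 ∧ xc Q = xc P := ⟨P, hP, rfl⟩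
  rw [dif_pos h]
  obtain ⟨hQ0, hQx⟩ := Classical.choose_spec h
  rcases eq_or_eq_neg_of_xc_eq hP hQ0 hQx.symm with h' | h'
  · rw [Finset.mem_insert]; exact Or.inl h'
  · rw [Finset.mem_insert, Finset.mem_singleton]; exact Or.inr h'

/-- the finite set of candidates for the `5`-torsion points -/
noncomputable def fiveCandidates (E : WeierstrassCurve.Affine K) : Finset E.Point :=
  insert 0 (pointsOver E (E.preΨ' 5).roots.toFinset)

lemma card_fiveCandidates_le (E : WeierstrassCurve.Affine K) : (fiveCandidates E).card ≤ 25 := by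
  classical
  have h5K : ((5 : ℕ) : K) ≠ 0 := by norm_num
  have hdeg : (E.preΨ' 5).natDegree = 12 := by
    rw [E.natDegree_preΨ' h5K]
    norm_num [Nat.not_even_iff_odd.mpr (by decide : Odd 5)]
  have h1 : (E.preΨ' 5).roots.toFinset.card ≤ 12 := by
    calc (E.preΨ' 5).roots.toFinset.card ≤ Multiset.card (E.preΨ' 5).roots :=
          Multiset.toFinset_card_le _
      _ ≤ (E.preΨ' 5).natDegree := Polynomial.card_roots' _
      _ = 12 := hdeg
  calc (fiveCandidates E).card ≤ (pointsOver E (E.preΨ' 5).roots.toFinset).card + 1 :=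
        Finset.card_insert_le _ _
    _ ≤ (E.preΨ' 5).roots.toFinset.card * 2 + 1 :=
        Nat.add_le_add_right (card_pointsOver_le E _) 1
    _ ≤ 25 := by omega

lemma mem_fiveCandidates {P : E.Point} (h5 : 5 • P = 0) : P ∈ fiveCandidates E := by
  classical
  have h5K : ((5 : ℕ) : K) ≠ 0 := by norm_num
  unfold fiveCandidates
  by_cases hP : P = 0
  · rw [hP]; exact Finset.mem_insert_self _ _
  · apply Finset.mem_insert_of_mem
    apply mem_pointsOver hP
    rw [Multiset.mem_toFinset, Polynomial.mem_roots (E.preΨ'_ne_zero h5K)]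
    exact isRoot_of_order5 hP h5

end counting

end Fermat.Agent.S51.Five
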