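import Mathlib
import Fermat.Prelude.Def_FLTPrelim_GaloisRep
import Fermat.Prelude.Def_FLTPrelim_ModularRep
import Fermat.Agent.S51.FiveTorsion

/-!
# S51, the `5`-side: Galois-stable lines in `E[5]`
-/

open WeierstrassCurve WeierstrassCurve.Affine WeierstrassCurve.Affine.Point

namespace Fermat.Agent.S51.Five

section general

variable {K : Type*} [Field K] [DecidableEq K] [CharZero K] {W' : WeierstrassCurve.Affine ℚ}
  [Algebra ℚ K]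

lemma xc_galois_smul (σ : K ≃ₐ[ℚ] K) (P : (W'⁄K).Point) : xc (σ • P) = σ (xc P) := by
  cases P with
  | zero => exact (map_zero σ).symm
  | some x y h => rfl

lemma coe_galois_smul (σ : K ≃ₐ[ℚ] K) (P : Submodule.torsionBy ℤ (W'⁄K).Point ((5 : ℕ) : ℤ)) :
    ((σ • P : Submodule.torsionBy ℤ (W'⁄K).Point ((5 : ℕ) : ℤ)) : (W'⁄K).Point) = σ • (P : (W'⁄K).Point) :=
  rfl

lemma nsmul_eq_zero_of_mem (P : Submodule.torsionBy ℤ (W'⁄K).Point ((5 : ℕ) : ℤ)) :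
    5 • (P : (W'⁄K).Point) = 0 := by
  have := P.2
  rw [Submodule.mem_torsionBy_iff] at this
  rw [← this]
  exact (natCast_zsmul _ 5).symm

instance finite_torsion5 : Finite (Submodule.torsionBy ℤ (W'⁄K).Point ((5 : ℕ) : ℤ)) := by
  classical
  let f : Submodule.torsionBy ℤ (W'⁄K).Point 5 → (fiveCandidates (W'⁄K)) :=
    fun P => ⟨P.1, mem_fiveCandidates (nsmul_eq_zero_of_mem P)⟩
  have hf : Function.Injective f := by
    intro P Q h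
    exact Subtype.ext (congrArg (fun x : fiveCandidates (W'⁄K) => (x : (W'⁄K).Point)) h)
  exact Finite.of_injective f hf

lemma card_torsion5_le : Nat.card (Submodule.torsionBy ℤ (W'⁄K).Point ((5 : ℕ) : ℤ)) ≤ 25 := by
  classical
  let f : Submodule.torsionBy ℤ (W'⁄K).Point 5 → (fiveCandidates (W'⁄K)) :=
    fun P => ⟨P.1, mem_fiveCandidates (nsmul_eq_zero_of_mem P)⟩
  have hf : Function.Injective f := by
    intro P Q h
    exact Subtype.ext (congrArg (fun x : fiveCandidates (W'⁄K) => (x : (W'⁄K).Point)) h)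
  calc Nat.card (Submodule.torsionBy ℤ (W'⁄K).Point ((5 : ℕ) : ℤ))
      ≤ Nat.card (fiveCandidates (W'⁄K)) := Nat.card_le_card_of_injective f hf
    _ = (fiveCandidates (W'⁄K)).card := by rw [Nat.card_eq_fintype_card, Fintype.card_coe]
    _ ≤ 25 := card_fiveCandidates_le _

instance fact_prime_five' : Fact (Nat.Prime 5) := ⟨by norm_num⟩

lemma finrank_torsion5_le :
    Module.finrank (ZMod 5) (Submodule.torsionBy ℤ (W'⁄K).Point ((5 : ℕ) : ℤ)) ≤ 2 := by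
  have h1 := Module.natCard_eq_pow_finrank (K := ZMod 5)
    (V := Submodule.torsionBy ℤ (W'⁄K).Point ((5 : ℕ) : ℤ))
  have h2 := card_torsion5_le (K := K) (W' := W')
  rw [h1, Nat.card_zmod] at h2
  by_contra hcon
  replace hcon : 3 ≤ Module.finrank (ZMod 5)
      (Submodule.torsionBy ℤ (W'⁄K).Point ((5 : ℕ) : ℤ)) := by omega
  have : 5 ^ 3 ≤ 5 ^ Module.finrank (ZMod 5) (Submodule.torsionBy ℤ (W'⁄K).Point ((5 : ℕ) : ℤ)) :=
    Nat.pow_le_pow_right (by norm_num) hcon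
  omega

/-- a proper nonzero submodule of `E[5]` is a line -/
lemma exists_generator (N : Submodule (ZMod 5) (Submodule.torsionBy ℤ (W'⁄K).Point ((5 : ℕ) : ℤ)))
    (h0 : N ≠ ⊥) (h1 : N ≠ ⊤) :
    ∃ P : Submodule.torsionBy ℤ (W'⁄K).Point ((5 : ℕ) : ℤ), P ∈ N ∧ P ≠ 0 ∧
      ∀ Q ∈ N, ∃ c : ZMod 5, c • P = Q := by
  have hlt := Submodule.finrank_lt h1
  have hle := finrank_torsion5_le (K := K) (W' := W')
  have hpos : 0 < Module.finrank (ZMod 5) N := by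
    rw [Nat.pos_iff_ne_zero]
    intro h
    exact h0 (Submodule.finrank_eq_zero.mp h)
  have hone : Module.finrank (ZMod 5) N = 1 := by omega
  obtain ⟨v, hv, hspan⟩ := finrank_eq_one_iff'.mp hone
  refine ⟨v.1, v.2, fun h => hv (Subtype.ext h), fun Q hQ => ?_⟩
  obtain ⟨c, hc⟩ := hspan ⟨Q, hQ⟩
  exact ⟨c, congrArg Subtype.val hc⟩

lemma coe_zmod_smul (c : ZMod 5) (P : Submodule.torsionBy ℤ (W'⁄K).Point ((5 : ℕ) : ℤ)) :
    ((c • P : Submodule.torsionBy ℤ (W'⁄K).Point ((5 : ℕ) : ℤ)) : (W'⁄K).Point) =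
      c.val • (P : (W'⁄K).Point) := by
  conv_lhs => rw [← ZMod.natCast_zmod_val c]
  rw [Nat.cast_smul_eq_nsmul]
  rfl

lemma galois_smul_nsmul (σ : K ≃ₐ[ℚ] K) (n : ℕ) (P : (W'⁄K).Point) :
    σ • (n • P) = n • (σ • P) := by
  have := algEquiv_smul_zsmul σ (n : ℤ) P
  simpa only [natCast_zsmul] using this

end general

section sym

variable {K : Type*} [Field K] [DecidableEq K] {E : WeierstrassCurve.Affine K}

/-- the pair `{x(kP), x(2kP)}` does not depend on `k` prime to `5` -/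
lemma sym_xc {P : E.Point} (h5 : 5 • P = 0) (k : ℕ) (hk : ¬ 5 ∣ k) :
    (xc (k • P) = xc P ∧ xc ((2 * k) • P) = xc (2 • P)) ∨
    (xc (k • P) = xc (2 • P) ∧ xc ((2 * k) • P) = xc P) := by
  have hmod : ∀ n : ℕ, n • P = (n % 5) • P := by
    intro n
    conv_lhs => rw [← Nat.div_add_mod n 5]
    rw [add_nsmul, mul_nsmul, h5, smul_zero, zero_add]
  have h4 : 4 • P = -P := by
    rw [eq_neg_iff_add_eq_zero, ← succ_nsmul]; exact h5
  have h3 : (3 • P : E.Point) = -((2 • P : E.Point)) := by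
    rw [eq_neg_iff_add_eq_zero, ← add_nsmul]; exact h5
  have hk5 : k % 5 < 5 := Nat.mod_lt _ (by norm_num)
  have hk0 : k % 5 ≠ 0 := fun h => hk (Nat.dvd_of_mod_eq_zero h)
  rw [hmod k, hmod (2 * k)]
  have h2k : (2 * k) % 5 = (2 * (k % 5)) % 5 := by omega
  rw [h2k]
  generalize k % 5 = r at hk5 hk0
  interval_cases r
  · exact absurd rfl hk0
  · left; exact ⟨by rw [one_nsmul], rfl⟩
  · right
    refine ⟨rfl, ?_⟩
    show xc (4 • P) = xc P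
    rw [h4, xc_neg]
  · right
    refine ⟨by rw [h3, xc_neg], ?_⟩
    show xc (1 • P) = xc P
    rw [one_nsmul]
  · left
    refine ⟨by rw [h4, xc_neg], ?_⟩
    show xc (3 • P) = xc (2 • P)
    rw [h3, xc_neg]

end sym

section main

local notation "Qbar" => AlgebraicClosure ℚ

/-- `ℚ̄/ℚ` is Galois, for the default `ℚ`-algebra structure on `ℚ̄` -/
theorem isGalois_Qbar : IsGalois ℚ (AlgebraicClosure ℚ) := by
  have h : @IsGalois ℚ _ (AlgebraicClosure ℚ) _ (AlgebraicClosure.instAlgebra ℚ) := inferInstance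
  have e : (AlgebraicClosure.instAlgebra ℚ : Algebra ℚ (AlgebraicClosure ℚ)) =
      DivisionRing.toRatAlgebra := Subsingleton.elim _ _
  rw [← e]
  exact h

/-- **(T5)**: if the mod-`5` representation is not irreducible, there is a Galois-stable
`2`-cycle `{x₁, x₂}` of the `x`-duplication map. -/
theorem five_data (W' : WeierstrassCurve.Affine ℚ) (hΔ : W'.Δ ≠ 0)
    (h5 : ¬ GaloisRepIsIrreducible (K := Qbar) ℚ W' 5) :
    ∃ x₁ x₂ : Qbar, x₁ ≠ x₂ ∧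
      dD (W'⁄Qbar).b₂ (W'⁄Qbar).b₄ (W'⁄Qbar).b₆ x₁ ≠ 0 ∧
      dD (W'⁄Qbar).b₂ (W'⁄Qbar).b₄ (W'⁄Qbar).b₆ x₂ ≠ 0 ∧
      x₂ * dD (W'⁄Qbar).b₂ (W'⁄Qbar).b₄ (W'⁄Qbar).b₆ x₁
        = dN (W'⁄Qbar).b₄ (W'⁄Qbar).b₆ (W'⁄Qbar).b₈ x₁ ∧
      x₁ * dD (W'⁄Qbar).b₂ (W'⁄Qbar).b₄ (W'⁄Qbar).b₆ x₂
        = dN (W'⁄Qbar).b₄ (W'⁄Qbar).b₆ (W'⁄Qbar).b₈ x₂ ∧
      (x₁ + x₂) ∈ Set.range (algebraMap ℚ Qbar) ∧
      (x₁ * x₂) ∈ Set.range (algebraMap ℚ Qbar) := by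
  haveI := isGalois_Qbar
  haveI : (W'⁄Qbar).IsElliptic := by
    constructor
    rw [isUnit_iff_ne_zero]
    show (W'.map (algebraMap ℚ Qbar)).Δ ≠ 0
    rw [WeierstrassCurve.map_Δ]
    exact (map_ne_zero _).mpr hΔ
  -- nontriviality
  have hnt : Nontrivial (Submodule.torsionBy ℤ (W'⁄Qbar).Point ((5 : ℕ) : ℤ)) := by
    obtain ⟨P, hP, hP5⟩ := exists_order5 (W'⁄Qbar)
    have hmem : P ∈ Submodule.torsionBy ℤ (W'⁄Qbar).Point ((5 : ℕ) : ℤ) := by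
      rw [Submodule.mem_torsionBy_iff, natCast_zsmul]; exact hP5
    exact ⟨⟨⟨P, hmem⟩, 0, fun h => hP (congrArg Subtype.val h)⟩⟩
  unfold GaloisRepIsIrreducible at h5
  rw [not_and_or] at h5
  rcases h5 with h5 | h5
  · exact absurd hnt h5
  rw [not_forall] at h5
  obtain ⟨N, hN⟩ := h5
  rw [Classical.not_imp, not_or] at hN
  obtain ⟨hstab, hN0, hN1⟩ := hN
  obtain ⟨P, hPN, hP0, hgen⟩ := exists_generator N hN0 hN1
  have hP5 : 5 • (P : (W'⁄Qbar).Point) = 0 := nsmul_eq_zero_of_mem P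
  have hP0' : (P : (W'⁄Qbar).Point) ≠ 0 := fun h => hP0 (Subtype.ext h)
  obtain ⟨hD1, hD2, hX1, hX2, huv⟩ := order5_rel hP0' hP5
  refine ⟨xc (P : (W'⁄Qbar).Point), xc (2 • (P : (W'⁄Qbar).Point)), huv, hD1, hD2, hX1, hX2, ?_⟩
  -- Galois invariance
  have hσ : ∀ σ : Qbar ≃ₐ[ℚ] Qbar,
      (σ (xc (P : (W'⁄Qbar).Point)) = xc (P : (W'⁄Qbar).Point) ∧
        σ (xc (2 • (P : (W'⁄Qbar).Point))) = xc (2 • (P : (W'⁄Qbar).Point))) ∨
      (σ (xc (P : (W'⁄Qbar).Point)) = xc (2 • (P : (W'⁄Qbar).Point)) ∧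
        σ (xc (2 • (P : (W'⁄Qbar).Point))) = xc (P : (W'⁄Qbar).Point)) := by
    intro σ
    obtain ⟨c, hc⟩ := hgen (σ • P) (hstab σ P hPN)
    have hc' : c.val • (P : (W'⁄Qbar).Point) = σ • (P : (W'⁄Qbar).Point) := by
      rw [← coe_zmod_smul, hc]; rfl
    have hk : ¬ 5 ∣ c.val := by
      intro hdvd
      have h0 : c.val • (P : (W'⁄Qbar).Point) = 0 :=
        (nsmul_eq_zero_iff_of_order5 hP0' hP5 _).mpr hdvd
      rw [hc'] at h0
      exact hP0' ((smul_eq_zero_iff_eq σ).mp h0)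
    have h2 : (2 * c.val) • (P : (W'⁄Qbar).Point) = σ • (2 • (P : (W'⁄Qbar).Point)) := by
      rw [galois_smul_nsmul, ← hc', mul_nsmul']
    have := sym_xc hP5 c.val hk
    rw [hc', h2, xc_galois_smul, xc_galois_smul] at this
    exact this
  constructor
  · rw [InfiniteGalois.mem_range_algebraMap_iff_fixed]
    intro σ
    rcases hσ σ with ⟨h1, h2⟩ | ⟨h1, h2⟩
    · rw [map_add, h1, h2]
    · rw [map_add, h1, h2, add_comm]
  · rw [InfiniteGalois.mem_range_algebraMap_iff_fixed]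
    intro σ
    rcases hσ σ with ⟨h1, h2⟩ | ⟨h1, h2⟩
    · rw [map_mul, h1, h2]
    · rw [map_mul, h1, h2, mul_comm]

/-- **(I2), `d`-form**: if the mod-`5` representation of `W` is not irreducible, then there is a
nonzero rational `d` (`= (x(P) - x(2P))^2`) with `c₄ d^5 = Δ^2 + 10 Δ d^3 + 5 d^6`. -/
theorem five_side_d (W : WeierstrassCurve ℤ) (hΔ : W.Δ ≠ 0) (h5 : ¬ W.ModRepIsIrreducible 5) :
    ∃ d : ℚ, d ≠ 0 ∧ (W.c₄ : ℚ) * d ^ 5 = (W.Δ : ℚ) ^ 2 + 10 * (W.Δ : ℚ) * d ^ 3 + 5 * d ^ 6 := by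
  set W' : WeierstrassCurve.Affine ℚ := W.map (Int.castRingHom ℚ) with hW'
  have hΔ' : W'.Δ ≠ 0 := by
    rw [hW', WeierstrassCurve.map_Δ]
    simpa using hΔ
  obtain ⟨x₁, x₂, hne, -, -, hX1, hX2, ⟨s, hs⟩, ⟨q, hq⟩⟩ := five_data W' hΔ' h5
  have key := hauptmodul_identity (W'⁄Qbar).b₂ (W'⁄Qbar).b₄ (W'⁄Qbar).b₆ (W'⁄Qbar).b₈ x₁ x₂
    (W'⁄Qbar).b_relation (by simp only [dD, dN] at hX1; rw [← hX1])
    (by simp only [dD, dN] at hX2; rw [← hX2]) hne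
  have hc4 : (W'⁄Qbar).b₂ ^ 2 - 24 * (W'⁄Qbar).b₄ = algebraMap ℚ Qbar (W.c₄ : ℚ) := by
    have h1 : (W'⁄Qbar).c₄ = algebraMap ℚ Qbar W'.c₄ := WeierstrassCurve.map_c₄ _ _
    have h2 : W'.c₄ = (W.c₄ : ℚ) := by
      rw [hW', WeierstrassCurve.map_c₄]; rfl
    rw [← h2, ← h1]; rfl
  have hdisc : -(W'⁄Qbar).b₂ ^ 2 * (W'⁄Qbar).b₈ - 8 * (W'⁄Qbar).b₄ ^ 3 - 27 * (W'⁄Qbar).b₆ ^ 2
      + 9 * (W'⁄Qbar).b₂ * (W'⁄Qbar).b₄ * (W'⁄Qbar).b₆ = algebraMap ℚ Qbar (W.Δ : ℚ) := by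
    have h1 : (W'⁄Qbar).Δ = algebraMap ℚ Qbar W'.Δ := WeierstrassCurve.map_Δ _ _
    have h2 : W'.Δ = (W.Δ : ℚ) := by
      rw [hW', WeierstrassCurve.map_Δ]; rfl
    rw [← h2, ← h1]; rfl
  have hd : (x₁ - x₂) ^ 2 = algebraMap ℚ Qbar (s ^ 2 - 4 * q) := by
    rw [map_sub, map_pow, map_mul, hs, hq, map_ofNat]; ring
  rw [hc4, hdisc, hd] at key
  refine ⟨s ^ 2 - 4 * q, ?_, ?_⟩
  · intro h0
    rw [h0, _root_.map_zero] at hd
    exact hne (sub_eq_zero.mp (pow_eq_zero_iff (by norm_num) |>.mp hd))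
  · apply (algebraMap ℚ Qbar).injective
    simp only [map_mul, map_pow, map_add, map_ofNat]
    exact key

/-- **(I2), `h`-form**: if the mod-`5` representation of `W` is not irreducible, then
`j = (h^2 + 10 h + 5)^3 / h` for some nonzero rational `h`. -/
theorem five_side_h (W : WeierstrassCurve ℤ) (hΔ : W.Δ ≠ 0) (h5 : ¬ W.ModRepIsIrreducible 5) :
    ∃ h : ℚ, h ≠ 0 ∧ (W.c₄ : ℚ) ^ 3 * h = (W.Δ : ℚ) * (h ^ 2 + 10 * h + 5) ^ 3 := by
  obtain ⟨d, hd0, hd⟩ := five_side_d W hΔ h5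
  have hΔ' : (W.Δ : ℚ) ≠ 0 := by exact_mod_cast hΔ
  refine ⟨(W.Δ : ℚ) / d ^ 3, div_ne_zero hΔ' (pow_ne_zero 3 hd0), ?_⟩
  have h1 : ((W.Δ : ℚ) / d ^ 3) ^ 2 + 10 * ((W.Δ : ℚ) / d ^ 3) + 5 = (W.c₄ : ℚ) / d := by
    field_simp
    linear_combination -hd
  rw [h1]
  field_simp

end main

end Fermat.Agent.S51.Five
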