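import Mathlib

set_option autoImplicit false

namespace Fermat.Agent.S51.D531

/-- squares of odd integers are `1` mod `8` -/
theorem sq_emod_eight_of_odd {d : ℤ} (hd : d % 2 = 1) : d ^ 2 % 8 = 1 := by
  have h : d % 8 = 1 ∨ d % 8 = 3 ∨ d % 8 = 5 ∨ d % 8 = 7 := by omega
  rcases h with h | h | h | h <;> simp [pow_two, Int.mul_emod, h]

/-- a sum of two squares divisible by `3` has both entries divisible by `3` -/
theorem three_dvd_of_sq_add_sq {a d : ℤ} (h : (3 : ℤ) ∣ a ^ 2 + d ^ 2) :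
    (3 : ℤ) ∣ a ∧ (3 : ℤ) ∣ d := by
  have ha : a % 3 = 0 ∨ a % 3 = 1 ∨ a % 3 = 2 := by omega
  have hd : d % 3 = 0 ∨ d % 3 = 1 ∨ d % 3 = 2 := by omega
  have h3 : (a ^ 2 + d ^ 2) % 3 = 0 := Int.emod_eq_zero_of_dvd h
  rcases ha with ha | ha | ha <;> rcases hd with hd | hd | hd <;>
    simp [pow_two, Int.add_emod, Int.mul_emod, ha, hd] at h3
  exact ⟨Int.dvd_of_emod_eq_zero ha, Int.dvd_of_emod_eq_zero hd⟩

/-- The four-number lemma, with natural-number outputs. -/
theorem four_numbers {p q r s : ℤ} (h : p * q = r * s) (hpq : Int.gcd p q = 1)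
    (hrs : Int.gcd r s = 1) :
    ∃ a b c d : ℕ, p.natAbs = a * b ∧ q.natAbs = c * d ∧ r.natAbs = a * c ∧ s.natAbs = b * d := by
  have hN : p.natAbs * q.natAbs = r.natAbs * s.natAbs := by
    rw [← Int.natAbs_mul, ← Int.natAbs_mul, h]
  have hpq' : Nat.Coprime p.natAbs q.natAbs := hpq
  have hrs' : Nat.Coprime r.natAbs s.natAbs := hrs
  refine ⟨Nat.gcd p.natAbs r.natAbs, Nat.gcd p.natAbs s.natAbs, Nat.gcd q.natAbs r.natAbs,
    Nat.gcd q.natAbs s.natAbs, ?_, ?_, ?_, ?_⟩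
  · rw [← Nat.Coprime.gcd_mul _ hrs', ← hN]
    exact (Nat.gcd_eq_left (Nat.dvd_mul_right _ _)).symm
  · rw [← Nat.Coprime.gcd_mul _ hrs', ← hN]
    exact (Nat.gcd_eq_left (Nat.dvd_mul_left _ _)).symm
  · rw [Nat.gcd_comm p.natAbs r.natAbs, Nat.gcd_comm q.natAbs r.natAbs,
      ← Nat.Coprime.gcd_mul _ hpq', hN]
    exact (Nat.gcd_eq_left (Nat.dvd_mul_right _ _)).symm
  · rw [Nat.gcd_comm p.natAbs s.natAbs, Nat.gcd_comm q.natAbs s.natAbs,
      ← Nat.Coprime.gcd_mul _ hpq', hN]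
    exact (Nat.gcd_eq_left (Nat.dvd_mul_left _ _)).symm

/-- The algebraic heart of the descent step. -/
theorem descent_step {A B C D : ℤ}
    (h : C ^ 2 * (A ^ 2 + D ^ 2) = B ^ 2 * (16 * A ^ 2 + D ^ 2))
    (hBC : IsCoprime B C) (hAD : IsCoprime A D) (hD : D % 2 = 1) (hC : C % 2 = 1)
    (hB : B ≠ 0) : A ^ 2 + D ^ 2 = B ^ 2 ∧ 16 * A ^ 2 + D ^ 2 = C ^ 2 := by
  have hB2 : (B ^ 2) ≠ 0 := pow_ne_zero 2 hB
  have h1 : B ^ 2 ∣ A ^ 2 + D ^ 2 :=
    (IsCoprime.pow (m := 2) (n := 2) hBC).dvd_of_dvd_mul_left ⟨_, h⟩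
  obtain ⟨K, hK⟩ := h1
  have h2 : 16 * A ^ 2 + D ^ 2 = C ^ 2 * K := by
    apply mul_left_cancel₀ hB2
    rw [← h, hK]; ring
  have hD0 : D ≠ 0 := by
    rintro rfl
    simp at hD
  have hDpos : 0 < D ^ 2 := by positivity
  have hApos : 0 ≤ A ^ 2 := by positivity
  have hBpos : 0 < B ^ 2 := by positivity
  have hKpos : 0 < K := by
    by_contra hK0
    rw [not_lt] at hK0
    have : B ^ 2 * K ≤ 0 := mul_nonpos_of_nonneg_of_nonpos hBpos.le hK0
    linarith
  have hK15 : K ∣ 15 := by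
    obtain ⟨u, v, huv⟩ := IsCoprime.pow (m := 2) (n := 2) hAD
    refine ⟨u * (C ^ 2 - B ^ 2) + v * (16 * B ^ 2 - C ^ 2), ?_⟩
    linear_combination (-15 : ℤ) * huv + (-u + 16 * v) * hK + (u - v) * h2
  have hK15' : K ≤ 15 := Int.le_of_dvd (by norm_num) hK15
  have h3 : ∀ m : ℤ, A ^ 2 + D ^ 2 = 3 * m → False := by
    intro m hm
    obtain ⟨⟨a', rfl⟩, ⟨d', rfl⟩⟩ := three_dvd_of_sq_add_sq (a := A) (d := D) ⟨m, hm⟩
    have : IsUnit (3 : ℤ) := hAD.isUnit_of_dvd' (dvd_mul_right _ _) (dvd_mul_right _ _)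
    rw [Int.isUnit_iff] at this
    omega
  have hD8 := sq_emod_eight_of_odd hD
  have hC8 := sq_emod_eight_of_odd hC
  interval_cases K
  · exact ⟨by linarith, by linarith⟩
  · omega
  · exact (h3 (B ^ 2) (by linarith)).elim
  · omega
  · omega
  · omega
  · omega
  · omega
  · omega
  · omega
  · omega
  · omega
  · omega
  · omega
  · exact (h3 (B ^ 2 * 5) (by linarith)).elim


/-- Transfer: squares of natural-number absolute values. -/
theorem natAbs_cast_sq (x : ℤ) : ((x.natAbs : ℤ)) ^ 2 = x ^ 2 := by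
  rw [Int.natCast_natAbs, sq_abs]

/-- Core descent: the system `X² + Y² = Z²`, `X² + 16 Y² = W²` has no coprime solution with
`X` odd and `Y ≠ 0`. -/
theorem core_aux : ∀ (n : ℕ) (X Y Z W : ℤ), Y.natAbs = n → X ^ 2 + Y ^ 2 = Z ^ 2 →
    X ^ 2 + 16 * Y ^ 2 = W ^ 2 → Int.gcd X Y = 1 → X % 2 = 1 → Y = 0 := by
  intro n
  induction n using Nat.strong_induction_on with
  | _ n ih =>
  intro X Y Z W hn h1 h2 hg hX
  by_contra hY
  have hX0 : X ≠ 0 := by
    rintro rfl
    simp at hX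
  have hXpos : 0 < X ^ 2 := by positivity
  have hYpos : 0 < Y ^ 2 := by positivity
  -- first triple
  have hZ0 : 0 < |Z| := by
    rw [abs_pos]
    rintro rfl
    nlinarith
  have hW0 : 0 < |W| := by
    rw [abs_pos]
    rintro rfl
    nlinarith
  have ht1 : PythagoreanTriple X Y |Z| := by
    unfold PythagoreanTriple
    have : |Z| * |Z| = Z ^ 2 := by rw [← sq, sq_abs]
    rw [this]; linarith
  have ht2 : PythagoreanTriple X (4 * Y) |W| := by
    unfold PythagoreanTriple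
    have : |W| * |W| = W ^ 2 := by rw [← sq, sq_abs]
    rw [this]; linarith
  have hcop : IsCoprime X Y := Int.isCoprime_iff_gcd_eq_one.mpr hg
  have hX2 : IsCoprime X 2 := by
    rw [Int.isCoprime_iff_gcd_eq_one]
    have : Int.gcd X 2 ∣ 2 := Int.gcd_dvd_natAbs_right X 2
    have h2' : (Int.gcd X 2 : ℤ) ∣ X := Int.gcd_dvd_left X 2
    have : Int.gcd X 2 = 1 ∨ Int.gcd X 2 = 2 := by
      have := Nat.le_of_dvd (by norm_num) this
      have hpos : 0 < Int.gcd X 2 := Int.gcd_pos_of_ne_zero_left _ hX0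
      interval_cases h : Int.gcd X 2
      · left; rfl
      · right; rfl
    rcases this with h | h
    · exact h
    · rw [h] at h2'
      omega
  have hg4 : Int.gcd X (4 * Y) = 1 := by
    rw [← Int.isCoprime_iff_gcd_eq_one]
    have : (4 : ℤ) = 2 * 2 := by norm_num
    rw [this]
    exact IsCoprime.mul_right (IsCoprime.mul_right hX2 hX2) hcop
  obtain ⟨r, s, hXrs, hYrs, hZrs, hrs, -, -⟩ := ht1.coprime_classification' hg hX hZ0
  obtain ⟨p, q, hXpq, hYpq, hWpq, hpq, hpar, -⟩ := ht2.coprime_classification' hg4 hX hW0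
  have hr0 : r ≠ 0 := by
    rintro rfl
    apply hY; rw [hYrs]; ring
  have hs0 : s ≠ 0 := by
    rintro rfl
    apply hY; rw [hYrs]; ring
  have hpqrs : p * q = 4 * (r * s) := by
    have : 2 * (p * q) = 2 * (4 * (r * s)) := by
      rw [hYrs] at hYpq
      linear_combination -hYpq
    linarith
  have hkey : r ^ 2 - s ^ 2 = p ^ 2 - q ^ 2 := by rw [← hXrs, ← hXpq]
  have hnY : n = 2 * r.natAbs * s.natAbs := by
    rw [← hn, hYrs, Int.natAbs_mul, Int.natAbs_mul]; rfl
  rcases hpar with ⟨hp2, hq2⟩ | ⟨hp2, hq2⟩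
  · -- p even, q odd
    have hq2' : IsCoprime (4 : ℤ) q := by
      have hq' : IsCoprime (2 : ℤ) q := by
        rw [Int.isCoprime_iff_gcd_eq_one]
        have hd : Int.gcd 2 q ∣ 2 := Int.gcd_dvd_natAbs_left 2 q
        have h2' : (Int.gcd 2 q : ℤ) ∣ q := Int.gcd_dvd_right 2 q
        have hle := Nat.le_of_dvd (by norm_num) hd
        have hpos : 0 < Int.gcd 2 q := Int.gcd_pos_of_ne_zero_left _ (by norm_num)
        interval_cases h : Int.gcd 2 q
        · rfl
        · omega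
      have : (4 : ℤ) = 2 * 2 := by norm_num
      rw [this]
      exact IsCoprime.mul_left hq' hq'
    have h4p : (4 : ℤ) ∣ p := hq2'.dvd_of_dvd_mul_right ⟨r * s, hpqrs⟩
    obtain ⟨p', rfl⟩ := h4p
    have hp'q : p' * q = r * s := by linarith
    have hcop' : Int.gcd p' q = 1 := by
      rw [← Int.isCoprime_iff_gcd_eq_one]
      exact (Int.isCoprime_iff_gcd_eq_one.mpr hpq).of_mul_left_right
    obtain ⟨a, b, c, d, hp', hq, hr, hs⟩ := four_numbers hp'q hcop' hrs
    have ep : (p') ^ 2 = ((a : ℤ) * b) ^ 2 := by rw [← natAbs_cast_sq, hp']; push_cast; ring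
    have eq : q ^ 2 = ((c : ℤ) * d) ^ 2 := by rw [← natAbs_cast_sq, hq]; push_cast; ring
    have er : r ^ 2 = ((a : ℤ) * c) ^ 2 := by rw [← natAbs_cast_sq, hr]; push_cast; ring
    have es : s ^ 2 = ((b : ℤ) * d) ^ 2 := by rw [← natAbs_cast_sq, hs]; push_cast; ring
    have ha0 : a ≠ 0 := by
      rintro rfl
      apply hr0; rw [← Int.natAbs_eq_zero, hr]; simp
    have hb0 : b ≠ 0 := by
      rintro rfl
      apply hs0; rw [← Int.natAbs_eq_zero, hs]; simp
    have hc0 : c ≠ 0 := by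
      rintro rfl
      apply hr0; rw [← Int.natAbs_eq_zero, hr]; simp
    have hd0 : d ≠ 0 := by
      rintro rfl
      apply hs0; rw [← Int.natAbs_eq_zero, hs]; simp
    have hqodd : q.natAbs % 2 = 1 := by omega
    have hcd_odd : (c * d) % 2 = 1 := by rw [← hq]; exact hqodd
    have hc_odd : (c : ℤ) % 2 = 1 := by
      have : c % 2 = 1 := by
        rcases Nat.mod_two_eq_zero_or_one c with h | h
        · rw [Nat.mul_mod, h] at hcd_odd; simp at hcd_odd
        · exact h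
      omega
    have hd_odd : (d : ℤ) % 2 = 1 := by
      have : d % 2 = 1 := by
        rcases Nat.mod_two_eq_zero_or_one d with h | h
        · rw [Nat.mul_mod, h] at hcd_odd; simp at hcd_odd
        · exact h
      omega
    have hrs' : Nat.Coprime (a * c) (b * d) := by rw [← hr, ← hs]; exact hrs
    have hpq' : Nat.Coprime (a * b) (c * d) := by rw [← hp', ← hq]; exact hcop'
    have hbc : IsCoprime (b : ℤ) (c : ℤ) := by
      rw [Nat.isCoprime_iff_coprime]
      exact (Nat.Coprime.coprime_mul_left (Nat.Coprime.coprime_mul_right_right hrs')).symm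
    have had : IsCoprime (a : ℤ) (d : ℤ) := by
      rw [Nat.isCoprime_iff_coprime]
      exact Nat.Coprime.coprime_mul_right (Nat.Coprime.coprime_mul_left_right hpq')
    have hmain : (c : ℤ) ^ 2 * ((a : ℤ) ^ 2 + (d : ℤ) ^ 2)
        = (b : ℤ) ^ 2 * (16 * (a : ℤ) ^ 2 + (d : ℤ) ^ 2) := by
      have : (4 * p') ^ 2 = 16 * p' ^ 2 := by ring
      rw [this, ep, eq, er, es] at hkey
      linear_combination hkey
    obtain ⟨e1, e2⟩ := descent_step hmain hbc had hd_odd hc_odd (by exact_mod_cast hb0)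
    have hlt : (a : ℤ).natAbs < n := by
      rw [Int.natAbs_natCast, hnY, hr, hs]
      have hb1 : 1 ≤ b := Nat.one_le_iff_ne_zero.mpr hb0
      have hc1 : 1 ≤ c := Nat.one_le_iff_ne_zero.mpr hc0
      have hd1 : 1 ≤ d := Nat.one_le_iff_ne_zero.mpr hd0
      have ha1 : 1 ≤ a := Nat.one_le_iff_ne_zero.mpr ha0
      have h1 : 1 ≤ c * (b * d) := Nat.one_le_iff_ne_zero.mpr (by positivity)
      calc a < 2 * a := by omega
        _ = 2 * a * 1 := by ring
        _ ≤ 2 * a * (c * (b * d)) := Nat.mul_le_mul_left _ h1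
        _ = 2 * (a * c) * (b * d) := by ring
    have hfin := ih _ hlt (d : ℤ) (a : ℤ) (b : ℤ) (c : ℤ) rfl (by linarith) (by linarith)
      (by rw [Int.gcd_comm]; exact Int.isCoprime_iff_gcd_eq_one.mp had) hd_odd
    exact ha0 (by exact_mod_cast hfin)
  · -- p odd, q even
    have hp2' : IsCoprime (4 : ℤ) p := by
      have hp' : IsCoprime (2 : ℤ) p := by
        rw [Int.isCoprime_iff_gcd_eq_one]
        have hd : Int.gcd 2 p ∣ 2 := Int.gcd_dvd_natAbs_left 2 p
        have h2' : (Int.gcd 2 p : ℤ) ∣ p := Int.gcd_dvd_right 2 p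
        have hle := Nat.le_of_dvd (by norm_num) hd
        have hpos : 0 < Int.gcd 2 p := Int.gcd_pos_of_ne_zero_left _ (by norm_num)
        interval_cases h : Int.gcd 2 p
        · rfl
        · omega
      have : (4 : ℤ) = 2 * 2 := by norm_num
      rw [this]
      exact IsCoprime.mul_left hp' hp'
    have h4q : (4 : ℤ) ∣ q := hp2'.dvd_of_dvd_mul_left ⟨r * s, hpqrs⟩
    obtain ⟨q', rfl⟩ := h4q
    have hpq'' : p * q' = r * s := by linarith
    have hcop' : Int.gcd p q' = 1 := by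
      rw [← Int.isCoprime_iff_gcd_eq_one]
      exact (Int.isCoprime_iff_gcd_eq_one.mpr hpq).of_mul_right_right
    obtain ⟨a, b, c, d, hp', hq, hr, hs⟩ := four_numbers hpq'' hcop' hrs
    have ep : p ^ 2 = ((a : ℤ) * b) ^ 2 := by rw [← natAbs_cast_sq, hp']; push_cast; ring
    have eq : (q') ^ 2 = ((c : ℤ) * d) ^ 2 := by rw [← natAbs_cast_sq, hq]; push_cast; ring
    have er : r ^ 2 = ((a : ℤ) * c) ^ 2 := by rw [← natAbs_cast_sq, hr]; push_cast; ring
    have es : s ^ 2 = ((b : ℤ) * d) ^ 2 := by rw [← natAbs_cast_sq, hs]; push_cast; ring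
    have ha0 : a ≠ 0 := by
      rintro rfl
      apply hr0; rw [← Int.natAbs_eq_zero, hr]; simp
    have hb0 : b ≠ 0 := by
      rintro rfl
      apply hs0; rw [← Int.natAbs_eq_zero, hs]; simp
    have hc0 : c ≠ 0 := by
      rintro rfl
      apply hr0; rw [← Int.natAbs_eq_zero, hr]; simp
    have hd0 : d ≠ 0 := by
      rintro rfl
      apply hs0; rw [← Int.natAbs_eq_zero, hs]; simp
    have hpodd : p.natAbs % 2 = 1 := by omega
    have hab_odd : (a * b) % 2 = 1 := by rw [← hp']; exact hpodd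
    have ha_odd : (a : ℤ) % 2 = 1 := by
      have : a % 2 = 1 := by
        rcases Nat.mod_two_eq_zero_or_one a with h | h
        · rw [Nat.mul_mod, h] at hab_odd; simp at hab_odd
        · exact h
      omega
    have hb_odd : (b : ℤ) % 2 = 1 := by
      have : b % 2 = 1 := by
        rcases Nat.mod_two_eq_zero_or_one b with h | h
        · rw [Nat.mul_mod, h] at hab_odd; simp at hab_odd
        · exact h
      omega
    have hrs' : Nat.Coprime (a * c) (b * d) := by rw [← hr, ← hs]; exact hrs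
    have hpq' : Nat.Coprime (a * b) (c * d) := by rw [← hp', ← hq]; exact hcop'
    have hcb : IsCoprime (c : ℤ) (b : ℤ) := by
      rw [Nat.isCoprime_iff_coprime]
      exact (Nat.Coprime.coprime_mul_left (Nat.Coprime.coprime_mul_right_right hrs'))
    have hda : IsCoprime (d : ℤ) (a : ℤ) := by
      rw [Nat.isCoprime_iff_coprime]
      exact (Nat.Coprime.coprime_mul_right (Nat.Coprime.coprime_mul_left_right hpq')).symm
    have hmain : (b : ℤ) ^ 2 * ((d : ℤ) ^ 2 + (a : ℤ) ^ 2)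
        = (c : ℤ) ^ 2 * (16 * (d : ℤ) ^ 2 + (a : ℤ) ^ 2) := by
      have : (4 * q') ^ 2 = 16 * q' ^ 2 := by ring
      rw [this, ep, eq, er, es] at hkey
      linear_combination -hkey
    obtain ⟨e1, e2⟩ := descent_step hmain hcb hda ha_odd hb_odd (by exact_mod_cast hc0)
    have hlt : (d : ℤ).natAbs < n := by
      rw [Int.natAbs_natCast, hnY, hr, hs]
      have h1 : 1 ≤ a * c * b := Nat.one_le_iff_ne_zero.mpr (by positivity)
      have hd1 : 1 ≤ d := Nat.one_le_iff_ne_zero.mpr hd0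
      calc d < 2 * d := by omega
        _ = 2 * 1 * d := by ring
        _ ≤ 2 * (a * c * b) * d := Nat.mul_le_mul_right _ (Nat.mul_le_mul_left _ h1)
        _ = 2 * (a * c) * (b * d) := by ring
    have hfin := ih _ hlt (a : ℤ) (d : ℤ) (c : ℤ) (b : ℤ) rfl (by linarith) (by linarith)
      (by rw [Int.gcd_comm]; exact Int.isCoprime_iff_gcd_eq_one.mp hda) ha_odd
    exact hd0 (by exact_mod_cast hfin)

/-- Core descent (user-facing form). -/
theorem core {X Y Z W : ℤ} (h1 : X ^ 2 + Y ^ 2 = Z ^ 2) (h2 : X ^ 2 + 16 * Y ^ 2 = W ^ 2)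
    (hg : Int.gcd X Y = 1) (hX : X % 2 = 1) : Y = 0 :=
  core_aux _ X Y Z W rfl h1 h2 hg hX

end Fermat.Agent.S51.D531
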