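import Fermat.Agent.S51.D531Core

set_option autoImplicit false

namespace Fermat.Agent.S51.D531

/-- residues of squares mod `16` -/
theorem sq_emod_sixteen (u : ℤ) :
    u ^ 2 % 16 = 0 ∨ u ^ 2 % 16 = 1 ∨ u ^ 2 % 16 = 4 ∨ u ^ 2 % 16 = 9 := by
  have h : u % 16 = 0 ∨ u % 16 = 1 ∨ u % 16 = 2 ∨ u % 16 = 3 ∨ u % 16 = 4 ∨ u % 16 = 5 ∨
      u % 16 = 6 ∨ u % 16 = 7 ∨ u % 16 = 8 ∨ u % 16 = 9 ∨ u % 16 = 10 ∨ u % 16 = 11 ∨
      u % 16 = 12 ∨ u % 16 = 13 ∨ u % 16 = 14 ∨ u % 16 = 15 := by omega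
  rcases h with h | h | h | h | h | h | h | h | h | h | h | h | h | h | h | h <;>
    simp [pow_two, Int.mul_emod, h]

/-- residues of squares mod `8` -/
theorem sq_emod_eight (u : ℤ) : u ^ 2 % 8 = 0 ∨ u ^ 2 % 8 = 1 ∨ u ^ 2 % 8 = 4 := by
  have h : u % 8 = 0 ∨ u % 8 = 1 ∨ u % 8 = 2 ∨ u % 8 = 3 ∨ u % 8 = 4 ∨ u % 8 = 5 ∨
      u % 8 = 6 ∨ u % 8 = 7 := by omega
  rcases h with h | h | h | h | h | h | h | h <;>
    simp [pow_two, Int.mul_emod, h]

/-- an integer whose square is divisible by `8` is divisible by `4` -/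
theorem four_dvd_of_sq_emod_eight {u : ℤ} (h : u ^ 2 % 8 = 0) : (4 : ℤ) ∣ u := by
  have h' : u % 8 = 0 ∨ u % 8 = 1 ∨ u % 8 = 2 ∨ u % 8 = 3 ∨ u % 8 = 4 ∨ u % 8 = 5 ∨
      u % 8 = 6 ∨ u % 8 = 7 := by omega
  rcases h' with h' | h' | h' | h' | h' | h' | h' | h' <;>
    simp [pow_two, Int.mul_emod, h'] at h <;> omega

/-- The system `X² + Y² = Z²`, `X² + 16 Y² = W²` has only the degenerate coprime solutions. -/
theorem system_degenerate {X Y Z W : ℤ} (h1 : X ^ 2 + Y ^ 2 = Z ^ 2)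
    (h2 : X ^ 2 + 16 * Y ^ 2 = W ^ 2) (hg : IsCoprime X Y) : X = 0 ∨ Y = 0 := by
  rcases Int.emod_two_eq_zero_or_one X with hX | hX
  · -- X even, so Y is odd
    left
    have hY : Y % 2 = 1 := by
      rcases Int.emod_two_eq_zero_or_one Y with hY | hY
      · exfalso
        have h2X : (2 : ℤ) ∣ X := Int.dvd_of_emod_eq_zero hX
        have h2Y : (2 : ℤ) ∣ Y := Int.dvd_of_emod_eq_zero hY
        have : IsUnit (2 : ℤ) := hg.isUnit_of_dvd' h2X h2Y
        rw [Int.isUnit_iff] at this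
        omega
      · exact hY
    have hY8 := sq_emod_eight_of_odd hY
    have hZ8 := sq_emod_eight Z
    have hX8 := sq_emod_eight X
    have hX80 : X ^ 2 % 8 = 0 := by omega
    obtain ⟨X', rfl⟩ := four_dvd_of_sq_emod_eight hX80
    have hW16 : (4 : ℤ) ∣ W := by
      apply four_dvd_of_sq_emod_eight
      have : W ^ 2 = 16 * (X' ^ 2 + Y ^ 2) := by rw [← h2]; ring
      omega
    obtain ⟨W', rfl⟩ := hW16
    have e1 : Y ^ 2 + X' ^ 2 = W' ^ 2 := by
      have : (16 : ℤ) * (Y ^ 2 + X' ^ 2) = 16 * W' ^ 2 := by linear_combination h2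
      exact mul_left_cancel₀ (by norm_num) this
    have e2 : Y ^ 2 + 16 * X' ^ 2 = Z ^ 2 := by linear_combination h1
    have hg' : Int.gcd Y X' = 1 := by
      rw [← Int.isCoprime_iff_gcd_eq_one]
      exact hg.symm.of_mul_right_right
    have := core e1 e2 hg' hY
    rw [this]; ring
  · right
    exact core h1 h2 (Int.isCoprime_iff_gcd_eq_one.mp hg) hX

/-- residues of odd squares mod `32` -/
theorem sq_emod_32_of_odd {d : ℤ} (hd : d % 2 = 1) :
    d ^ 2 % 32 = 1 ∨ d ^ 2 % 32 = 9 ∨ d ^ 2 % 32 = 17 ∨ d ^ 2 % 32 = 25 := by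
  have h : d % 32 = 1 ∨ d % 32 = 3 ∨ d % 32 = 5 ∨ d % 32 = 7 ∨ d % 32 = 9 ∨ d % 32 = 11 ∨
      d % 32 = 13 ∨ d % 32 = 15 ∨ d % 32 = 17 ∨ d % 32 = 19 ∨ d % 32 = 21 ∨ d % 32 = 23 ∨
      d % 32 = 25 ∨ d % 32 = 27 ∨ d % 32 = 29 ∨ d % 32 = 31 := by omega
  rcases h with h | h | h | h | h | h | h | h | h | h | h | h | h | h | h | h <;>
    simp [pow_two, Int.mul_emod, h]

/-- If `A B = N²` with `A, B > 0` then `A = g a²`, `B = g b²` with `g = gcd A B`. -/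
theorem sq_pair {A B N : ℤ} (hAB : A * B = N ^ 2) (hA : 0 < A) (hB : 0 < B) :
    ∃ a b : ℤ, A = (Int.gcd A B : ℤ) * a ^ 2 ∧ B = (Int.gcd A B : ℤ) * b ^ 2 := by
  have hgpos' : 0 < Int.gcd A B := Int.gcd_pos_of_ne_zero_left _ hA.ne'
  have hcop0 := Int.gcd_div_gcd_div_gcd (i := A) (j := B) hgpos'
  obtain ⟨A', hA'⟩ := Int.gcd_dvd_left A B
  obtain ⟨B', hB'⟩ := Int.gcd_dvd_right A B
  obtain ⟨g, hg⟩ : ∃ g : ℤ, g = (Int.gcd A B : ℤ) := ⟨_, rfl⟩
  rw [← hg] at hA' hB' hcop0 ⊢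
  have hgpos : (0 : ℤ) < g := by rw [hg]; exact_mod_cast hgpos'
  have hg0 : g ≠ 0 := hgpos.ne'
  have hcop : Int.gcd A' B' = 1 := by
    have e1 : A / g = A' := by
      rw [hA']
      exact Int.mul_ediv_cancel_left _ hg0
    have e2 : B / g = B' := by
      rw [hB']
      exact Int.mul_ediv_cancel_left _ hg0
    rw [e1, e2] at hcop0
    exact hcop0
  have hA'pos : 0 < A' := by
    by_contra hcon
    rw [not_lt] at hcon
    have : g * A' ≤ 0 := mul_nonpos_of_nonneg_of_nonpos hgpos.le hcon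
    rw [← hA'] at this
    linarith
  have hB'pos : 0 < B' := by
    by_contra hcon
    rw [not_lt] at hcon
    have : g * B' ≤ 0 := mul_nonpos_of_nonneg_of_nonpos hgpos.le hcon
    rw [← hB'] at this
    linarith
  have h1 : A * B = g ^ 2 * (A' * B') := by
    rw [hA', hB']
    ring
  have hgN : g ∣ N := by
    rw [← Int.pow_dvd_pow_iff (n := 2) (by norm_num), ← hAB, h1]
    exact Dvd.intro _ rfl
  obtain ⟨N', hN'⟩ := hgN
  have hprod : A' * B' = N' ^ 2 := by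
    have : g ^ 2 * (A' * B') = g ^ 2 * N' ^ 2 := by
      rw [← h1, hAB, hN']; ring
    exact mul_left_cancel₀ (pow_ne_zero 2 hg0) this
  obtain ⟨a, ha⟩ := Int.sq_of_gcd_eq_one hcop hprod
  have hprod' : B' * A' = N' ^ 2 := by rw [mul_comm]; exact hprod
  obtain ⟨b, hb⟩ := Int.sq_of_gcd_eq_one (by rw [Int.gcd_comm]; exact hcop) hprod'
  have ha' : A' = a ^ 2 := by
    rcases ha with ha | ha
    · exact ha
    · exfalso
      have : 0 ≤ a ^ 2 := sq_nonneg a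
      linarith
  have hb' : B' = b ^ 2 := by
    rcases hb with hb | hb
    · exact hb
    · exfalso
      have : 0 ≤ b ^ 2 := sq_nonneg b
      linarith
  exact ⟨a, b, by rw [← ha']; exact hA', by rw [← hb']; exact hB'⟩

/-- No coprime solutions of `M² - e² = 2u²`, `M² + 15 e² = 2 v²`. -/
theorem no_twice_sq {M e u v : ℤ} (hg : IsCoprime M e) (h1 : M ^ 2 - e ^ 2 = 2 * u ^ 2)
    (h2 : M ^ 2 + 15 * e ^ 2 = 2 * v ^ 2) : False := by
  have hM : M % 2 = 1 := by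
    rcases Int.emod_two_eq_zero_or_one M with hM | hM
    · exfalso
      have h2M : (2 : ℤ) ∣ M := Int.dvd_of_emod_eq_zero hM
      have h2e : (2 : ℤ) ∣ e := by
        have : (2 : ℤ) ∣ e ^ 2 := by
          obtain ⟨k, rfl⟩ := h2M
          exact ⟨2 * k ^ 2 - u ^ 2, by linear_combination -h1⟩
        exact Int.Prime.dvd_pow' Nat.prime_two this
      have : IsUnit (2 : ℤ) := hg.isUnit_of_dvd' h2M h2e
      rw [Int.isUnit_iff] at this
      omega
    · exact hM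
  have he : e % 2 = 1 := by
    rcases Int.emod_two_eq_zero_or_one e with he | he
    · exfalso
      have h2e : (2 : ℤ) ∣ e := Int.dvd_of_emod_eq_zero he
      have h2M : (2 : ℤ) ∣ M := by
        have : (2 : ℤ) ∣ M ^ 2 := by
          obtain ⟨k, rfl⟩ := h2e
          exact ⟨2 * k ^ 2 + u ^ 2, by linear_combination h1⟩
        exact Int.Prime.dvd_pow' Nat.prime_two this
      have : IsUnit (2 : ℤ) := hg.isUnit_of_dvd' h2M h2e
      rw [Int.isUnit_iff] at this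
      omega
    · exact he
  have hM32 := sq_emod_32_of_odd hM
  have he32 := sq_emod_32_of_odd he
  have hu16 := sq_emod_sixteen u
  have hv16 := sq_emod_sixteen v
  omega

/-- Integer form of the key claim: if `(M² - e²)(M² + 15 e²)` is a square with `M, e` coprime
and `e ≠ 0` then `M² = e²`. -/
theorem claimA_int {M e N : ℤ} (hg : IsCoprime M e) (he : e ≠ 0)
    (h : (M ^ 2 - e ^ 2) * (M ^ 2 + 15 * e ^ 2) = N ^ 2) : M ^ 2 = e ^ 2 := by
  by_contra hne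
  have he2 : 0 < e ^ 2 := by positivity
  have hM2 : 0 ≤ M ^ 2 := by positivity
  have hB : 0 < M ^ 2 + 15 * e ^ 2 := by positivity
  have hA : 0 < M ^ 2 - e ^ 2 := by
    rcases lt_trichotomy (M ^ 2 - e ^ 2) 0 with h' | h' | h'
    · exfalso
      have : (M ^ 2 - e ^ 2) * (M ^ 2 + 15 * e ^ 2) < 0 := mul_neg_of_neg_of_pos h' hB
      have hN : 0 ≤ N ^ 2 := sq_nonneg N
      linarith
    · exfalso; apply hne; linarith
    · exact h'
  obtain ⟨a, b, ha, hb⟩ := sq_pair h hA hB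
  -- the gcd divides 16
  have hcopA : IsCoprime (M ^ 2 - e ^ 2) e := by
    have h1 : IsCoprime (M ^ 2) e := IsCoprime.pow_left hg
    have : M ^ 2 - e ^ 2 = M ^ 2 + (-e) * e := by ring
    rw [this]
    exact h1.add_mul_right_left (-e)
  have hgdvd : (Int.gcd (M ^ 2 - e ^ 2) (M ^ 2 + 15 * e ^ 2) : ℤ) ∣ 16 := by
    have hd1 : (Int.gcd (M ^ 2 - e ^ 2) (M ^ 2 + 15 * e ^ 2) : ℤ) ∣ M ^ 2 - e ^ 2 :=
      Int.gcd_dvd_left _ _
    have hd2 : (Int.gcd (M ^ 2 - e ^ 2) (M ^ 2 + 15 * e ^ 2) : ℤ) ∣ M ^ 2 + 15 * e ^ 2 :=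
      Int.gcd_dvd_right _ _
    have hd3 : (Int.gcd (M ^ 2 - e ^ 2) (M ^ 2 + 15 * e ^ 2) : ℤ) ∣ 16 * (e * e) := by
      have := dvd_sub hd2 hd1
      have e' : M ^ 2 + 15 * e ^ 2 - (M ^ 2 - e ^ 2) = 16 * (e * e) := by ring
      rwa [e'] at this
    have hc : IsCoprime (Int.gcd (M ^ 2 - e ^ 2) (M ^ 2 + 15 * e ^ 2) : ℤ) e :=
      hcopA.of_isCoprime_of_dvd_left hd1
    exact (hc.mul_right hc).dvd_of_dvd_mul_right hd3
  have hgnat : Int.gcd (M ^ 2 - e ^ 2) (M ^ 2 + 15 * e ^ 2) ∣ 16 := by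
    exact_mod_cast hgdvd
  have hgle : Int.gcd (M ^ 2 - e ^ 2) (M ^ 2 + 15 * e ^ 2) ≤ 16 := Nat.le_of_dvd (by norm_num) hgnat
  have hgpos : 0 < Int.gcd (M ^ 2 - e ^ 2) (M ^ 2 + 15 * e ^ 2) :=
    Int.gcd_pos_of_ne_zero_left _ hA.ne'
  -- both are squares, or both are twice squares
  have key : (∃ u v : ℤ, M ^ 2 - e ^ 2 = u ^ 2 ∧ M ^ 2 + 15 * e ^ 2 = v ^ 2) ∨
      (∃ u v : ℤ, M ^ 2 - e ^ 2 = 2 * u ^ 2 ∧ M ^ 2 + 15 * e ^ 2 = 2 * v ^ 2) := by
    generalize Int.gcd (M ^ 2 - e ^ 2) (M ^ 2 + 15 * e ^ 2) = g at ha hb hgnat hgle hgpos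
    interval_cases g
    · left; exact ⟨a, b, by rw [ha]; push_cast; ring, by rw [hb]; push_cast; ring⟩
    · right; exact ⟨a, b, by rw [ha]; push_cast; ring, by rw [hb]; push_cast; ring⟩
    · omega
    · left; exact ⟨2 * a, 2 * b, by rw [ha]; push_cast; ring, by rw [hb]; push_cast; ring⟩
    · omega
    · omega
    · omega
    · right; exact ⟨2 * a, 2 * b, by rw [ha]; push_cast; ring, by rw [hb]; push_cast; ring⟩
    · omega
    · omega
    · omega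
    · omega
    · omega
    · omega
    · omega
    · left; exact ⟨4 * a, 4 * b, by rw [ha]; push_cast; ring, by rw [hb]; push_cast; ring⟩
  rcases key with ⟨u, v, hu, hv⟩ | ⟨u, v, hu, hv⟩
  · have e1 : u ^ 2 + e ^ 2 = M ^ 2 := by linarith
    have e2 : u ^ 2 + 16 * e ^ 2 = v ^ 2 := by linarith
    have hcop : IsCoprime u e := by
      have : IsCoprime (u ^ 2) e := by rw [← hu]; exact hcopA
      exact IsCoprime.of_mul_left_left (by rw [← sq]; exact this)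
    rcases system_degenerate e1 e2 hcop with h0 | h0
    · rw [h0] at hu
      apply hne; linarith
    · exact he h0
  · exact no_twice_sq hg hu hv

end Fermat.Agent.S51.D531
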