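import Fermat.Agent.S51.D531Int

set_option autoImplicit false

namespace Fermat.Agent.S51.D531

/-- Key claim over `ℚ`: a rational point of `y² = x (x - 1) (x + 15)` whose `x`-coordinate is a
square has `x = 0` or `x = 1`. -/
theorem claimA (x y : ℚ) (h : y ^ 2 = x * (x - 1) * (x + 15)) (hx : IsSquare x) :
    x = 0 ∨ x = 1 := by
  obtain ⟨r, hr⟩ := hx
  by_cases hr0 : r = 0
  · left; rw [hr, hr0]; ring
  right
  have hden : (r.den : ℚ) ≠ 0 := by exact_mod_cast r.den_nz
  have hnum : (r.num : ℚ) ≠ 0 := by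
    have : r.num ≠ 0 := Rat.num_ne_zero.mpr hr0
    exact_mod_cast this
  have hre : r = (r.num : ℚ) / (r.den : ℚ) := (Rat.num_div_den r).symm
  obtain ⟨M, hM⟩ : ∃ M : ℤ, M = r.num := ⟨_, rfl⟩
  obtain ⟨e, he⟩ : ∃ e : ℤ, e = (r.den : ℤ) := ⟨_, rfl⟩
  have hcop : IsCoprime M e := by
    rw [hM, he, Int.isCoprime_iff_gcd_eq_one]
    have := r.reduced
    simpa [Int.gcd, Nat.Coprime] using this
  have he0 : e ≠ 0 := by rw [he]; exact_mod_cast r.den_nz
  have heQ : (e : ℚ) ≠ 0 := by exact_mod_cast he0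
  have hMQ : (M : ℚ) ≠ 0 := by rw [hM]; exact hnum
  have hr' : r = (M : ℚ) / (e : ℚ) := by
    rw [hM, he]; exact_mod_cast hre
  have hsq : IsSquare (((M ^ 2 - e ^ 2) * (M ^ 2 + 15 * e ^ 2) : ℤ) : ℚ) := by
    refine ⟨y * e ^ 3 / M, ?_⟩
    have hx' : x = (M : ℚ) ^ 2 / (e : ℚ) ^ 2 := by rw [hr, hr']; field_simp
    rw [hx'] at h
    push_cast
    field_simp
    field_simp at h
    linear_combination -h
  rw [Rat.isSquare_intCast_iff] at hsq
  obtain ⟨N, hN⟩ := hsq
  have hfin := claimA_int hcop he0 (N := N) (by rw [hN]; ring)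
  have hfinQ : (M : ℚ) ^ 2 = (e : ℚ) ^ 2 := by exact_mod_cast hfin
  rw [hr, hr']
  field_simp
  linear_combination hfinQ

/-- Rational points on `y² = x (x - 1) (x + 15)`. -/
theorem rat_points_E1 (x y : ℚ) (h : y ^ 2 = x * (x - 1) * (x + 15)) :
    x = 0 ∨ x = 1 ∨ x = -15 ∨ x = 5 ∨ x = -3 := by
  by_cases hy : y = 0
  · rw [hy] at h
    have h0 : x * (x - 1) * (x + 15) = 0 := by rw [← h]; ring
    rcases mul_eq_zero.mp h0 with h1 | h1
    · rcases mul_eq_zero.mp h1 with h2 | h2
      · left; exact h2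
      · right; left; linarith
    · right; right; left; linarith
  · -- duplication
    have hP : (x ^ 2 + 15) ^ 2 - 4 * y ^ 2 = (x ^ 2 - 2 * x - 15) ^ 2 := by rw [h]; ring
    have hQ : (x ^ 2 + 15) ^ 2 + 60 * y ^ 2 = (x ^ 2 + 30 * x - 15) ^ 2 := by rw [h]; ring
    have e1 : ((x ^ 2 + 15) / (2 * y)) ^ 2 - 1 = ((x ^ 2 - 2 * x - 15) / (2 * y)) ^ 2 := by
      field_simp
      linear_combination hP
    have e2 : ((x ^ 2 + 15) / (2 * y)) ^ 2 + 15 = ((x ^ 2 + 30 * x - 15) / (2 * y)) ^ 2 := by
      field_simp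
      linear_combination hQ
    have hX : ((x ^ 2 + 15) / (2 * y) * ((x ^ 2 - 2 * x - 15) / (2 * y))
          * ((x ^ 2 + 30 * x - 15) / (2 * y))) ^ 2
        = ((x ^ 2 + 15) / (2 * y)) ^ 2 * (((x ^ 2 + 15) / (2 * y)) ^ 2 - 1)
          * (((x ^ 2 + 15) / (2 * y)) ^ 2 + 15) := by
      rw [e1, e2]; ring
    rcases claimA _ _ hX ⟨(x ^ 2 + 15) / (2 * y), by ring⟩ with h0 | h1
    · exfalso
      have : (x ^ 2 + 15) / (2 * y) = 0 := by
        rcases pow_eq_zero_iff (n := 2) (by norm_num) |>.mp h0 with h'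
        exact h'
      rw [div_eq_zero_iff] at this
      rcases this with h' | h'
      · nlinarith [sq_nonneg x]
      · apply hy; linarith
    · have h2 : (x ^ 2 + 15) ^ 2 = 4 * y ^ 2 := by
        field_simp at h1
        linear_combination h1
      have h3 : (x ^ 2 - 2 * x - 15) ^ 2 = 0 := by
        rw [h] at h2
        linear_combination h2
      have h4 : (x - 5) * (x + 3) = 0 := by
        have := pow_eq_zero_iff (n := 2) (by norm_num) |>.mp h3
        linear_combination this
      rcases mul_eq_zero.mp h4 with h5 | h5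
      · right; right; right; left; linarith
      · right; right; right; right; linarith

/-- Rational points on `y² = x (x + 9) (x - 16)` (the curve `15a1`, i.e. `X₀(15)`). -/
theorem rat_points_15a1 (x y : ℚ) (h : y ^ 2 = x * (x + 9) * (x - 16)) :
    x = 0 ∨ x = -9 ∨ x = 16 ∨ x = 36 ∨ x = -4 := by
  by_cases hx9 : x + 9 = 0
  · right; left; linarith
  have hiso : (y * (x - 6) * (x + 24) / (8 * (x + 9) ^ 2)) ^ 2
      = ((x - 6) ^ 2 / (4 * (x + 9))) * ((x - 6) ^ 2 / (4 * (x + 9)) - 1)
        * ((x - 6) ^ 2 / (4 * (x + 9)) + 15) := by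
    field_simp
    rw [h]
    ring
  have hy2 : 0 ≤ x * (x + 9) * (x - 16) := by rw [← h]; exact sq_nonneg y
  rcases rat_points_E1 _ _ hiso with h1 | h1 | h1 | h1 | h1
  · -- x₁ = 0 : x = 6, impossible
    exfalso
    rw [div_eq_zero_iff] at h1
    rcases h1 with h1 | h1
    · have : x = 6 := by
        have := pow_eq_zero_iff (n := 2) (by norm_num) |>.mp h1
        linarith
      rw [this] at hy2
      norm_num at hy2
    · apply hx9
      linarith
  · -- x₁ = 1
    have : x * (x - 16) = 0 := by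
      field_simp at h1
      linear_combination h1
    rcases mul_eq_zero.mp this with h2 | h2
    · left; exact h2
    · right; right; left; linarith
  · -- x₁ = -15 : x = -24 impossible
    exfalso
    have : (x + 24) ^ 2 = 0 := by
      field_simp at h1
      linear_combination h1
    have : x = -24 := by
      have := pow_eq_zero_iff (n := 2) (by norm_num) |>.mp this
      linarith
    rw [this] at hy2
    norm_num at hy2
  · -- x₁ = 5
    have : (x - 36) * (x + 4) = 0 := by
      field_simp at h1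
      linear_combination h1
    rcases mul_eq_zero.mp this with h2 | h2
    · right; right; right; left; linarith
    · right; right; right; right; linarith
  · -- x₁ = -3 : impossible
    exfalso
    have : x ^ 2 + 144 = 0 := by
      field_simp at h1
      linear_combination h1
    nlinarith [sq_nonneg x]

/-- The same statement in the shape used by the glue (`X (X - 16) (X + 9)`). -/
theorem rat_points_15a1' : ∀ X Y : ℚ, Y ^ 2 = X * (X - 16) * (X + 9) →
    X = 0 ∨ X = 16 ∨ X = -9 ∨ X = 36 ∨ X = -4 := by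
  intro X Y h
  rcases rat_points_15a1 X Y (by rw [h]; ring) with h1 | h1 | h1 | h1 | h1
  · left; exact h1
  · right; right; left; exact h1
  · right; left; exact h1
  · right; right; right; left; exact h1
  · right; right; right; right; exact h1

end Fermat.Agent.S51.D531
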