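import Mathlib

set_option autoImplicit false

namespace Fermat.Agent.S51

/-- Numerator identity behind the `X₀(15)` relation. -/
theorem glue_star_num (A B x3 s m : ℚ)
    (h1 : 3*x3^4 + 6*A*x3^2 + 12*B*x3 - A^2 = 0)
    (h2 : 4*B = s^3 - 6*m*s - 2*A*s)
    (h3 : (A + s^2 - m)^2 = (2*s^2 + m)*(s^2 - 4*m)) :
    16*(x3^2 - s*x3 + m)^3*(A + s^2 - m)^2
      - 12*(x3^2 - s*x3 + m)^2*((s^2 - 4*m) + 3*(x3^2 - s*x3 + m))*(A + s^2 - m)*(s^2 - 4*m)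
      + ((s^2 - 4*m) + 3*(x3^2 - s*x3 + m))^2*(s^2 - 4*m)^3
      + 4*(x3^2 - s*x3 + m)^3*(s^2 - 4*m)^2 - 9*(x3^2 - s*x3 + m)^4*(s^2 - 4*m) = 0 := by
  linear_combination
    (-3*x3^4*s^2 + 12*x3^4*m + 12*x3^3*s^3 - 48*x3^3*s*m - (70/3)*x3^2*s^4 + (296/3)*x3^2*s^2*m + (14/3)*x3^2*s^2*A + (80/3)*x3^2*m^2 + (40/3)*x3^2*m*A + (16/3)*x3^2*A^2 + 31*x3*s^5 - 158*x3*s^3*m - 26*x3*s^3*A - 8*x3*s*m^2 + 8*x3*s*m*A - 16*x3*s*A^2 - 32*s^6 + 196*s^4*m + (188/3)*s^4*A - 62*s^2*m^2 - (460/3)*s^2*m*A + (17/3)*s^2*A^2 - 120*m^3 - (16/3)*m^2*A - (20/3)*m*A^2 - (32/3)*A^3) * h1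
    - 3*x3*(-3*x3^4*s^2 + 12*x3^4*m + 12*x3^3*s^3 - 48*x3^3*s*m - (70/3)*x3^2*s^4 + (296/3)*x3^2*s^2*m + (14/3)*x3^2*s^2*A + (80/3)*x3^2*m^2 + (40/3)*x3^2*m*A + (16/3)*x3^2*A^2 + 31*x3*s^5 - 158*x3*s^3*m - 26*x3*s^3*A - 8*x3*s*m^2 + 8*x3*s*m*A - 16*x3*s*A^2 - 32*s^6 + 196*s^4*m + (188/3)*s^4*A - 62*s^2*m^2 - (460/3)*s^2*m*A + (17/3)*s^2*A^2 - 120*m^3 - (16/3)*m^2*A - (20/3)*m*A^2 - (32/3)*A^3) * h2
    + (-92*x3^3*s^3 + 240*x3^3*s*m + 128*x3^3*s*A + 90*x3^2*s^4 - 432*x3^2*s^2*m - 264*x3^2*s^2*A + 144*x3^2*m^2 + 192*x3^2*m*A + (208/3)*x3^2*A^2 - 90*x3*s^5 + 612*x3*s^3*m + 200*x3*s^3*A - 576*x3*s*m^2 - 384*x3*s*m*A - 80*x3*s*A^2 - s^6 + 9*s^4*m - 2*s^4*A - 21*s^2*m^2 + 10*s^2*m*A + 27*s^2*A^2 + 20*m^3 - 8*m^2*A - 28*m*A^2 - (32/3)*A^3) * h3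

/-- The `X₀(15)` relation `(*)` between `e = (x₃-x₁)(x₃-x₂)/(x₁-x₂)²` and `H = h + 11`. -/
theorem glue_star (A B x3 s m : ℚ)
    (h1 : 3*x3^4 + 6*A*x3^2 + 12*B*x3 - A^2 = 0)
    (h2 : 4*B = s^3 - 6*m*s - 2*A*s)
    (h3 : (A + s^2 - m)^2 = (2*s^2 + m)*(s^2 - 4*m))
    (hd : s^2 - 4*m ≠ 0) (e H : ℚ)
    (he : e = (x3^2 - s*x3 + m)/(s^2 - 4*m))
    (hH : H = 4*(A + s^2 - m)/(s^2 - 4*m)) :
    e^3*H^2 - 3*e^2*(1+3*e)*H + (1+3*e)^2 + 4*e^3 - 9*e^4 = 0 := by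
  have hnum := glue_star_num A B x3 s m h1 h2 h3
  have key : (s^2 - 4*m)^5 * (e^3*H^2 - 3*e^2*(1+3*e)*H + (1+3*e)^2 + 4*e^3 - 9*e^4) = 0 := by
    rw [he, hH]
    field_simp
    linear_combination hnum
  rcases mul_eq_zero.mp key with h | h
  · exact absurd (pow_eq_zero_iff (by norm_num) |>.mp h) hd
  · exact h

/-- `Δ = h d³` with `h = H - 11`. -/
theorem glue_delta (A B s m : ℚ)
    (h2 : 4*B = s^3 - 6*m*s - 2*A*s)
    (h3 : (A + s^2 - m)^2 = (2*s^2 + m)*(s^2 - 4*m))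
    (hd : s^2 - 4*m ≠ 0) (H : ℚ)
    (hH : H = 4*(A + s^2 - m)/(s^2 - 4*m)) :
    -16*(4*A^3 + 27*B^2) = (H - 11) * (s^2 - 4*m)^3 := by
  have hH' : H * (s^2 - 4*m) = 4*(A + s^2 - m) := by
    rw [hH]; field_simp
  linear_combination (-(27:ℚ) * (4*B + (s^3 - 6*m*s - 2*A*s))) * h2
    + (20*s^2 - 128*m - 64*A) * h3 - (s^2 - 4*m)^2 * hH'

/-- `c₄ = d (h² + 10 h + 5)` with `h = H - 11`. -/
theorem glue_c4 (A s m : ℚ)
    (h3 : (A + s^2 - m)^2 = (2*s^2 + m)*(s^2 - 4*m))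
    (hd : s^2 - 4*m ≠ 0) (H : ℚ)
    (hH : H = 4*(A + s^2 - m)/(s^2 - 4*m)) :
    -48*A = (s^2 - 4*m) * ((H - 11)^2 + 10*(H - 11) + 5) := by
  have hH' : H * (s^2 - 4*m) = 4*(A + s^2 - m) := by
    rw [hH]; field_simp
  have key : (s^2 - 4*m) * (-48*A - (s^2 - 4*m) * ((H - 11)^2 + 10*(H - 11) + 5)) = 0 := by
    linear_combination (-16 : ℚ) * h3 - (H * (s^2 - 4*m) + 4*(A + s^2 - m) - 12*(s^2 - 4*m)) * hH'
  rcases mul_eq_zero.mp key with h | h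
  · exact absurd h hd
  · linarith

/-- `e = -1` is impossible over `ℚ`. -/
theorem glue_e_ne_neg_one (A B x3 s m : ℚ)
    (h1 : 3*x3^4 + 6*A*x3^2 + 12*B*x3 - A^2 = 0)
    (h2 : 4*B = s^3 - 6*m*s - 2*A*s)
    (h3 : (A + s^2 - m)^2 = (2*s^2 + m)*(s^2 - 4*m))
    (hd : s^2 - 4*m ≠ 0) :
    (x3^2 - s*x3 + m)/(s^2 - 4*m) ≠ -1 := by
  intro he
  have hst := glue_star A B x3 s m h1 h2 h3 hd _ _ he.symm rfl
  -- hst : -(H-3)^2 = 0
  have hH3 : 4*(A + s^2 - m)/(s^2 - 4*m) = 3 := by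
    have : (4*(A + s^2 - m)/(s^2 - 4*m) - 3)^2 = 0 := by linear_combination -hst
    have := pow_eq_zero_iff (by norm_num) |>.mp this
    linarith
  have hT : 4*(A + s^2 - m) = 3*(s^2 - 4*m) := by
    field_simp at hH3
    linarith
  have hE : x3^2 - s*x3 + m = -(s^2 - 4*m) := by
    have := (div_eq_iff hd).mp he
    linarith
  -- from h3: 9 d = 16 (2 s^2 + m)
  have h9 : 9*(s^2 - 4*m) = 16*(2*s^2 + m) := by
    have : (s^2 - 4*m) * (9*(s^2 - 4*m) - 16*(2*s^2 + m)) = 0 := by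
      linear_combination (16 : ℚ) * h3 - (4*(A + s^2 - m) + 3*(s^2 - 4*m)) * hT
    rcases mul_eq_zero.mp this with h | h
    · exact absurd h hd
    · linarith
  have hsq : 13*(2*x3 - s)^2 + 108*s^2 = 0 := by
    linear_combination (52 : ℚ) * hE - (3 : ℚ) * h9
  have hs : s = 0 := by
    nlinarith [sq_nonneg (2*x3 - s), sq_nonneg s]
  have hm : m = 0 := by
    rw [hs] at h9; linarith
  exact hd (by rw [hs, hm]; norm_num)

/-- The rational point on `Y² = X (X - 16) (X + 9)`. -/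
theorem glue_point (A B x3 s m : ℚ)
    (h1 : 3*x3^4 + 6*A*x3^2 + 12*B*x3 - A^2 = 0)
    (h2 : 4*B = s^3 - 6*m*s - 2*A*s)
    (h3 : (A + s^2 - m)^2 = (2*s^2 + m)*(s^2 - 4*m))
    (hd : s^2 - 4*m ≠ 0) (e H : ℚ)
    (he : e = (x3^2 - s*x3 + m)/(s^2 - 4*m))
    (hH : H = 4*(A + s^2 - m)/(s^2 - 4*m)) :
    (36*(2*e^2*H - 3*e*(1+3*e))/(e+1))^2 = (36*e)*(36*e - 16)*(36*e + 9) := by
  have hst := glue_star A B x3 s m h1 h2 h3 hd e H he hH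
  have he1 : e + 1 ≠ 0 := by
    intro h
    apply glue_e_ne_neg_one A B x3 s m h1 h2 h3 hd
    rw [← he]; linarith
  rw [div_pow, div_eq_iff (pow_ne_zero 2 he1)]
  linear_combination (36^2 * 4 * e : ℚ) * hst

/-- Case analysis: from the list of rational points of `Y² = X (X - 16) (X + 9)` we get the
possible values of `h = H - 11`. -/
theorem glue_h_cases
    (descent : ∀ X Y : ℚ, Y^2 = X*(X-16)*(X+9) → X = 0 ∨ X = 16 ∨ X = -9 ∨ X = 36 ∨ X = -4)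
    (A B x3 s m : ℚ)
    (h1 : 3*x3^4 + 6*A*x3^2 + 12*B*x3 - A^2 = 0)
    (h2 : 4*B = s^3 - 6*m*s - 2*A*s)
    (h3 : (A + s^2 - m)^2 = (2*s^2 + m)*(s^2 - 4*m))
    (hd : s^2 - 4*m ≠ 0) (H : ℚ)
    (hH : H = 4*(A + s^2 - m)/(s^2 - 4*m)) :
    H - 11 = 0 ∨ H - 11 = -10 ∨ H - 11 = -40 ∨ H - 11 = -25/2 ∨ H - 11 = -25/8 := by
  obtain ⟨e, he⟩ : ∃ e : ℚ, e = (x3^2 - s*x3 + m)/(s^2 - 4*m) := ⟨_, rfl⟩
  have hst := glue_star A B x3 s m h1 h2 h3 hd e H he hH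
  have hpt := glue_point A B x3 s m h1 h2 h3 hd e H he hH
  rcases descent _ _ hpt with h | h | h | h | h
  · -- e = 0
    have he0 : e = 0 := by linarith
    rw [he0] at hst
    norm_num at hst
  · -- e = 4/9
    have he0 : e = 4/9 := by linarith
    rw [he0] at hst
    have : (8*H - 63)^2 = 0 := by linear_combination (729 : ℚ) * hst
    have := pow_eq_zero_iff (by norm_num) |>.mp this
    right; right; right; right; linarith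
  · -- e = -1/4
    have he0 : e = -1/4 := by linarith
    rw [he0] at hst
    have : (2*H + 3)^2 = 0 := by linear_combination (-256 : ℚ) * hst
    have := pow_eq_zero_iff (by norm_num) |>.mp this
    right; right; right; left; linarith
  · -- e = 1
    have he0 : e = 1 := by linarith
    rw [he0] at hst
    have : (H - 1)*(H - 11) = 0 := by linear_combination hst
    rcases mul_eq_zero.mp this with h' | h'
    · right; left; linarith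
    · left; linarith
  · -- e = -1/9
    have he0 : e = -1/9 := by linarith
    rw [he0] at hst
    have : (H - 11)*(H + 29) = 0 := by linear_combination (-729 : ℚ) * hst
    rcases mul_eq_zero.mp this with h' | h'
    · left; linarith
    · right; right; left; linarith

end Fermat.Agent.S51
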