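import Fermat.Statements.S51
import Fermat.Agent.S51.GlueAlg

set_option autoImplicit false

namespace Fermat.Agent.S51

/-- A `5`-adic lemma: `a c³ = 5^i b D` with `i ∈ {1, 2}` and `5 ∤ a b` forces `5 ∣ c` and
`5 ∣ D`. -/
theorem glue_five_dvd (c D a b : ℤ) (i : ℕ) (hi : i = 1 ∨ i = 2)
    (ha : ¬ (5 : ℤ) ∣ a) (hb : ¬ (5 : ℤ) ∣ b) (h : a * c ^ 3 = 5 ^ i * b * D) :
    (5 : ℤ) ∣ c ∧ (5 : ℤ) ∣ D := by
  have hp : Prime (5 : ℤ) := Int.prime_iff_natAbs_prime.mpr (by norm_num)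
  have h5 : (5 : ℤ) ∣ a * c ^ 3 := by
    rw [h]
    rcases hi with rfl | rfl
    · exact ⟨b * D, by ring⟩
    · exact ⟨5 * b * D, by ring⟩
  have hc : (5 : ℤ) ∣ c := by
    rcases hp.dvd_or_dvd h5 with h' | h'
    · exact absurd h' ha
    · exact hp.dvd_of_dvd_pow h'
  refine ⟨hc, ?_⟩
  obtain ⟨k, rfl⟩ := hc
  have h5' : (5 : ℤ) ∣ b * D := by
    rcases hi with rfl | rfl
    · refine ⟨5 * a * k ^ 3, ?_⟩
      have : (5 : ℤ) * (b * D) = 5 * (5 * (5 * a * k ^ 3)) := by linear_combination -h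
      exact mul_left_cancel₀ (by norm_num) this
    · refine ⟨a * k ^ 3, ?_⟩
      have : (25 : ℤ) * (b * D) = 25 * (5 * (a * k ^ 3)) := by linear_combination -h
      exact mul_left_cancel₀ (by norm_num) this
  rcases hp.dvd_or_dvd h5' with h' | h'
  · exact absurd h' hb
  · exact h'

/-- The final contradiction: a semistable integral model cannot carry both a rational root of
`ψ₃` and a rational `5`-isogeny datum `(s, m)`, given the list of rational points on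
`Y² = X (X - 16) (X + 9)`. -/
theorem glue_final (W : WeierstrassCurve ℤ) (hΔ : W.Δ ≠ 0) (hW : W.IsSemistableModel)
    (descent : ∀ X Y : ℚ, Y ^ 2 = X * (X - 16) * (X + 9) →
      X = 0 ∨ X = 16 ∨ X = -9 ∨ X = 36 ∨ X = -4)
    (x3 s m : ℚ)
    (h1 : 3 * x3 ^ 4 + 6 * (-(W.c₄ : ℚ) / 48) * x3 ^ 2 + 12 * (-(W.c₆ : ℚ) / 864) * x3
      - (-(W.c₄ : ℚ) / 48) ^ 2 = 0)
    (h2 : 4 * (-(W.c₆ : ℚ) / 864) = s ^ 3 - 6 * m * s - 2 * (-(W.c₄ : ℚ) / 48) * s)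
    (h3 : ((-(W.c₄ : ℚ) / 48) + s ^ 2 - m) ^ 2 = (2 * s ^ 2 + m) * (s ^ 2 - 4 * m))
    (hd : s ^ 2 - 4 * m ≠ 0) : False := by
  obtain ⟨A, hA⟩ : ∃ A : ℚ, A = -(W.c₄ : ℚ) / 48 := ⟨_, rfl⟩
  obtain ⟨B, hB⟩ : ∃ B : ℚ, B = -(W.c₆ : ℚ) / 864 := ⟨_, rfl⟩
  rw [← hA, ← hB] at h1 h2
  rw [← hA] at h3
  obtain ⟨H, hH⟩ : ∃ H : ℚ, H = 4 * (A + s ^ 2 - m) / (s ^ 2 - 4 * m) := ⟨_, rfl⟩
  have hcases := glue_h_cases descent A B x3 s m h1 h2 h3 hd H hH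
  have hdel := glue_delta A B s m h2 h3 hd H hH
  have hc4 := glue_c4 A s m h3 hd H hH
  have hrel : (1728 : ℚ) * (W.Δ : ℚ) = (W.c₄ : ℚ) ^ 3 - (W.c₆ : ℚ) ^ 2 := by
    have := W.c_relation
    exact_mod_cast this
  have hΔQ : (W.Δ : ℚ) = (H - 11) * (s ^ 2 - 4 * m) ^ 3 := by
    rw [← hdel, hA, hB]
    linear_combination (1 / 1728 : ℚ) * hrel
  have hc4Q : (W.c₄ : ℚ) = (s ^ 2 - 4 * m) * ((H - 11) ^ 2 + 10 * (H - 11) + 5) := by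
    rw [← hc4, hA]; ring
  have hj : (W.c₄ : ℚ) ^ 3 * (H - 11) = (W.Δ : ℚ) * ((H - 11) ^ 2 + 10 * (H - 11) + 5) ^ 3 := by
    rw [hΔQ, hc4Q]; ring
  have hp5 : Nat.Prime 5 := by norm_num
  have fin : ∀ (a b : ℤ) (i : ℕ), (i = 1 ∨ i = 2) → ¬ (5 : ℤ) ∣ a → ¬ (5 : ℤ) ∣ b →
      a * W.c₄ ^ 3 = 5 ^ i * b * W.Δ → False := by
    intro a b i hi ha hb h
    obtain ⟨h5c, h5D⟩ := glue_five_dvd W.c₄ W.Δ a b i hi ha hb h
    exact hW 5 hp5 (by exact_mod_cast h5D) (by exact_mod_cast h5c)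
  rcases hcases with h | h | h | h | h
  · -- h = 0 : Δ = 0
    rw [h, zero_mul] at hΔQ
    exact hΔ (by exact_mod_cast hΔQ)
  · -- h = -10
    rw [h] at hj
    have hZ : (-2 : ℤ) * W.c₄ ^ 3 = 5 ^ 2 * 1 * W.Δ := by
      have : ((-2 : ℤ) : ℚ) * (W.c₄ : ℚ) ^ 3 = 5 ^ 2 * 1 * (W.Δ : ℚ) := by
        push_cast; linear_combination (1 / 5 : ℚ) * hj
      exact_mod_cast this
    exact fin (-2) 1 2 (Or.inr rfl) (by norm_num) (by norm_num) hZ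
  · -- h = -40
    rw [h] at hj
    have hZ : (-8 : ℤ) * W.c₄ ^ 3 = 5 ^ 2 * 13997521 * W.Δ := by
      have : ((-8 : ℤ) : ℚ) * (W.c₄ : ℚ) ^ 3 = 5 ^ 2 * 13997521 * (W.Δ : ℚ) := by
        push_cast; linear_combination (1 / 5 : ℚ) * hj
      exact_mod_cast this
    exact fin (-8) 13997521 2 (Or.inr rfl) (by norm_num) (by norm_num) hZ
  · -- h = -25/2
    rw [h] at hj
    have hZ : (-32 : ℤ) * W.c₄ ^ 3 = 5 ^ 1 * 24389 * W.Δ := by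
      have : ((-32 : ℤ) : ℚ) * (W.c₄ : ℚ) ^ 3 = 5 ^ 1 * 24389 * (W.Δ : ℚ) := by
        push_cast; linear_combination (64 / 25 : ℚ) * hj
      exact_mod_cast this
    exact fin (-32) 24389 1 (Or.inl rfl) (by norm_num) (by norm_num) hZ
  · -- h = -25/8
    rw [h] at hj
    have hZ : (32768 : ℤ) * W.c₄ ^ 3 = 5 ^ 1 * 9393931 * W.Δ := by
      have : ((32768 : ℤ) : ℚ) * (W.c₄ : ℚ) ^ 3 = 5 ^ 1 * 9393931 * (W.Δ : ℚ) := by
        push_cast; linear_combination (-(262144 : ℚ) / 25) * hj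
      exact_mod_cast this
    exact fin 32768 9393931 1 (Or.inl rfl) (by norm_num) (by norm_num) hZ

end Fermat.Agent.S51
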