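import Mathlib.Tactic
import Mathlib.RingTheory.Int.Basic
import Mathlib.RingTheory.PrincipalIdealDomain
import Mathlib.RingTheory.Coprime.Lemmas
import Mathlib.Data.ZMod.Basic

/-!
# S51, descent: rational points of `Y² = X(X-16)(X+9)` (the curve 15a1).

Route: 2-isogeny to `V² = U(U-1)(U-81)`, doubling there gives a solution of the
concordant-forms system `a² = b² + e²`, `a² = c² + 81e²`, which has no solution with
`e ≠ 0` by infinite descent.
-/

set_option autoImplicit false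

namespace Fermat.Agent.S51.H831D

/-- A nonnegative coprime factor of a square is a square. -/
theorem sq_of_coprime_of_nonneg {u v w : ℤ} (hc : IsCoprime u v) (h : u * v = w ^ 2)
    (hu : 0 ≤ u) : ∃ r : ℤ, u = r ^ 2 := by
  obtain ⟨r, hr | hr⟩ := Int.sq_of_isCoprime hc h
  · exact ⟨r, hr⟩
  · have : r ^ 2 = 0 := by nlinarith [sq_nonneg r]
    exact ⟨0, by rw [hr, this]; norm_num⟩

/-- If `u v` are coprime and `u * v = 5 w²` then one of `±u, ±v` is a square. -/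
theorem sq_of_coprime_mul_eq_five_sq {u v w : ℤ} (hc : IsCoprime u v)
    (h : u * v = 5 * w ^ 2) :
    ∃ r : ℤ, u = r ^ 2 ∨ u = -r ^ 2 ∨ v = r ^ 2 ∨ v = -r ^ 2 := by
  have h5 : Prime (5 : ℤ) := by
    rw [Int.prime_iff_natAbs_prime]; norm_num
  have hdvd : (5 : ℤ) ∣ u * v := ⟨w ^ 2, h⟩
  rcases h5.dvd_or_dvd hdvd with ⟨u', rfl⟩ | ⟨v', rfl⟩
  · have hc' : IsCoprime v u' := (IsCoprime.of_mul_left_right hc).symm
    have h' : v * u' = w ^ 2 := by
      have : (5 : ℤ) * (v * u') = 5 * w ^ 2 := by linear_combination h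
      exact mul_left_cancel₀ (by norm_num) this
    obtain ⟨r, hr | hr⟩ := Int.sq_of_isCoprime hc' h'
    · exact ⟨r, Or.inr (Or.inr (Or.inl hr))⟩
    · exact ⟨r, Or.inr (Or.inr (Or.inr hr))⟩
  · have hc' : IsCoprime u v' := IsCoprime.of_mul_right_right hc
    have h' : u * v' = w ^ 2 := by
      have : (5 : ℤ) * (u * v') = 5 * w ^ 2 := by linear_combination h
      exact mul_left_cancel₀ (by norm_num) this
    obtain ⟨r, hr | hr⟩ := Int.sq_of_isCoprime hc' h'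
    · exact ⟨r, Or.inl hr⟩
    · exact ⟨r, Or.inr (Or.inl hr)⟩

/-- The algebraic heart of the descent step. -/
theorem descent_core {a b c e ε f g h k M : ℤ} (hε : 0 < ε) (ha : 0 < a) (he : e ≠ 0)
    (h1 : a ^ 2 = b ^ 2 + e ^ 2) (h2 : a ^ 2 = c ^ 2 + 81 * e ^ 2)
    (hf : a + b = ε * f ^ 2) (hg : a - b = ε * g ^ 2)
    (hh : a + c = ε * h ^ 2) (hk : a - c = ε * k ^ 2)
    (hM : b + c = ε * M ^ 2) :
    ∃ a' b' c' e' : ℤ, e' ≠ 0 ∧ a'.natAbs < a.natAbs ∧ a' ^ 2 = b' ^ 2 + e' ^ 2 ∧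
      a' ^ 2 = c' ^ 2 + 81 * e' ^ 2 := by
  have hε0 : ε ≠ 0 := hε.ne'
  -- f, g ≠ 0
  have hfg : (ε * f ^ 2) * (ε * g ^ 2) = e ^ 2 := by rw [← hf, ← hg]; linear_combination h1
  have hf0 : f ≠ 0 := by
    rintro rfl
    have : e ^ 2 = 0 := by rw [← hfg]; ring
    exact he (pow_eq_zero_iff (two_ne_zero) |>.mp this)
  have hg0 : g ≠ 0 := by
    rintro rfl
    have : e ^ 2 = 0 := by rw [← hfg]; ring
    exact he (pow_eq_zero_iff (two_ne_zero) |>.mp this)
  -- h² - g² = M²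
  have e1 : h ^ 2 = M ^ 2 + g ^ 2 := by
    have : ε * (h ^ 2) = ε * (M ^ 2 + g ^ 2) := by linear_combination hg - hh + hM
    exact mul_left_cancel₀ hε0 this
  -- f² (h² - 81 g²) = (h M)²
  have e2 : f ^ 2 * (h ^ 2 - 81 * g ^ 2) = (h * M) ^ 2 := by
    have : ε ^ 2 * (f ^ 2 * (h ^ 2 - 81 * g ^ 2)) = ε ^ 2 * (h * M) ^ 2 := by
      have hhk : (ε * h ^ 2) * (ε * k ^ 2) = 81 * ((ε * f ^ 2) * (ε * g ^ 2)) := by
        rw [← hh, ← hk, ← hf, ← hg]; linear_combination h2 - 81 * h1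
      have hfk : ε * f ^ 2 - ε * k ^ 2 = ε * M ^ 2 := by linear_combination hk - hf + hM
      have hfk' : f ^ 2 - k ^ 2 = M ^ 2 := by
        have : ε * (f ^ 2 - k ^ 2) = ε * M ^ 2 := by linear_combination hfk
        exact mul_left_cancel₀ hε0 this
      linear_combination hhk + (ε ^ 2 * h ^ 2) * hfk'
    exact mul_left_cancel₀ (pow_ne_zero 2 hε0) this
  have hdvd : f ∣ h * M := by
    have : f ^ 2 ∣ (h * M) ^ 2 := ⟨_, e2.symm⟩
    exact (Int.pow_dvd_pow_iff two_ne_zero).mp this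
  obtain ⟨C, hC⟩ := hdvd
  have e3 : h ^ 2 = C ^ 2 + 81 * g ^ 2 := by
    have : f ^ 2 * (h ^ 2) = f ^ 2 * (C ^ 2 + 81 * g ^ 2) := by
      rw [hC] at e2; linear_combination e2
    exact mul_left_cancel₀ (pow_ne_zero 2 hf0) this
  refine ⟨h, M, C, g, hg0, ?_, e1, e3⟩
  -- size: h² ≤ ε h² = a + c < 2a ≤ a²
  have hc_lt : c < a := by
    by_contra hcon
    have hcon := not_lt.mp hcon
    have : a ^ 2 ≤ c ^ 2 := by nlinarith
    have he2 : 0 < e ^ 2 := by positivity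
    nlinarith
  have ha9 : 9 ≤ a := by
    by_contra hcon
    have hcon := not_le.mp hcon
    have he2 : 1 ≤ e ^ 2 := by
      have : 0 < e ^ 2 := by positivity
      linarith
    have : a ^ 2 < 81 := by nlinarith
    nlinarith [sq_nonneg c]
  have hh2 : h ^ 2 < a ^ 2 := by
    have h1' : h ^ 2 ≤ ε * h ^ 2 := by nlinarith [sq_nonneg h]
    nlinarith
  have : |h| < |a| := sq_lt_sq.mp hh2
  rw [Int.abs_eq_natAbs, Int.abs_eq_natAbs] at this
  exact_mod_cast this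

/-- Sign bookkeeping: any of the four sign patterns of `±(b ± c) = ε M²` gives a descent. -/
theorem descent_signs {a b c e ε f g h k M : ℤ} (hε : 0 < ε) (ha : 0 < a) (he : e ≠ 0)
    (h1 : a ^ 2 = b ^ 2 + e ^ 2) (h2 : a ^ 2 = c ^ 2 + 81 * e ^ 2)
    (hf : a + b = ε * f ^ 2) (hg : a - b = ε * g ^ 2)
    (hh : a + c = ε * h ^ 2) (hk : a - c = ε * k ^ 2)
    (hM : b + c = ε * M ^ 2 ∨ -(b + c) = ε * M ^ 2 ∨ b - c = ε * M ^ 2 ∨ c - b = ε * M ^ 2) :
    ∃ a' b' c' e' : ℤ, e' ≠ 0 ∧ a'.natAbs < a.natAbs ∧ a' ^ 2 = b' ^ 2 + e' ^ 2 ∧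
      a' ^ 2 = c' ^ 2 + 81 * e' ^ 2 := by
  rcases hM with hM | hM | hM | hM
  · exact descent_core hε ha he h1 h2 hf hg hh hk hM
  · exact descent_core (b := -b) (c := -c) hε ha he (by rw [h1]; ring) (by rw [h2]; ring)
      (by rw [← hg]; ring) (by rw [← hf]; ring) (by rw [← hk]; ring) (by rw [← hh]; ring)
      (by rw [← hM]; ring)
  · exact descent_core (b := b) (c := -c) hε ha he h1 (by rw [h2]; ring)
      hf hg (by rw [← hk]; ring) (by rw [← hh]; ring)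
      (by rw [← hM]; ring)
  · exact descent_core (b := -b) (c := c) hε ha he (by rw [h1]; ring) h2
      (by rw [← hg]; ring) (by rw [← hf]; ring) hh hk
      (by rw [← hM]; ring)

theorem prime_five : Prime (5 : ℤ) := by
  rw [Int.prime_iff_natAbs_prime]; norm_num

theorem prime_two : Prime (2 : ℤ) := by
  rw [Int.prime_iff_natAbs_prime]; norm_num

theorem prime_three : Prime (3 : ℤ) := by
  rw [Int.prime_iff_natAbs_prime]; norm_num

/-- If `p² ∣ 5 w²` for a prime `p`, then `p ∣ w`. -/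
theorem prime_dvd_of_sq_dvd_five_sq {p w : ℤ} (hp : Prime p) (h : p ^ 2 ∣ 5 * w ^ 2) :
    p ∣ w := by
  rcases hp.dvd_or_dvd (dvd_trans (dvd_pow_self p two_ne_zero) h) with h1 | h1
  · have hpa : p.natAbs = 5 := by
      have hpn := Int.prime_iff_natAbs_prime.mp hp
      have h5 : p.natAbs ∣ 5 := by
        have := Int.natAbs_dvd_natAbs.mpr h1
        simpa using this
      exact (Nat.prime_dvd_prime_iff_eq hpn (by norm_num)).mp h5
    have hp2 : p ^ 2 = 25 := by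
      have := Int.natAbs_sq p
      rw [← this, hpa]; norm_num
    rw [hp2] at h
    have h5w : (5 : ℤ) ∣ w ^ 2 := by
      obtain ⟨k, hk⟩ := h
      exact ⟨k, by linarith⟩
    exact dvd_trans h1 (prime_five.dvd_of_dvd_pow h5w)
  · exact hp.dvd_of_dvd_pow h1

theorem zmod3_aux : ∀ X Y : ZMod 3, X ^ 2 + Y ^ 2 = 0 → Y = 0 := by decide

theorem zmod8_aux1 : ∀ A B E : ZMod 8, A ^ 2 = B ^ 2 + E ^ 2 → 4 * E = 4 → 2 * B = 0 := by
  decide

theorem zmod8_aux2 : ∀ A C E : ZMod 8, A ^ 2 = C ^ 2 + 81 * E ^ 2 → 4 * E = 4 → 2 * C = 0 := by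
  decide

theorem three_dvd_of_sq_add_sq {x y : ℤ} (h : (3 : ℤ) ∣ x ^ 2 + y ^ 2) : (3 : ℤ) ∣ y := by
  have h' : ((x ^ 2 + y ^ 2 : ℤ) : ZMod 3) = 0 := (ZMod.intCast_zmod_eq_zero_iff_dvd _ 3).mpr h
  push_cast at h'
  exact (ZMod.intCast_zmod_eq_zero_iff_dvd y 3).mp (zmod3_aux _ _ h')

theorem four_dvd_of_odd {a b e : ℤ} (h1 : a ^ 2 = b ^ 2 + e ^ 2) (he : ¬ (2 : ℤ) ∣ e) :
    (4 : ℤ) ∣ b := by
  have h' : ((a ^ 2 : ℤ) : ZMod 8) = ((b ^ 2 + e ^ 2 : ℤ) : ZMod 8) := by rw [h1]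
  push_cast at h'
  have hE : (4 : ZMod 8) * (e : ZMod 8) = 4 := by
    obtain ⟨n, hn⟩ : ∃ n, e = 2 * n + 1 := ⟨e / 2, by omega⟩
    have : ((4 * e - 4 : ℤ) : ZMod 8) = 0 :=
      (ZMod.intCast_zmod_eq_zero_iff_dvd _ 8).mpr ⟨n, by rw [hn]; ring⟩
    push_cast at this
    linear_combination this
  have hB := zmod8_aux1 _ _ _ h' hE
  have : ((2 * b : ℤ) : ZMod 8) = 0 := by push_cast; exact hB
  have h8 : (8 : ℤ) ∣ 2 * b := (ZMod.intCast_zmod_eq_zero_iff_dvd _ 8).mp this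
  omega

theorem four_dvd_of_odd' {a c e : ℤ} (h2 : a ^ 2 = c ^ 2 + 81 * e ^ 2) (he : ¬ (2 : ℤ) ∣ e) :
    (4 : ℤ) ∣ c := by
  have h' : ((a ^ 2 : ℤ) : ZMod 8) = ((c ^ 2 + 81 * e ^ 2 : ℤ) : ZMod 8) := by rw [h2]
  push_cast at h'
  have hE : (4 : ZMod 8) * (e : ZMod 8) = 4 := by
    obtain ⟨n, hn⟩ : ∃ n, e = 2 * n + 1 := ⟨e / 2, by omega⟩
    have : ((4 * e - 4 : ℤ) : ZMod 8) = 0 :=
      (ZMod.intCast_zmod_eq_zero_iff_dvd _ 8).mpr ⟨n, by rw [hn]; ring⟩
    push_cast at this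
    linear_combination this
  have hC := zmod8_aux2 _ _ _ h' hE
  have : ((2 * c : ℤ) : ZMod 8) = 0 := by push_cast; exact hC
  have h8 : (8 : ℤ) ∣ 2 * c := (ZMod.intCast_zmod_eq_zero_iff_dvd _ 8).mp this
  omega

/-- A prime dividing `2` divides every even number. -/
theorem two_dvd_of_prime_dvd_two {p x : ℤ} (hp : Prime p) (h2 : p ∣ 2) (hx : p ∣ x) :
    (2 : ℤ) ∣ x :=
  ((hp.associated_of_dvd prime_two h2).dvd_iff_dvd_left).mp hx

theorem three_dvd_of_prime_dvd_three {p x : ℤ} (hp : Prime p) (h3 : p ∣ 3) (hx : p ∣ x) :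
    (3 : ℤ) ∣ x :=
  ((hp.associated_of_dvd prime_three h3).dvd_iff_dvd_left).mp hx

section Coprime

variable {a b c e : ℤ}

theorem fact1 (hco : IsCoprime a e) (h1 : a ^ 2 = b ^ 2 + e ^ 2) {p : ℤ} (hp : Prime p)
    (hpa : p ∣ a) : ¬ p ∣ b := by
  intro hpb
  have hpe2 : p ∣ e ^ 2 := by
    have : e ^ 2 = a ^ 2 - b ^ 2 := by linear_combination -h1
    rw [this]
    exact dvd_sub (dvd_pow hpa two_ne_zero) (dvd_pow hpb two_ne_zero)
  exact hp.not_isUnit (hco.isUnit_of_dvd' hpa (hp.dvd_of_dvd_pow hpe2))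

theorem fact2 (hco : IsCoprime a e) (h1 : a ^ 2 = b ^ 2 + e ^ 2) {p : ℤ} (hp : Prime p)
    (hpb : p ∣ b) : ¬ p ∣ e := by
  intro hpe
  have hpa2 : p ∣ a ^ 2 := by
    rw [h1]
    exact dvd_add (dvd_pow hpb two_ne_zero) (dvd_pow hpe two_ne_zero)
  exact hp.not_isUnit (hco.isUnit_of_dvd' (hp.dvd_of_dvd_pow hpa2) hpe)

theorem fact3 (hco : IsCoprime a e) (h1 : a ^ 2 = b ^ 2 + e ^ 2) : ¬ (3 : ℤ) ∣ a := by
  intro h3
  have : (3 : ℤ) ∣ b ^ 2 + e ^ 2 := by rw [← h1]; exact dvd_pow h3 two_ne_zero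
  exact prime_three.not_isUnit (hco.isUnit_of_dvd' h3 (three_dvd_of_sq_add_sq this))

theorem fact1' (hco : IsCoprime a e) (h1 : a ^ 2 = b ^ 2 + e ^ 2)
    (h2 : a ^ 2 = c ^ 2 + 81 * e ^ 2) {p : ℤ} (hp : Prime p)
    (hpa : p ∣ a) : ¬ p ∣ c := by
  intro hpc
  have hpe2 : p ∣ 81 * e ^ 2 := by
    have : 81 * e ^ 2 = a ^ 2 - c ^ 2 := by linear_combination -h2
    rw [this]
    exact dvd_sub (dvd_pow hpa two_ne_zero) (dvd_pow hpc two_ne_zero)
  rcases hp.dvd_or_dvd hpe2 with h81 | he2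
  · have h3 : p ∣ 3 := by
      have : p ∣ (3 : ℤ) ^ 4 := by norm_num; exact h81
      exact hp.dvd_of_dvd_pow this
    exact fact3 hco h1 (three_dvd_of_prime_dvd_three hp h3 hpa)
  · exact hp.not_isUnit (hco.isUnit_of_dvd' hpa (hp.dvd_of_dvd_pow he2))

theorem fact2' (hco : IsCoprime a e)
    (h2 : a ^ 2 = c ^ 2 + 81 * e ^ 2) {p : ℤ} (hp : Prime p)
    (hpc : p ∣ c) : ¬ p ∣ e := by
  intro hpe
  have hpa2 : p ∣ a ^ 2 := by
    rw [h2]
    exact dvd_add (dvd_pow hpc two_ne_zero) (Dvd.dvd.mul_left (dvd_pow hpe two_ne_zero) _)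
  exact hp.not_isUnit (hco.isUnit_of_dvd' (hp.dvd_of_dvd_pow hpa2) hpe)

theorem abs_lt_of_sq (ha : 0 < a) (he : e ≠ 0) (h1 : a ^ 2 = b ^ 2 + e ^ 2) :
    0 < a + b ∧ 0 < a - b := by
  have he2 : 0 < e ^ 2 := by positivity
  constructor
  · by_contra hcon
    have hcon := not_lt.mp hcon
    nlinarith
  · by_contra hcon
    have hcon := not_lt.mp hcon
    nlinarith

theorem abs_lt_of_sq' (ha : 0 < a) (he : e ≠ 0) (h2 : a ^ 2 = c ^ 2 + 81 * e ^ 2) :
    0 < a + c ∧ 0 < a - c := by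
  have he2 : 0 < e ^ 2 := by positivity
  constructor
  · by_contra hcon
    have hcon := not_lt.mp hcon
    nlinarith
  · by_contra hcon
    have hcon := not_lt.mp hcon
    nlinarith

end Coprime

section Parity

variable {a b c e : ℤ}

theorem descent_odd (ha : 0 < a) (he : e ≠ 0) (hco : IsCoprime a e)
    (h1 : a ^ 2 = b ^ 2 + e ^ 2) (h2 : a ^ 2 = c ^ 2 + 81 * e ^ 2) (hodd : ¬ (2 : ℤ) ∣ e) :
    ∃ a' b' c' e' : ℤ, e' ≠ 0 ∧ a'.natAbs < a.natAbs ∧ a' ^ 2 = b' ^ 2 + e' ^ 2 ∧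
      a' ^ 2 = c' ^ 2 + 81 * e' ^ 2 := by
  obtain ⟨hab, hab'⟩ := abs_lt_of_sq ha he h1
  obtain ⟨hac, hac'⟩ := abs_lt_of_sq' ha he h2
  have hprod : (a + b) * (a - b) = e ^ 2 := by linear_combination h1
  have hprod' : (a + c) * (a - c) = (9 * e) ^ 2 := by linear_combination h2
  have hodd1 : ¬ (2 : ℤ) ∣ a + b := fun h =>
    hodd (prime_two.dvd_of_dvd_pow (hprod ▸ Dvd.dvd.mul_right h _))
  have hodd2 : ¬ (2 : ℤ) ∣ a + c := by
    intro h
    have h9 : (2 : ℤ) ∣ (9 * e) ^ 2 := hprod' ▸ Dvd.dvd.mul_right h _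
    have := prime_two.dvd_of_dvd_pow h9
    omega
  have hcop1 : IsCoprime (a + b) (a - b) := by
    apply isCoprime_of_prime_dvd
    · rintro ⟨h, -⟩; omega
    · intro p hp hp1 hp2
      have h2a : p ∣ 2 * a := by
        have := dvd_add hp1 hp2
        rwa [show a + b + (a - b) = 2 * a by ring] at this
      have h2b : p ∣ 2 * b := by
        have := dvd_sub hp1 hp2
        rwa [show a + b - (a - b) = 2 * b by ring] at this
      have hp2' : ¬ p ∣ 2 := fun h => hodd1 (two_dvd_of_prime_dvd_two hp h hp1)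
      have hpa : p ∣ a := (hp.dvd_or_dvd h2a).resolve_left hp2'
      have hpb : p ∣ b := (hp.dvd_or_dvd h2b).resolve_left hp2'
      exact fact1 hco h1 hp hpa hpb
  have hcop2 : IsCoprime (a + c) (a - c) := by
    apply isCoprime_of_prime_dvd
    · rintro ⟨h, -⟩; omega
    · intro p hp hp1 hp2
      have h2a : p ∣ 2 * a := by
        have := dvd_add hp1 hp2
        rwa [show a + c + (a - c) = 2 * a by ring] at this
      have h2c : p ∣ 2 * c := by
        have := dvd_sub hp1 hp2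
        rwa [show a + c - (a - c) = 2 * c by ring] at this
      have hp2' : ¬ p ∣ 2 := fun h => hodd2 (two_dvd_of_prime_dvd_two hp h hp1)
      have hpa : p ∣ a := (hp.dvd_or_dvd h2a).resolve_left hp2'
      have hpc : p ∣ c := (hp.dvd_or_dvd h2c).resolve_left hp2'
      exact fact1' hco h1 h2 hp hpa hpc
  obtain ⟨f, hf⟩ := sq_of_coprime_of_nonneg hcop1 hprod hab.le
  obtain ⟨g, hg⟩ := sq_of_coprime_of_nonneg hcop1.symm (by rw [mul_comm]; exact hprod) hab'.le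
  obtain ⟨h, hh⟩ := sq_of_coprime_of_nonneg hcop2 hprod' hac.le
  obtain ⟨k, hk⟩ := sq_of_coprime_of_nonneg hcop2.symm (by rw [mul_comm]; exact hprod') hac'.le
  obtain ⟨b', hb'⟩ := four_dvd_of_odd h1 hodd
  obtain ⟨c', hc'⟩ := four_dvd_of_odd' h2 hodd
  have huv : (b' - c') * (b' + c') = 5 * e ^ 2 := by
    have : (16 : ℤ) * ((b' - c') * (b' + c')) = 16 * (5 * e ^ 2) := by
      rw [hb'] at h1
      rw [hc'] at h2
      linear_combination h2 - h1
    exact mul_left_cancel₀ (by norm_num) this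
  have hcopuv : IsCoprime (b' - c') (b' + c') := by
    apply isCoprime_of_prime_dvd
    · rintro ⟨h₁, h₂⟩
      have : e ^ 2 = 0 := by
        have h0 : (b' - c') * (b' + c') = 0 := by rw [h₁]; ring
        rw [huv] at h0
        linarith
      exact he (pow_eq_zero_iff two_ne_zero |>.mp this)
    · intro p hp hp1 hp2
      have hpe : p ∣ e :=
        prime_dvd_of_sq_dvd_five_sq hp (by rw [← huv, sq]; exact mul_dvd_mul hp1 hp2)
      have h2b : p ∣ 2 * b' := by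
        have := dvd_add hp1 hp2
        rwa [show b' - c' + (b' + c') = 2 * b' by ring] at this
      have hp2' : ¬ p ∣ 2 := fun h => hodd (two_dvd_of_prime_dvd_two hp h hpe)
      have hpb' : p ∣ b' := (hp.dvd_or_dvd h2b).resolve_left hp2'
      have hpb : p ∣ b := hb' ▸ Dvd.dvd.mul_left hpb' 4
      exact fact2 hco h1 hp hpb hpe
  obtain ⟨r, hr⟩ := sq_of_coprime_mul_eq_five_sq hcopuv huv
  refine descent_signs (ε := 1) (f := f) (g := g) (h := h) (k := k) (M := 2 * r)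
    one_pos ha he h1 h2 (by rw [hf]; ring) (by rw [hg]; ring) (by rw [hh]; ring)
    (by rw [hk]; ring) ?_
  rcases hr with hr | hr | hr | hr
  · right; right; left; rw [hb', hc']; linear_combination 4 * hr
  · right; right; right; rw [hb', hc']; linear_combination -4 * hr
  · left; rw [hb', hc']; linear_combination 4 * hr
  · right; left; rw [hb', hc']; linear_combination -4 * hr

theorem descent_even (ha : 0 < a) (he : e ≠ 0) (hco : IsCoprime a e)
    (h1 : a ^ 2 = b ^ 2 + e ^ 2) (h2 : a ^ 2 = c ^ 2 + 81 * e ^ 2) (heven : (2 : ℤ) ∣ e) :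
    ∃ a' b' c' e' : ℤ, e' ≠ 0 ∧ a'.natAbs < a.natAbs ∧ a' ^ 2 = b' ^ 2 + e' ^ 2 ∧
      a' ^ 2 = c' ^ 2 + 81 * e' ^ 2 := by
  obtain ⟨hab, hab'⟩ := abs_lt_of_sq ha he h1
  obtain ⟨hac, hac'⟩ := abs_lt_of_sq' ha he h2
  obtain ⟨e₁, he₁⟩ := heven
  have haodd : ¬ (2 : ℤ) ∣ a := fun h => prime_two.not_isUnit (hco.isUnit_of_dvd' h ⟨e₁, he₁⟩)
  have hbodd : ¬ (2 : ℤ) ∣ b := fun h => fact2 hco h1 prime_two h ⟨e₁, he₁⟩
  have hcodd : ¬ (2 : ℤ) ∣ c := fun h => fact2' hco h2 prime_two h ⟨e₁, he₁⟩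
  obtain ⟨F, hF⟩ : (2 : ℤ) ∣ a + b := by omega
  obtain ⟨G, hG⟩ : (2 : ℤ) ∣ a - b := by omega
  obtain ⟨H, hH⟩ : (2 : ℤ) ∣ a + c := by omega
  obtain ⟨K, hK⟩ : (2 : ℤ) ∣ a - c := by omega
  obtain ⟨u, hu⟩ : (2 : ℤ) ∣ b - c := by omega
  obtain ⟨v, hv⟩ : (2 : ℤ) ∣ b + c := by omega
  have haFG : a = F + G := by omega
  have hbFG : b = F - G := by omega
  have haHK : a = H + K := by omega
  have hcHK : c = H - K := by omega
  have hbuv : b = u + v := by omega
  have hcuv : c = v - u := by omega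
  have hprod : F * G = e₁ ^ 2 := by
    have : (4 : ℤ) * (F * G) = 4 * e₁ ^ 2 := by
      rw [haFG, hbFG, he₁] at h1
      linear_combination h1
    exact mul_left_cancel₀ (by norm_num) this
  have hprod' : H * K = (9 * e₁) ^ 2 := by
    have : (4 : ℤ) * (H * K) = 4 * (9 * e₁) ^ 2 := by
      rw [haHK, hcHK, he₁] at h2
      linear_combination h2
    exact mul_left_cancel₀ (by norm_num) this
  have hcop1 : IsCoprime F G := by
    apply isCoprime_of_prime_dvd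
    · rintro ⟨h, -⟩; omega
    · intro p hp hp1 hp2
      have hpa : p ∣ a := haFG ▸ dvd_add hp1 hp2
      have hpb : p ∣ b := hbFG ▸ dvd_sub hp1 hp2
      exact fact1 hco h1 hp hpa hpb
  have hcop2 : IsCoprime H K := by
    apply isCoprime_of_prime_dvd
    · rintro ⟨h, -⟩; omega
    · intro p hp hp1 hp2
      have hpa : p ∣ a := haHK ▸ dvd_add hp1 hp2
      have hpc : p ∣ c := hcHK ▸ dvd_sub hp1 hp2
      exact fact1' hco h1 h2 hp hpa hpc
  obtain ⟨f, hf⟩ := sq_of_coprime_of_nonneg hcop1 hprod (by omega)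
  obtain ⟨g, hg⟩ := sq_of_coprime_of_nonneg hcop1.symm (by rw [mul_comm]; exact hprod) (by omega)
  obtain ⟨h, hh⟩ := sq_of_coprime_of_nonneg hcop2 hprod' (by omega)
  obtain ⟨k, hk⟩ := sq_of_coprime_of_nonneg hcop2.symm (by rw [mul_comm]; exact hprod') (by omega)
  have huv : u * v = 5 * (2 * e) ^ 2 := by
    have : (4 : ℤ) * (u * v) = 4 * (5 * (2 * e) ^ 2) := by
      rw [hbuv] at h1
      rw [hcuv] at h2
      linear_combination h2 - h1
    exact mul_left_cancel₀ (by norm_num) this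
  have hcopuv : IsCoprime u v := by
    apply isCoprime_of_prime_dvd
    · rintro ⟨h₁, h₂⟩
      have : (2 * e) ^ 2 = 0 := by
        have h0 : u * v = 0 := by rw [h₁]; ring
        rw [huv] at h0
        linarith
      have := pow_eq_zero_iff two_ne_zero |>.mp this
      omega
    · intro p hp hp1 hp2
      have hpb : p ∣ b := hbuv ▸ dvd_add hp1 hp2
      have hp2e : p ∣ 2 * e :=
        prime_dvd_of_sq_dvd_five_sq hp (by rw [← huv, sq]; exact mul_dvd_mul hp1 hp2)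
      rcases hp.dvd_or_dvd hp2e with hp2' | hpe
      · exact hbodd (two_dvd_of_prime_dvd_two hp hp2' hpb)
      · exact fact2 hco h1 hp hpb hpe
  obtain ⟨r, hr⟩ := sq_of_coprime_mul_eq_five_sq hcopuv huv
  refine descent_signs (ε := 2) (f := f) (g := g) (h := h) (k := k) (M := r)
    (by norm_num) ha he h1 h2 (by rw [← hf]; omega) (by rw [← hg]; omega)
    (by rw [← hh]; omega) (by rw [← hk]; omega) ?_
  rcases hr with hr | hr | hr | hr
  · right; right; left; rw [← hr]; omega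
  · right; right; right; have : r ^ 2 = -u := by linarith
    rw [this]; omega
  · left; rw [← hr]; omega
  · right; left; have : r ^ 2 = -v := by linarith
    rw [this]; omega

end Parity

/-- One descent step: from any solution with `a > 0`, `e ≠ 0` to a strictly smaller one. -/
theorem descent_step {a b c e : ℤ} (ha : 0 < a) (he : e ≠ 0)
    (h1 : a ^ 2 = b ^ 2 + e ^ 2) (h2 : a ^ 2 = c ^ 2 + 81 * e ^ 2) :
    ∃ a' b' c' e' : ℤ, e' ≠ 0 ∧ a'.natAbs < a.natAbs ∧ a' ^ 2 = b' ^ 2 + e' ^ 2 ∧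
      a' ^ 2 = c' ^ 2 + 81 * e' ^ 2 := by
  by_cases hco : IsCoprime a e
  · by_cases hpar : (2 : ℤ) ∣ e
    · exact descent_even ha he hco h1 h2 hpar
    · exact descent_odd ha he hco h1 h2 hpar
  · -- a common prime factor
    have hex : ∃ p : ℤ, Prime p ∧ p ∣ a ∧ p ∣ e := by
      by_contra hcon
      apply hco
      apply isCoprime_of_prime_dvd
      · rintro ⟨h, -⟩; omega
      · intro p hp hpa hpe
        exact hcon ⟨p, hp, hpa, hpe⟩
    obtain ⟨p, hp, ⟨a₁, ha₁⟩, ⟨e₁, he₁⟩⟩ := hex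
    have hp0 : p ≠ 0 := hp.ne_zero
    have hpb : p ∣ b := by
      have : p ^ 2 ∣ b ^ 2 := ⟨a₁ ^ 2 - e₁ ^ 2, by rw [ha₁, he₁] at h1; linear_combination -h1⟩
      exact (Int.pow_dvd_pow_iff two_ne_zero).mp this
    have hpc : p ∣ c := by
      have : p ^ 2 ∣ c ^ 2 :=
        ⟨a₁ ^ 2 - 81 * e₁ ^ 2, by rw [ha₁, he₁] at h2; linear_combination -h2⟩
      exact (Int.pow_dvd_pow_iff two_ne_zero).mp this
    obtain ⟨b₁, hb₁⟩ := hpb
    obtain ⟨c₁, hc₁⟩ := hpc
    have he₁0 : e₁ ≠ 0 := by rintro rfl; exact he (by rw [he₁]; ring)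
    have ha₁0 : a₁ ≠ 0 := by rintro rfl; rw [ha₁] at ha; simp at ha
    refine ⟨a₁, b₁, c₁, e₁, he₁0, ?_, ?_, ?_⟩
    · rw [ha₁, Int.natAbs_mul]
      have hp2 : 2 ≤ p.natAbs := (Int.prime_iff_natAbs_prime.mp hp).two_le
      have ha₁' : 0 < a₁.natAbs := Int.natAbs_pos.mpr ha₁0
      nlinarith
    · have : p ^ 2 * (a₁ ^ 2) = p ^ 2 * (b₁ ^ 2 + e₁ ^ 2) := by
        rw [ha₁, hb₁, he₁] at h1; linear_combination h1
      exact mul_left_cancel₀ (pow_ne_zero 2 hp0) this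
    · have : p ^ 2 * (a₁ ^ 2) = p ^ 2 * (c₁ ^ 2 + 81 * e₁ ^ 2) := by
        rw [ha₁, hc₁, he₁] at h2; linear_combination h2
      exact mul_left_cancel₀ (pow_ne_zero 2 hp0) this

/-- The concordant-forms system `a² = b² + e²`, `a² = c² + 81e²` has no integer solution with
`e ≠ 0`. -/
theorem no_concordant_aux : ∀ n : ℕ, ∀ a b c e : ℤ, a.natAbs = n → e ≠ 0 →
    a ^ 2 = b ^ 2 + e ^ 2 → a ^ 2 = c ^ 2 + 81 * e ^ 2 → False := by
  intro n
  induction n using Nat.strong_induction_on with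
  | _ n ih =>
    intro a b c e hn he h1 h2
    have he2 : 0 < e ^ 2 := by positivity
    have ha0 : a ≠ 0 := by
      rintro rfl
      nlinarith [sq_nonneg b]
    have habs : 0 < |a| := abs_pos.mpr ha0
    have h1' : |a| ^ 2 = b ^ 2 + e ^ 2 := by rw [sq_abs]; exact h1
    have h2' : |a| ^ 2 = c ^ 2 + 81 * e ^ 2 := by rw [sq_abs]; exact h2
    obtain ⟨a', b', c', e', he', hlt, h1'', h2''⟩ := descent_step habs he h1' h2'
    have hlt' : a'.natAbs < n := by
      rw [← hn]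
      have : (|a|).natAbs = a.natAbs := Int.natAbs_abs a
      rw [this] at hlt
      exact hlt
    exact ih a'.natAbs hlt' a' b' c' e' rfl he' h1'' h2''

theorem no_concordant (a b c e : ℤ) (he : e ≠ 0) (h1 : a ^ 2 = b ^ 2 + e ^ 2)
    (h2 : a ^ 2 = c ^ 2 + 81 * e ^ 2) : False :=
  no_concordant_aux a.natAbs a b c e rfl he h1 h2

/-- Rational version: no rational `r s t` with `r² = s² + 1`, `r² = t² + 81`. -/
theorem no_rat_concordant (r s t : ℚ) (h1 : r ^ 2 = s ^ 2 + 1) (h2 : r ^ 2 = t ^ 2 + 81) :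
    False := by
  have hr := Rat.mul_den_eq_num r
  have hs := Rat.mul_den_eq_num s
  have ht := Rat.mul_den_eq_num t
  have hrd : (r.den : ℚ) ≠ 0 := by exact_mod_cast r.den_nz
  have hsd : (s.den : ℚ) ≠ 0 := by exact_mod_cast s.den_nz
  have htd : (t.den : ℚ) ≠ 0 := by exact_mod_cast t.den_nz
  set e : ℤ := (r.den : ℤ) * s.den * t.den with he
  set a : ℤ := r.num * s.den * t.den with ha
  set b : ℤ := s.num * r.den * t.den with hb
  set c : ℤ := t.num * r.den * s.den with hc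
  have he0 : e ≠ 0 := by
    rw [he]
    have h1 : (r.den : ℤ) ≠ 0 := by exact_mod_cast r.den_nz
    have h2 : (s.den : ℤ) ≠ 0 := by exact_mod_cast s.den_nz
    have h3 : (t.den : ℤ) ≠ 0 := by exact_mod_cast t.den_nz
    exact mul_ne_zero (mul_ne_zero h1 h2) h3
  have hae : (a : ℚ) = r * e := by
    rw [ha, he]; push_cast; rw [← hr]; ring
  have hbe : (b : ℚ) = s * e := by
    rw [hb, he]; push_cast; rw [← hs]; ring
  have hce : (c : ℚ) = t * e := by
    rw [hc, he]; push_cast; rw [← ht]; ring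
  have e1 : a ^ 2 = b ^ 2 + e ^ 2 := by
    have : (a : ℚ) ^ 2 = (b : ℚ) ^ 2 + (e : ℚ) ^ 2 := by
      rw [hae, hbe]; linear_combination ((e : ℚ) ^ 2) * h1
    exact_mod_cast this
  have e2 : a ^ 2 = c ^ 2 + 81 * e ^ 2 := by
    have : (a : ℚ) ^ 2 = (c : ℚ) ^ 2 + 81 * (e : ℚ) ^ 2 := by
      rw [hae, hce]; linear_combination ((e : ℚ) ^ 2) * h2
    exact_mod_cast this
  exact no_concordant a b c e he0 e1 e2

/-- Rational points of `V² = U(U-1)(U-81)` (15a2): only the `2`-torsion. -/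
theorem rat_points_E2 (U V : ℚ) (h : V ^ 2 = U * (U - 1) * (U - 81)) : V = 0 := by
  by_contra hV
  have h2V : 2 * V ≠ 0 := mul_ne_zero two_ne_zero hV
  apply no_rat_concordant ((U ^ 2 - 81) / (2 * V)) ((U ^ 2 - 2 * U + 81) / (2 * V))
    ((U ^ 2 - 162 * U + 81) / (2 * V))
  · field_simp
    linear_combination (-4 * 1) * h
  · field_simp
    linear_combination (-4 * 81) * h

/-- **Descent theorem for 15a1**: the rational points of `Y² = X(X-16)(X+9)`. -/
theorem descent15 (X Y : ℚ) (h : Y ^ 2 = X * (X - 16) * (X + 9)) :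
    X = 0 ∨ X = 16 ∨ X = -9 ∨ X = 36 ∨ X = -4 := by
  by_cases hx : X - 16 = 0
  · right; left; linear_combination hx
  have hx2 : (X - 16) ^ 2 ≠ 0 := pow_ne_zero 2 hx
  have hV := rat_points_E2 (Y ^ 2 / (X - 16) ^ 2) (Y * (400 - (X - 16) ^ 2) / (X - 16) ^ 2) (by
    field_simp
    rw [h]
    ring)
  rw [div_eq_zero_iff] at hV
  rcases hV with hV | hV
  · rcases mul_eq_zero.mp hV with hY | hY
    · -- Y = 0
      rw [hY] at h
      have h0 : X * (X - 16) * (X + 9) = 0 := by linear_combination -h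
      rcases mul_eq_zero.mp h0 with h0 | h0
      · rcases mul_eq_zero.mp h0 with h0 | h0
        · left; exact h0
        · exact absurd h0 hx
      · right; right; left; linear_combination h0
    · -- (X - 16)² = 400
      have : (X - 36) * (X + 4) = 0 := by linear_combination -hY
      rcases mul_eq_zero.mp this with h0 | h0
      · right; right; right; left; linear_combination h0
      · right; right; right; right; linear_combination h0
  · exact absurd hV hx2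

end Fermat.Agent.S51.H831D
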