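import Mathlib.Tactic
import Mathlib.Algebra.Field.Basic

/-!
# S51, piece (J): from a rational root of `ψ₃` and a 2-cycle of the duplication map
to a rational point on `v² = Y(9Y-4)(4Y+1)` (the curve 15a1).

Pure field algebra.
-/

set_option autoImplicit false

namespace Fermat.Agent.S51.H831

section NormalForm

variable {K : Type*} [Field K]

/-- Tate normal form parametrisation of the translated `b`-invariants. -/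
theorem normalForm {B₂ B₄ B₆ B₈ δ : K} (hδ : δ ≠ 0)
    (e1 : B₈ = -δ * B₆) (e2 : B₆ = δ ^ 3 - B₄ * δ) (e3 : 4 * B₈ = B₂ * B₆ - B₄ ^ 2) :
    B₆ ≠ 0 ∧ ∃ b : K, b ≠ 0 ∧ B₆ * b = δ ^ 3 ∧ B₄ * b = δ ^ 2 * (b - 1) ∧
      B₂ * b = δ * (b ^ 2 - 6 * b + 1) ∧ B₈ * b = -δ ^ 4 := by
  have hB₆ : B₆ ≠ 0 := by
    intro h0
    have h8 : B₈ = 0 := by rw [e1, h0]; ring
    have h4 : B₄ * δ = δ ^ 3 := by linear_combination e2 - h0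
    have h4' : B₄ = δ ^ 2 := by
      apply mul_right_cancel₀ hδ
      rw [h4]; ring
    have : δ ^ 4 = 0 := by
      have := e3
      rw [h8, h0, h4'] at this
      linear_combination this
    exact hδ (pow_eq_zero_iff (by norm_num) |>.mp this)
  have h4 : B₄ * δ = δ ^ 3 - B₆ := by linear_combination e2
  set b : K := δ ^ 3 / B₆ with hbdef
  have hb : B₆ * b = δ ^ 3 := by rw [hbdef]; field_simp
  have h4b : B₄ * b = δ ^ 2 * (b - 1) := by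
    apply mul_right_cancel₀ hδ
    linear_combination b * h4 - hb
  refine ⟨hB₆, b, ?_, hb, h4b, ?_, ?_⟩
  · exact div_ne_zero (pow_ne_zero _ hδ) hB₆
  · apply mul_right_cancel₀ (pow_ne_zero 3 hδ)
    linear_combination (-B₂ * b - 4 * b * δ) * hb - b ^ 2 * e3 + 4 * b ^ 2 * e1
      + (B₄ * b + δ ^ 2 * (b - 1)) * h4b
  · linear_combination b * e1 - δ * hb

end NormalForm

end Fermat.Agent.S51.H831

namespace Fermat.Agent.S51.H831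

section Main

variable {K : Type*} [Field K]

/-- The `2`-division polynomial squared, `ψ₂² = 4x³ + b₂x² + 2b₄x + b₆`. -/
def polyD (b₂ b₄ b₆ x : K) : K := 4 * x ^ 3 + b₂ * x ^ 2 + 2 * b₄ * x + b₆

/-- The numerator of the duplication map on `x`-coordinates. -/
def polyN (b₄ b₆ b₈ x : K) : K := x ^ 4 - b₄ * x ^ 2 - 2 * b₆ * x - b₈

/-- The `3`-division polynomial. -/
def polyPsi3 (b₂ b₄ b₆ b₈ x : K) : K :=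
  3 * x ^ 4 + b₂ * x ^ 3 + 3 * b₄ * x ^ 2 + 3 * b₆ * x + b₈

/-- Core algebra in Tate coordinates `(δ, b, ξ)`. -/
theorem tateCore {b₂ b₄ b₆ b₈ x₀ x₁ x₂ : K}
    (hb : 4 * b₈ = b₂ * b₆ - b₄ ^ 2)
    (h3 : polyPsi3 b₂ b₄ b₆ b₈ x₀ = 0)
    (hne : x₁ ≠ x₂)
    (hc1 : polyN b₄ b₆ b₈ x₁ = x₂ * polyD b₂ b₄ b₆ x₁)
    (hc2 : polyN b₄ b₆ b₈ x₂ = x₁ * polyD b₂ b₄ b₆ x₂) :
    ∃ δ b ξ : K, δ ≠ 0 ∧ b ≠ 0 ∧ δ = x₂ - x₁ ∧ x₀ - x₁ = δ * ξ ∧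
      polyD b₂ b₄ b₆ x₁ * b = δ ^ 3 ∧ polyD b₂ b₄ b₆ x₂ = δ ^ 3 * b ∧
      (b₂ ^ 2 - 24 * b₄) * b ^ 2 = δ ^ 2 * (b ^ 4 - 12 * b ^ 3 + 14 * b ^ 2 + 12 * b + 1) ∧
      (-b₂ ^ 2 * b₈ - 8 * b₄ ^ 3 - 27 * b₆ ^ 2 + 9 * b₂ * b₄ * b₆) * b
        = δ ^ 6 * (b ^ 2 - 11 * b - 1) ∧
      ξ ^ 3 * b ^ 2 + 3 * ξ ^ 2 * (ξ - 1) ^ 2 * b + (ξ - 1) ^ 3 = 0 ∧
      ξ ≠ 0 ∧ ξ ≠ 1 := by
  unfold polyPsi3 at h3
  unfold polyN polyD at hc1 hc2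
  have hδ : x₂ - x₁ ≠ 0 := sub_ne_zero.mpr (Ne.symm hne)
  set δ : K := x₂ - x₁ with hδdef
  have hx₂ : x₂ = x₁ + δ := by rw [hδdef]; ring
  set B₂ : K := b₂ + 12 * x₁ with hB₂
  set B₄ : K := b₄ + b₂ * x₁ + 6 * x₁ ^ 2 with hB₄
  set B₆ : K := 4 * x₁ ^ 3 + b₂ * x₁ ^ 2 + 2 * b₄ * x₁ + b₆ with hB₆
  set B₈ : K := 3 * x₁ ^ 4 + b₂ * x₁ ^ 3 + 3 * b₄ * x₁ ^ 2 + 3 * b₆ * x₁ + b₈ with hB₈
  have e1 : B₈ = -δ * B₆ := by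
    rw [hB₈, hB₆, hδdef]; linear_combination -hc1
  have e2' : δ * (δ ^ 3 - B₄ * δ - B₆) = 0 := by
    rw [hx₂] at hc2
    have : δ ^ 4 - B₄ * δ ^ 2 - 2 * B₆ * δ - B₈ = 0 := by
      rw [hB₄, hB₆, hB₈]; linear_combination hc2
    linear_combination this + e1
  have e2 : B₆ = δ ^ 3 - B₄ * δ := by
    have := (mul_eq_zero.mp e2').resolve_left hδ
    linear_combination -this
  have e3 : 4 * B₈ = B₂ * B₆ - B₄ ^ 2 := by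
    rw [hB₂, hB₄, hB₆, hB₈]; linear_combination hb
  obtain ⟨hB₆ne, b, hb0, hb6, hb4, hb2, hb8⟩ := normalForm hδ e1 e2 e3
  have hδ3 : δ ^ 3 ≠ 0 := pow_ne_zero 3 hδ
  set ξ : K := (x₀ - x₁) / δ with hξ
  have hx₀ : x₀ - x₁ = δ * ξ := by rw [hξ]; field_simp
  have hE1 : ξ ^ 3 * b ^ 2 + 3 * ξ ^ 2 * (ξ - 1) ^ 2 * b + (ξ - 1) ^ 3 = 0 := by
    have hx₀' : x₀ = x₁ + δ * ξ := by linear_combination hx₀
    have h3' : 3 * (δ * ξ) ^ 4 + B₂ * (δ * ξ) ^ 3 + 3 * B₄ * (δ * ξ) ^ 2 + 3 * B₆ * (δ * ξ) + B₈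
        = 0 := by
      rw [hB₂, hB₄, hB₆, hB₈]
      rw [hx₀'] at h3
      linear_combination h3
    have key : δ ^ 4 * (ξ ^ 3 * b ^ 2 + 3 * ξ ^ 2 * (ξ - 1) ^ 2 * b + (ξ - 1) ^ 3) = 0 := by
      linear_combination b * h3' - (δ ^ 3 * ξ ^ 3) * hb2 - (3 * δ ^ 2 * ξ ^ 2) * hb4
        - (3 * δ * ξ) * hb6 - hb8
    exact (mul_eq_zero.mp key).resolve_left (pow_ne_zero 4 hδ)
  refine ⟨δ, b, ξ, hδ, hb0, rfl, hx₀, ?_, ?_, ?_, ?_, hE1, ?_, ?_⟩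
  · -- D(x₁) * b = δ³
    unfold polyD; exact hb6
  · -- D(x₂) = δ³ b
    unfold polyD
    apply mul_right_cancel₀ hb0
    rw [hx₂]
    have : 4 * (x₁ + δ) ^ 3 + b₂ * (x₁ + δ) ^ 2 + 2 * b₄ * (x₁ + δ) + b₆
        = 4 * δ ^ 3 + B₂ * δ ^ 2 + 2 * B₄ * δ + B₆ := by
      rw [hB₂, hB₄, hB₆]; ring
    rw [this]
    linear_combination δ ^ 2 * hb2 + 2 * δ * hb4 + hb6
  · -- c₄
    have : b₂ ^ 2 - 24 * b₄ = B₂ ^ 2 - 24 * B₄ := by rw [hB₂, hB₄]; ring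
    rw [this]
    linear_combination (B₂ * b + δ * (b ^ 2 - 6 * b + 1)) * hb2 - 24 * b * hb4
  · -- Δ
    have : -b₂ ^ 2 * b₈ - 8 * b₄ ^ 3 - 27 * b₆ ^ 2 + 9 * b₂ * b₄ * b₆
        = -B₂ ^ 2 * B₈ - 8 * B₄ ^ 3 - 27 * B₆ ^ 2 + 9 * B₂ * B₄ * B₆ := by
      rw [hB₂, hB₄, hB₆, hB₈]
      linear_combination (36 * x₁ ^ 2 + 6 * b₂ * x₁) * hb
    rw [this]
    have hB2' : B₂ = δ * (b ^ 2 - 6 * b + 1) / b := eq_div_of_mul_eq hb0 hb2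
    have hB4' : B₄ = δ ^ 2 * (b - 1) / b := eq_div_of_mul_eq hb0 hb4
    have hB6' : B₆ = δ ^ 3 / b := eq_div_of_mul_eq hb0 hb6
    have hB8' : B₈ = -δ ^ 4 / b := eq_div_of_mul_eq hb0 hb8
    rw [hB2', hB4', hB6', hB8']
    field_simp
    ring
  · -- ξ ≠ 0
    intro h0
    rw [h0] at hE1
    norm_num at hE1
  · -- ξ ≠ 1
    intro h1
    rw [h1] at hE1
    have : b ^ 2 = 0 := by linear_combination hE1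
    exact hb0 (pow_eq_zero_iff (by norm_num) |>.mp this)

/-- The rational function `Y = (x₀-x₁)(x₀-x₂)/(x₁-x₂)²` in terms of `s = x₁+x₂`, `q = x₁x₂`. -/
def valY (x₀ s q : K) : K := (x₀ ^ 2 - s * x₀ + q) / (s ^ 2 - 4 * q)

/-- The rational function `β = b - 1/b` in terms of `s = x₁+x₂`, `q = x₁x₂`. -/
def valB (b₂ b₄ s q : K) : K := (4 * s ^ 2 - 4 * q + b₂ * s + 2 * b₄) / (s ^ 2 - 4 * q)

/-- The rational function `γ = (2ξ-1)(b + 1/b)` in terms of `s = x₁+x₂`, `q = x₁x₂`. -/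
def valG (b₂ b₄ b₆ x₀ s q : K) : K :=
  (2 * x₀ - s) * (4 * s ^ 3 - 12 * s * q + b₂ * (s ^ 2 - 2 * q) + 2 * b₄ * s + 2 * b₆)
    / (s ^ 2 - 4 * q) ^ 2

theorem mainJ {b₂ b₄ b₆ b₈ x₀ x₁ x₂ s q : K}
    (hb : 4 * b₈ = b₂ * b₆ - b₄ ^ 2)
    (h3 : polyPsi3 b₂ b₄ b₆ b₈ x₀ = 0)
    (hne : x₁ ≠ x₂)
    (hc1 : polyN b₄ b₆ b₈ x₁ = x₂ * polyD b₂ b₄ b₆ x₁)
    (hc2 : polyN b₄ b₆ b₈ x₂ = x₁ * polyD b₂ b₄ b₆ x₂)
    (hs : x₁ + x₂ = s) (hq : x₁ * x₂ = q) :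
    valY x₀ s q ≠ 0 ∧
    (valY x₀ s q + 1) * valG b₂ b₄ b₆ x₀ s q + (3 * valY x₀ s q + 1) * valB b₂ b₄ s q
      + 6 * valY x₀ s q ^ 2 = 0 ∧
    valG b₂ b₄ b₆ x₀ s q ^ 2 = (4 * valY x₀ s q + 1) * (valB b₂ b₄ s q ^ 2 + 4) ∧
    (b₂ ^ 2 - 24 * b₄) ^ 3 * (valB b₂ b₄ s q - 11)
      = (-b₂ ^ 2 * b₈ - 8 * b₄ ^ 3 - 27 * b₆ ^ 2 + 9 * b₂ * b₄ * b₆)
        * ((valB b₂ b₄ s q - 11) ^ 2 + 10 * (valB b₂ b₄ s q - 11) + 5) ^ 3 := by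
  obtain ⟨δ, b, ξ, hδ, hb0, hδeq, hx₀, hD1, hD2, hc4, hΔ, hE1, hξ0, hξ1⟩ :=
    tateCore hb h3 hne hc1 hc2
  have hd : s ^ 2 - 4 * q = δ ^ 2 := by rw [← hs, ← hq, hδeq]; ring
  have hx₂ : x₀ - x₂ = δ * (ξ - 1) := by rw [hδeq] at hx₀ ⊢; linear_combination hx₀
  have hD1' : polyD b₂ b₄ b₆ x₁ = δ ^ 3 / b := eq_div_of_mul_eq hb0 hD1
  have hY : valY x₀ s q = ξ * (ξ - 1) := by
    unfold valY
    rw [hd, div_eq_iff (pow_ne_zero 2 hδ)]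
    have : x₀ ^ 2 - s * x₀ + q = (x₀ - x₁) * (x₀ - x₂) := by rw [← hs, ← hq]; ring
    rw [this, hx₀, hx₂]; ring
  have hB : valB b₂ b₄ s q = b - 1 / b := by
    unfold valB
    rw [hd, div_eq_iff (pow_ne_zero 2 hδ)]
    have h1 : (4 * s ^ 2 - 4 * q + b₂ * s + 2 * b₄) * δ
        = polyD b₂ b₄ b₆ x₂ - polyD b₂ b₄ b₆ x₁ := by
      unfold polyD; rw [← hs, ← hq, hδeq]; ring
    apply mul_right_cancel₀ hδ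
    rw [h1, hD2, hD1']
    field_simp
  have hG : valG b₂ b₄ b₆ x₀ s q = (2 * ξ - 1) * (b + 1 / b) := by
    unfold valG
    rw [hd, div_eq_iff (pow_ne_zero 2 (pow_ne_zero 2 hδ))]
    have h1 : 4 * s ^ 3 - 12 * s * q + b₂ * (s ^ 2 - 2 * q) + 2 * b₄ * s + 2 * b₆
        = polyD b₂ b₄ b₆ x₁ + polyD b₂ b₄ b₆ x₂ := by
      unfold polyD; rw [← hs, ← hq]; ring
    have h2 : 2 * x₀ - s = δ * (2 * ξ - 1) := by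
      rw [← hs]; linear_combination hx₀ + hx₂
    rw [h1, h2, hD2, hD1']
    field_simp
    ring
  rw [hY, hB, hG]
  refine ⟨mul_ne_zero hξ0 (sub_ne_zero.mpr hξ1), ?_, ?_, ?_⟩
  · field_simp
    linear_combination 2 * hE1
  · field_simp
    ring
  · have hc4' : b₂ ^ 2 - 24 * b₄
        = δ ^ 2 * (b ^ 4 - 12 * b ^ 3 + 14 * b ^ 2 + 12 * b + 1) / b ^ 2 :=
      eq_div_of_mul_eq (pow_ne_zero 2 hb0) hc4
    have hΔ' : -b₂ ^ 2 * b₈ - 8 * b₄ ^ 3 - 27 * b₆ ^ 2 + 9 * b₂ * b₄ * b₆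
        = δ ^ 6 * (b ^ 2 - 11 * b - 1) / b :=
      eq_div_of_mul_eq hb0 hΔ
    rw [hc4', hΔ']
    field_simp
    ring

end Main

end Fermat.Agent.S51.H831
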