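import Mathlib.Tactic
import Mathlib.Data.Rat.Cast.CharZero
import Mathlib.RingTheory.Int.Basic
import Fermat.Agent.S51.H831J

/-!
# S51, piece (F): final contradiction from the relations (R1)-(R3), the descent
theorem for `Y² = X(X-16)(X+9)` and semistability at `5`.
-/

set_option autoImplicit false

namespace Fermat.Agent.S51.H831

/-- The statement of the descent theorem for the curve `15a1`. -/
def Descent15 : Prop :=
  ∀ X Y : ℚ, Y ^ 2 = X * (X - 16) * (X + 9) → X = 0 ∨ X = 16 ∨ X = -9 ∨ X = 36 ∨ X = -4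

theorem five_contra (c₄ Δ : ℤ) (hss5 : (5 : ℤ) ∣ Δ → ¬ (5 : ℤ) ∣ c₄) (A B : ℤ)
    (hA : ¬ (5 : ℤ) ∣ A) (hB : ¬ (5 : ℤ) ∣ B) (e : ℕ) (he : e = 1 ∨ e = 2)
    (h : A * c₄ ^ 3 = 5 ^ e * B * Δ) : False := by
  have h5 : Prime (5 : ℤ) := by
    rw [Int.prime_iff_natAbs_prime]; norm_num
  have hdvd : (5 : ℤ) ∣ A * c₄ ^ 3 := by
    rw [h]
    rcases he with rfl | rfl
    · exact ⟨B * Δ, by ring⟩
    · exact ⟨5 * B * Δ, by ring⟩
  have hc : (5 : ℤ) ∣ c₄ := by
    rcases h5.dvd_or_dvd hdvd with h1 | h1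
    · exact absurd h1 hA
    · exact h5.dvd_of_dvd_pow h1
  obtain ⟨k, rfl⟩ := hc
  have hΔ5 : (5 : ℤ) ∣ B * Δ := by
    rcases he with rfl | rfl
    · refine ⟨5 * A * k ^ 3, ?_⟩
      have : (5 : ℤ) * (B * Δ) = 5 * (5 * (5 * A * k ^ 3)) := by linear_combination -h
      exact mul_left_cancel₀ (by norm_num) this
    · refine ⟨A * k ^ 3, ?_⟩
      have : (25 : ℤ) * (B * Δ) = 25 * (5 * (A * k ^ 3)) := by linear_combination -h
      exact mul_left_cancel₀ (by norm_num) this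
  have hΔ : (5 : ℤ) ∣ Δ := by
    rcases h5.dvd_or_dvd hΔ5 with h1 | h1
    · exact absurd h1 hB
    · exact h1
  exact hss5 hΔ ⟨k, rfl⟩

theorem final_contra (c₄ Δ : ℤ) (hΔ : Δ ≠ 0)
    (hss5 : (5 : ℤ) ∣ Δ → ¬ (5 : ℤ) ∣ c₄)
    (descent : Descent15)
    (Y β γ : ℚ) (hY : Y ≠ 0)
    (R1 : (Y + 1) * γ + (3 * Y + 1) * β + 6 * Y ^ 2 = 0)
    (R2 : γ ^ 2 = (4 * Y + 1) * (β ^ 2 + 4))
    (R3 : (c₄ : ℚ) ^ 3 * (β - 11) = (Δ : ℚ) * ((β - 11) ^ 2 + 10 * (β - 11) + 5) ^ 3) :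
    False := by
  have hΔq : (Δ : ℚ) ≠ 0 := by exact_mod_cast hΔ
  -- Y ≠ -1
  have hY1 : Y + 1 ≠ 0 := by
    intro h
    have hYe : Y = -1 := by linear_combination h
    rw [hYe] at R1 R2
    have hβ : β = 3 := by linear_combination -R1 / 2
    rw [hβ] at R2
    nlinarith [sq_nonneg γ]
  -- the quadratic relation between β and Y
  have hstar : Y ^ 3 * β ^ 2 - 3 * Y ^ 2 * (3 * Y + 1) * β + (Y + 1) ^ 2 * (4 * Y + 1)
      - 9 * Y ^ 4 = 0 := by
    have hγ : (Y + 1) * γ = -((3 * Y + 1) * β + 6 * Y ^ 2) := by linear_combination R1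
    have h2 : ((Y + 1) * γ) ^ 2 = (Y + 1) ^ 2 * ((4 * Y + 1) * (β ^ 2 + 4)) := by
      rw [mul_pow, R2]
    rw [hγ] at h2
    linear_combination -h2 / 4
  -- the point on 15a1
  have hpt : (36 * ((2 * Y ^ 2 * β - 3 * Y * (3 * Y + 1)) / (Y + 1))) ^ 2
      = (36 * Y) * (36 * Y - 16) * (36 * Y + 9) := by
    have hw : (2 * Y ^ 2 * β - 3 * Y * (3 * Y + 1)) ^ 2
        = Y * (Y + 1) ^ 2 * (9 * Y - 4) * (4 * Y + 1) := by
      linear_combination (4 * Y) * hstar
    rw [mul_pow, div_pow, hw]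
    field_simp
    ring
  have hcases := descent _ _ hpt
  -- h ≠ 0
  have hβ11 : β - 11 ≠ 0 := by
    intro h
    rw [h] at R3
    have : (Δ : ℚ) * 125 = 0 := by linear_combination -R3
    rcases mul_eq_zero.mp this with h1 | h1
    · exact hΔq h1
    · norm_num at h1
  rcases hcases with h | h | h | h | h
  · -- Y = 0
    exact hY (by linear_combination h / 36)
  · -- Y = 4/9, β = 63/8, h = -25/8
    have hYv : Y = 4 / 9 := by linear_combination h / 36
    rw [hYv] at hstar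
    have hβ : (8 * β - 63) ^ 2 = 0 := by linear_combination 729 * hstar
    have hβ' : β = 63 / 8 := by
      have := pow_eq_zero_iff (two_ne_zero) |>.mp hβ
      linear_combination this / 8
    rw [hβ'] at R3
    have hint : (32768 : ℤ) * c₄ ^ 3 = 5 ^ 1 * 9393931 * Δ := by
      have : (32768 : ℚ) * (c₄ : ℚ) ^ 3 = 5 ^ 1 * 9393931 * (Δ : ℚ) := by
        linear_combination (-32768 * 8 / 25 : ℚ) * R3
      exact_mod_cast this
    exact five_contra c₄ Δ hss5 32768 9393931 (by norm_num) (by norm_num) 1 (Or.inl rfl) hint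
  · -- Y = -1/4, β = -3/2, h = -25/2
    have hYv : Y = -1 / 4 := by linear_combination h / 36
    rw [hYv] at hstar
    have hβ : (2 * β + 3) ^ 2 = 0 := by linear_combination -256 * hstar
    have hβ' : β = -3 / 2 := by
      have := pow_eq_zero_iff (two_ne_zero) |>.mp hβ
      linear_combination this / 2
    rw [hβ'] at R3
    have hint : (-32 : ℤ) * c₄ ^ 3 = 5 ^ 1 * 24389 * Δ := by
      have : (-32 : ℚ) * (c₄ : ℚ) ^ 3 = 5 ^ 1 * 24389 * (Δ : ℚ) := by
        linear_combination (64 / 25 : ℚ) * R3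
      exact_mod_cast this
    exact five_contra c₄ Δ hss5 (-32) 24389 (by norm_num) (by norm_num) 1 (Or.inl rfl) hint
  · -- Y = 1, β ∈ {1, 11}
    have hYv : Y = 1 := by linear_combination h / 36
    rw [hYv] at hstar
    have hβ : (β - 11) * (β - 1) = 0 := by linear_combination hstar
    have hβ' : β = 1 := by
      rcases mul_eq_zero.mp hβ with h1 | h1
      · exact absurd h1 hβ11
      · linear_combination h1
    rw [hβ'] at R3
    have hint : (-2 : ℤ) * c₄ ^ 3 = 5 ^ 2 * 1 * Δ := by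
      have : (-2 : ℚ) * (c₄ : ℚ) ^ 3 = 5 ^ 2 * 1 * (Δ : ℚ) := by
        linear_combination (1 / 5 : ℚ) * R3
      exact_mod_cast this
    exact five_contra c₄ Δ hss5 (-2) 1 (by norm_num) (by norm_num) 2 (Or.inr rfl) hint
  · -- Y = -1/9, β ∈ {11, -29}
    have hYv : Y = -1 / 9 := by linear_combination h / 36
    rw [hYv] at hstar
    have hβ : (β - 11) * (β + 29) = 0 := by linear_combination -729 * hstar
    have hβ' : β = -29 := by
      rcases mul_eq_zero.mp hβ with h1 | h1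
      · exact absurd h1 hβ11
      · linear_combination h1
    rw [hβ'] at R3
    have hint : (-8 : ℤ) * c₄ ^ 3 = 5 ^ 2 * 13997521 * Δ := by
      have : (-8 : ℚ) * (c₄ : ℚ) ^ 3 = 5 ^ 2 * 13997521 * (Δ : ℚ) := by
        linear_combination (1 / 5 : ℚ) * R3
      exact_mod_cast this
    exact five_contra c₄ Δ hss5 (-8) 13997521 (by norm_num) (by norm_num) 2 (Or.inr rfl) hint

end Fermat.Agent.S51.H831
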