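import Mathlib.Tactic
import Mathlib.AlgebraicGeometry.EllipticCurve.Weierstrass
import Mathlib.FieldTheory.IsAlgClosed.AlgebraicClosure
import Fermat.Prelude.Def_FLTPrelim_FreyPackage
import Fermat.Prelude.Def_FLTPrelim_GaloisRep
import Fermat.Prelude.Def_FLTPrelim_Modularity
import Fermat.Prelude.Def_FLTPrelim_ModularRep
import Fermat.Agent.S51.H831J
import Fermat.Agent.S51.H831F

/-!
# S51: glue.  `Three.main + Five.main + Descent.main ⟹ S51`.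
-/

set_option autoImplicit false

namespace Fermat.Agent.S51.H831

open WeierstrassCurve

/-- Contradiction from the torsion data (over any characteristic-zero field `K`). -/
theorem false_of_data (W : WeierstrassCurve ℤ) (hΔ : W.Δ ≠ 0) (hW : W.IsSemistableModel)
    (descent : Descent15)
    {K : Type*} [Field K] [CharZero K]
    (x₀ s q : ℚ) (x₁ x₂ : K)
    (h3 : 3 * x₀ ^ 4 + (W.b₂ : ℚ) * x₀ ^ 3 + 3 * (W.b₄ : ℚ) * x₀ ^ 2 + 3 * (W.b₆ : ℚ) * x₀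
      + (W.b₈ : ℚ) = 0)
    (hne : x₁ ≠ x₂) (hs : x₁ + x₂ = (s : K)) (hq : x₁ * x₂ = (q : K))
    (hc1 : x₂ * (4 * x₁ ^ 3 + (W.b₂ : K) * x₁ ^ 2 + 2 * (W.b₄ : K) * x₁ + (W.b₆ : K))
      = x₁ ^ 4 - (W.b₄ : K) * x₁ ^ 2 - 2 * (W.b₆ : K) * x₁ - (W.b₈ : K))
    (hc2 : x₁ * (4 * x₂ ^ 3 + (W.b₂ : K) * x₂ ^ 2 + 2 * (W.b₄ : K) * x₂ + (W.b₆ : K))
      = x₂ ^ 4 - (W.b₄ : K) * x₂ ^ 2 - 2 * (W.b₆ : K) * x₂ - (W.b₈ : K)) :
    False := by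
  have hbZ : 4 * W.b₈ = W.b₂ * W.b₆ - W.b₄ ^ 2 := W.b_relation
  have hbK : 4 * (W.b₈ : K) = (W.b₂ : K) * (W.b₆ : K) - (W.b₄ : K) ^ 2 := by
    exact_mod_cast congrArg (Int.cast : ℤ → K) hbZ
  have h3K : polyPsi3 (W.b₂ : K) (W.b₄ : K) (W.b₆ : K) (W.b₈ : K) (x₀ : K) = 0 := by
    unfold polyPsi3
    have := congrArg (Rat.cast : ℚ → K) h3
    push_cast at this
    linear_combination this
  have hc1' : polyN (W.b₄ : K) (W.b₆ : K) (W.b₈ : K) x₁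
      = x₂ * polyD (W.b₂ : K) (W.b₄ : K) (W.b₆ : K) x₁ := by
    unfold polyN polyD; exact hc1.symm
  have hc2' : polyN (W.b₄ : K) (W.b₆ : K) (W.b₈ : K) x₂
      = x₁ * polyD (W.b₂ : K) (W.b₄ : K) (W.b₆ : K) x₂ := by
    unfold polyN polyD; exact hc2.symm
  obtain ⟨hY, R1, R2, R3⟩ := mainJ hbK h3K hne hc1' hc2' hs hq
  -- descend to ℚ
  have cY : valY (x₀ : K) (s : K) (q : K) = ((valY x₀ s q : ℚ) : K) := by
    unfold valY; push_cast; ring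
  have cB : valB (W.b₂ : K) (W.b₄ : K) (s : K) (q : K)
      = ((valB (W.b₂ : ℚ) (W.b₄ : ℚ) s q : ℚ) : K) := by
    unfold valB; push_cast; ring
  have cG : valG (W.b₂ : K) (W.b₄ : K) (W.b₆ : K) (x₀ : K) (s : K) (q : K)
      = ((valG (W.b₂ : ℚ) (W.b₄ : ℚ) (W.b₆ : ℚ) x₀ s q : ℚ) : K) := by
    unfold valG; push_cast; ring
  rw [cY] at hY R1 R2
  rw [cB] at R1 R2 R3
  rw [cG] at R1 R2
  set Y : ℚ := valY x₀ s q
  set β : ℚ := valB (W.b₂ : ℚ) (W.b₄ : ℚ) s q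
  set γ : ℚ := valG (W.b₂ : ℚ) (W.b₄ : ℚ) (W.b₆ : ℚ) x₀ s q
  have hYq : Y ≠ 0 := by
    intro h; apply hY; rw [h]; simp
  have R1q : (Y + 1) * γ + (3 * Y + 1) * β + 6 * Y ^ 2 = 0 := by
    have : (((Y + 1) * γ + (3 * Y + 1) * β + 6 * Y ^ 2 : ℚ) : K) = ((0 : ℚ) : K) := by
      push_cast; linear_combination R1
    exact Rat.cast_injective this
  have R2q : γ ^ 2 = (4 * Y + 1) * (β ^ 2 + 4) := by
    have : ((γ ^ 2 : ℚ) : K) = (((4 * Y + 1) * (β ^ 2 + 4) : ℚ) : K) := by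
      push_cast; linear_combination R2
    exact Rat.cast_injective this
  have R3q : ((W.c₄ : ℤ) : ℚ) ^ 3 * (β - 11)
      = ((W.Δ : ℤ) : ℚ) * ((β - 11) ^ 2 + 10 * (β - 11) + 5) ^ 3 := by
    have : ((((W.c₄ : ℤ) : ℚ) ^ 3 * (β - 11) : ℚ) : K)
        = ((((W.Δ : ℤ) : ℚ) * ((β - 11) ^ 2 + 10 * (β - 11) + 5) ^ 3 : ℚ) : K) := by
      simp only [WeierstrassCurve.c₄, WeierstrassCurve.Δ]
      push_cast
      linear_combination R3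
    exact Rat.cast_injective this
  exact final_contra W.c₄ W.Δ hΔ (fun h5 => hW 5 (by norm_num) (by exact_mod_cast h5))
    descent Y β γ hYq R1q R2q R3q

/-- Interface of the `3`-side (captain's `Three.main`). -/
def ThreeMain : Prop :=
  ∀ W : WeierstrassCurve ℤ, W.Δ ≠ 0 → ¬ W.ModRepIsIrreducible 3 →
    ∃ x : ℚ, 3 * x ^ 4 + (W.b₂ : ℚ) * x ^ 3 + 3 * (W.b₄ : ℚ) * x ^ 2 + 3 * (W.b₆ : ℚ) * x
      + (W.b₈ : ℚ) = 0

/-- Interface of the `5`-side (captain's `Five.main`, without the redundant `D ≠ 0` clauses;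
any stronger statement implies this one). -/
def FiveMain : Prop :=
  ∀ W : WeierstrassCurve ℤ, W.Δ ≠ 0 → ¬ W.ModRepIsIrreducible 5 →
    ∃ (x₁ x₂ : AlgebraicClosure ℚ) (σ₁ σ₂ : ℚ), x₁ ≠ x₂ ∧
      x₁ + x₂ = (σ₁ : AlgebraicClosure ℚ) ∧ x₁ * x₂ = (σ₂ : AlgebraicClosure ℚ) ∧
      x₂ * (4 * x₁ ^ 3 + (W.b₂ : AlgebraicClosure ℚ) * x₁ ^ 2
          + 2 * (W.b₄ : AlgebraicClosure ℚ) * x₁ + (W.b₆ : AlgebraicClosure ℚ))
        = x₁ ^ 4 - (W.b₄ : AlgebraicClosure ℚ) * x₁ ^ 2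
          - 2 * (W.b₆ : AlgebraicClosure ℚ) * x₁ - (W.b₈ : AlgebraicClosure ℚ) ∧
      x₁ * (4 * x₂ ^ 3 + (W.b₂ : AlgebraicClosure ℚ) * x₂ ^ 2
          + 2 * (W.b₄ : AlgebraicClosure ℚ) * x₂ + (W.b₆ : AlgebraicClosure ℚ))
        = x₂ ^ 4 - (W.b₄ : AlgebraicClosure ℚ) * x₂ ^ 2
          - 2 * (W.b₆ : AlgebraicClosure ℚ) * x₂ - (W.b₈ : AlgebraicClosure ℚ)

theorem result_of (three : ThreeMain) (five : FiveMain) (descent : Descent15)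
    (W : WeierstrassCurve ℤ) (hΔ : W.Δ ≠ 0) (hW : W.IsSemistableModel) :
    W.ModRepIsIrreducible 3 ∨ W.ModRepIsIrreducible 5 := by
  by_contra hcon
  rw [not_or] at hcon
  obtain ⟨x₀, h3⟩ := three W hΔ hcon.1
  obtain ⟨x₁, x₂, s, q, hne, hs, hq, hc1, hc2⟩ := five W hΔ hcon.2
  exact false_of_data W hΔ hW descent x₀ s q x₁ x₂ h3 hne hs hq hc1 hc2

end Fermat.Agent.S51.H831
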