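import Fermat.Agent.S51.H831Glue
import Fermat.Agent.S51.H831D

/-!
# S51 modulo the torsion side: `ThreeMain ∧ FiveMain ⟹ S51`.
-/

set_option autoImplicit false

namespace Fermat.Agent.S51.H831

theorem descent15_holds : Descent15 := fun X Y h => H831D.descent15 X Y h

/-- S51 from the `3`-side and the `5`-side torsion statements alone. -/
theorem result_of_torsion (three : ThreeMain) (five : FiveMain)
    (W : WeierstrassCurve ℤ) (hΔ : W.Δ ≠ 0) (hW : W.IsSemistableModel) :
    W.ModRepIsIrreducible 3 ∨ W.ModRepIsIrreducible 5 :=
  result_of three five descent15_holds W hΔ hW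

end Fermat.Agent.S51.H831
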