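import Mathlib

set_option autoImplicit false
open WeierstrassCurve WeierstrassCurve.Affine WeierstrassCurve.Affine.Point

namespace Fermat.Agent.S51.T171

open Classical in
/-- A choice of `y`-coordinate above each `x`. -/
noncomputable def yChoice {F : Type*} [Field F] (W : Affine F) (x : F) : F :=
  if h : ∃ y, W.Equation x y then h.choose else 0

theorem yChoice_spec {F : Type*} [Field F] (W : Affine F) {x y : F} (h : W.Equation x y) :
    y = yChoice W x ∨ y = W.negY x (yChoice W x) := by
  have hex : ∃ y, W.Equation x y := ⟨y, h⟩
  have hc : W.Equation x (yChoice W x) := by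
    unfold yChoice
    rw [dif_pos hex]
    exact hex.choose_spec
  exact Y_eq_of_X_eq h hc rfl

open Classical in
/-- Encoding of points by `(x, y = chosen y)`. -/
noncomputable def xyCode {F : Type*} [Field F] (W : Affine F) : W.Point → Option (F × Bool)
  | .zero => none
  | .some x y _ => some (x, decide (y = yChoice W x))

theorem xyCode_injective {F : Type*} [Field F] (W : Affine F) :
    Function.Injective (xyCode W) := by
  classical
  rintro (_ | ⟨x₁, y₁, h₁⟩) (_ | ⟨x₂, y₂, h₂⟩) h
  · rfl
  · simp [xyCode] at h
  · simp [xyCode] at h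
  · simp only [xyCode, Option.some.injEq, Prod.mk.injEq] at h
    obtain ⟨hx, hb⟩ := h
    subst hx
    have hiff : y₁ = yChoice W x₁ ↔ y₂ = yChoice W x₁ := by
      simpa using hb
    have hy : y₁ = y₂ := by
      rcases yChoice_spec W h₁.1 with e1 | e1 <;> rcases yChoice_spec W h₂.1 with e2 | e2
      · rw [e1, e2]
      · rw [e1]; exact (hiff.mp e1).symm
      · rw [e2]; exact hiff.mpr e2
      · rw [e1, e2]
    subst hy
    rfl

/-- If the `x`-coordinates of all affine points of a set `T` are roots of a nonzero polynomial
`p`, then `T` is finite with at most `2 deg p + 1` elements. -/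
theorem finite_ncard_le_of_roots {F : Type*} [Field F] (W : Affine F)
    (p : Polynomial F) (hp : p ≠ 0) (T : Set W.Point)
    (hT : ∀ x y h, Point.some x y h ∈ T → p.eval x = 0) :
    T.Finite ∧ T.ncard ≤ 2 * p.natDegree + 1 := by
  classical
  set S : Finset (Option (F × Bool)) :=
    Finset.insertNone (p.roots.toFinset ×ˢ (Finset.univ : Finset Bool)) with hS
  have hsub : xyCode W '' T ⊆ (S : Set (Option (F × Bool))) := by
    rintro _ ⟨P, hP, rfl⟩
    rcases P with _ | ⟨x, y, h⟩
    · simp [xyCode, hS]
    · have hroot : p.eval x = 0 := hT x y h hP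
      simp only [xyCode, hS, Finset.mem_coe, Finset.some_mem_insertNone, Finset.mem_product,
        Multiset.mem_toFinset, Finset.mem_univ, and_true]
      exact (Polynomial.mem_roots hp).mpr hroot
  have hfin_img : (xyCode W '' T).Finite := S.finite_toSet.subset hsub
  have hfin : T.Finite := Set.Finite.of_finite_image hfin_img (xyCode_injective W).injOn
  refine ⟨hfin, ?_⟩
  have h1 : T.ncard = (xyCode W '' T).ncard :=
    (Set.ncard_image_of_injective T (xyCode_injective W)).symm
  have h2 : (xyCode W '' T).ncard ≤ (S : Set (Option (F × Bool))).ncard :=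
    Set.ncard_le_ncard hsub S.finite_toSet
  have h3 : (S : Set (Option (F × Bool))).ncard = S.card := Set.ncard_coe_finset S
  have h4 : S.card ≤ 2 * p.natDegree + 1 := by
    rw [hS, Finset.card_insertNone, Finset.card_product, Finset.card_univ, Fintype.card_bool]
    have : p.roots.toFinset.card ≤ p.natDegree :=
      (Multiset.toFinset_card_le _).trans (Polynomial.card_roots' p)
    omega
  omega

end Fermat.Agent.S51.T171
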