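import Mathlib

set_option autoImplicit false
open WeierstrassCurve WeierstrassCurve.Affine WeierstrassCurve.Affine.Point

namespace Fermat.Agent.S51.T171

variable {F : Type*} [Field F] (W : Affine F)

/-- `ψ₂² = 4x³ + b₂x² + 2b₄x + b₆`. -/
def dB6 (x : F) : F := 4 * x ^ 3 + W.b₂ * x ^ 2 + 2 * W.b₄ * x + W.b₆

/-- Numerator of the duplication map on `x`-coordinates. -/
def dN (x : F) : F := x ^ 4 - W.b₄ * x ^ 2 - 2 * W.b₆ * x - W.b₈

/-- The `3`-division polynomial. -/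
def dPsi3 (x : F) : F := 3 * x ^ 4 + W.b₂ * x ^ 3 + 3 * W.b₄ * x ^ 2 + 3 * W.b₆ * x + W.b₈

theorem dPsi3_eq (x : F) : dPsi3 W x = x * dB6 W x - dN W x := by
  unfold dPsi3 dB6 dN; ring

variable {W} [DecidableEq F]

omit [DecidableEq F] in
theorem dB6_eq_sq {x y : F} (h : W.Equation x y) : dB6 W x = (y - W.negY x y) ^ 2 := by
  rw [equation_iff] at h
  simp only [dB6, negY, WeierstrassCurve.b₂, WeierstrassCurve.b₄, WeierstrassCurve.b₆]
  linear_combination (-4 : F) * h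

omit [DecidableEq F] in
theorem dB6_ne_zero {x y : F} (h : W.Equation x y) (hy : y ≠ W.negY x y) : dB6 W x ≠ 0 := by
  rw [dB6_eq_sq h]
  exact pow_ne_zero 2 (sub_ne_zero.mpr hy)

/-- The duplication formula on `x`-coordinates. -/
theorem addX_self_mul_dB6 {x y : F} (h : W.Equation x y) (hy : y ≠ W.negY x y) :
    W.addX x x (W.slope x x y y) * dB6 W x = dN W x := by
  have hne : y - W.negY x y ≠ 0 := sub_ne_zero.mpr hy
  rw [dB6_eq_sq h, slope_of_Y_ne rfl hy]
  rw [equation_iff] at h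
  obtain ⟨ℓ, hℓdef⟩ : ∃ ℓ : F, ℓ =
      (3 * x ^ 2 + 2 * W.a₂ * x + W.a₄ - W.a₁ * y) / (y - W.negY x y) := ⟨_, rfl⟩
  rw [← hℓdef]
  have hℓ : ℓ * (y - W.negY x y) = 3 * x ^ 2 + 2 * W.a₂ * x + W.a₄ - W.a₁ * y := by
    rw [hℓdef]; exact div_mul_cancel₀ _ hne
  simp only [addX, dN, WeierstrassCurve.b₄, WeierstrassCurve.b₆,
    WeierstrassCurve.b₈]
  simp only [negY] at hℓ ⊢
  linear_combination (ℓ * (y - (-y - W.a₁ * x - W.a₃))
      + (3 * x ^ 2 + 2 * W.a₂ * x + W.a₄ - W.a₁ * y)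
      + W.a₁ * (y - (-y - W.a₁ * x - W.a₃))) * hℓ
    + (-(8 * x + W.a₁ ^ 2 + 4 * W.a₂)) * h

/-- Doubling an affine point which is not `2`-torsion. -/
theorem two_nsmul_some {x y : F} (h : W.Nonsingular x y) (hy : y ≠ W.negY x y) :
    ∃ (x' y' : F) (h' : W.Nonsingular x' y'),
      Point.some x y h + Point.some x y h = Point.some x' y' h' ∧ x' * dB6 W x = dN W x :=
  ⟨_, _, _, add_self_of_Y_ne hy, addX_self_mul_dB6 h.1 hy⟩

/-- Doubling a `2`-torsion affine point. -/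
theorem two_nsmul_some_of_eq {x y : F} (h : W.Nonsingular x y) (hy : y = W.negY x y) :
    Point.some x y h + Point.some x y h = 0 :=
  add_self_of_Y_eq hy

omit [DecidableEq F] in
/-- Two affine points with the same `x`-coordinate are equal or opposite. -/
theorem eq_or_eq_neg_of_x_eq {x y y' : F} (h : W.Nonsingular x y) (h' : W.Nonsingular x y') :
    Point.some x y h = Point.some x y' h' ∨ Point.some x y h = -Point.some x y' h' := by
  rcases Y_eq_of_X_eq h.1 h'.1 rfl with hy | hy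
  · left; subst hy; rfl
  · right
    rw [neg_some]
    subst hy; rfl

omit [DecidableEq F] in
/-- At a nonsingular point with `ψ₂ = 0` the polynomial `ψ₃` does not vanish. -/
theorem dPsi3_ne_zero_of_Y_eq (h2 : (2 : F) ≠ 0) {x y : F} (h : W.Nonsingular x y)
    (hy : y = W.negY x y) : dPsi3 W x ≠ 0 := by
  intro h3
  have heq : W.Equation x y := h.1
  rw [nonsingular_iff] at h
  obtain ⟨-, hns⟩ := h
  have hpsi : 2 * y + W.a₁ * x + W.a₃ = 0 := by
    simp only [negY] at hy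
    linear_combination hy
  have hB6 : dB6 W x = 0 := by
    rw [dB6_eq_sq heq]
    simp only [negY]
    have : y - (-y - W.a₁ * x - W.a₃) = 0 := by linear_combination hpsi
    rw [this]; ring
  -- `B6' = 2 a₁ ψ - 4 W_x`, `16 ψ₃ = 2 B6 B6'' - B6'²`
  have hWx : (16 : F) * (W.a₁ * y - (3 * x ^ 2 + 2 * W.a₂ * x + W.a₄)) ^ 2 = 0 := by
    have e1 : (16 : F) * dPsi3 W x = 2 * dB6 W x * (24 * x + 2 * W.b₂)
        - (12 * x ^ 2 + 2 * W.b₂ * x + 2 * W.b₄) ^ 2 := by
      simp only [dPsi3, dB6, WeierstrassCurve.b₂, WeierstrassCurve.b₄, WeierstrassCurve.b₆,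
        WeierstrassCurve.b₈]
      ring
    have e2 : 12 * x ^ 2 + 2 * W.b₂ * x + 2 * W.b₄
        = 2 * W.a₁ * (2 * y + W.a₁ * x + W.a₃)
          - 4 * (W.a₁ * y - (3 * x ^ 2 + 2 * W.a₂ * x + W.a₄)) := by
      simp only [WeierstrassCurve.b₂, WeierstrassCurve.b₄]
      ring
    rw [h3, hB6, e2, hpsi] at e1
    linear_combination e1
  have h16 : (16 : F) ≠ 0 := by
    have : (16 : F) = 2 ^ 4 := by norm_num
    rw [this]; exact pow_ne_zero 4 h2
  have hWx0 : W.a₁ * y - (3 * x ^ 2 + 2 * W.a₂ * x + W.a₄) = 0 := by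
    rcases mul_eq_zero.mp hWx with h' | h'
    · exact absurd h' h16
    · exact pow_eq_zero_iff (by norm_num) |>.mp h'
  rcases hns with hns | hns
  · exact hns (by linear_combination hWx0)
  · apply hns
    simp only [negY] at hy
    exact hy

end Fermat.Agent.S51.T171
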