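import Fermat.Agent.S51.T171Three

set_option autoImplicit false
open WeierstrassCurve WeierstrassCurve.Affine WeierstrassCurve.Affine.Point

namespace Fermat.Agent.S51.T171

open Polynomial in
/-- `ψ₃` as a polynomial. -/
noncomputable def psi3Poly {F : Type*} [Field F] (W : Affine F) : Polynomial F :=
  C 3 * X ^ 4 + C W.b₂ * X ^ 3 + C (3 * W.b₄) * X ^ 2 + C (3 * W.b₆) * X + C W.b₈

theorem psi3Poly_eval {F : Type*} [Field F] (W : Affine F) (x : F) :
    (psi3Poly W).eval x = dPsi3 W x := by
  simp [psi3Poly, dPsi3]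

open Polynomial in
theorem psi3Poly_natDegree {F : Type*} [Field F] (W : Affine F) (h3 : (3 : F) ≠ 0) :
    (psi3Poly W).natDegree = 4 := by
  unfold psi3Poly
  compute_degree!

theorem psi3Poly_ne_zero {F : Type*} [Field F] (W : Affine F) (h3 : (3 : F) ≠ 0) :
    psi3Poly W ≠ 0 := by
  intro h
  have := psi3Poly_natDegree W h3
  rw [h] at this
  simp at this

/-- Over an algebraically closed field, every `x` is the `x`-coordinate of a point. -/
theorem exists_y_of_isAlgClosed {F : Type*} [Field F] [IsAlgClosed F] (W : Affine F) (x : F) :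
    ∃ y, W.Equation x y := by
  obtain ⟨y, hy⟩ := IsAlgClosed.exists_root
    (Polynomial.X ^ 2 + Polynomial.C (W.a₁ * x + W.a₃) * Polynomial.X
      - Polynomial.C (x ^ 3 + W.a₂ * x ^ 2 + W.a₄ * x + W.a₆) : Polynomial F)
    (by
      have : (Polynomial.X ^ 2 + Polynomial.C (W.a₁ * x + W.a₃) * Polynomial.X
        - Polynomial.C (x ^ 3 + W.a₂ * x ^ 2 + W.a₄ * x + W.a₆) : Polynomial F).natDegree = 2 := by
        compute_degree!
      intro h
      rw [Polynomial.degree_eq_natDegree (by
        intro h0; rw [h0] at this; simp at this), this] at h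
      norm_num at h)
  refine ⟨y, ?_⟩
  rw [equation_iff]
  simp only [Polynomial.IsRoot, Polynomial.eval_sub, Polynomial.eval_add, Polynomial.eval_pow,
    Polynomial.eval_X, Polynomial.eval_mul, Polynomial.eval_C] at hy
  linear_combination hy

/-- Existence of a nonzero `3`-torsion point over an algebraically closed field. -/
theorem exists_three_torsion {F : Type*} [Field F] [DecidableEq F] [IsAlgClosed F]
    (W : Affine F) (hΔ : W.Δ ≠ 0) (h2 : (2 : F) ≠ 0) (h3 : (3 : F) ≠ 0) :
    ∃ P : W.Point, P ≠ 0 ∧ ((3 : ℕ) : ℤ) • P = 0 := by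
  obtain ⟨x, hx⟩ := IsAlgClosed.exists_root (psi3Poly W) (by
    rw [Polynomial.degree_eq_natDegree (psi3Poly_ne_zero W h3), psi3Poly_natDegree W h3]
    norm_num)
  rw [Polynomial.IsRoot, psi3Poly_eval] at hx
  obtain ⟨y, hy⟩ := exists_y_of_isAlgClosed W x
  have hns : W.Nonsingular x y := (W.equation_iff_nonsingular_of_Δ_ne_zero hΔ).mp hy
  exact ⟨Point.some x y hns, some_ne_zero hns, three_torsion_of_dPsi3_eq_zero h2 hns hx⟩

end Fermat.Agent.S51.T171
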