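import Fermat.Statements.S51

set_option autoImplicit false
open WeierstrassCurve WeierstrassCurve.Affine WeierstrassCurve.Affine.Point

namespace Fermat.Agent.S51.T171

/-- The algebraic closure of `ℚ` (with the `ℚ`-algebra structure used in the statement) is
algebraic over `ℚ`. -/
theorem isAlgebraic_Qbar : Algebra.IsAlgebraic ℚ (AlgebraicClosure ℚ) := by
  have h : (DivisionRing.toRatAlgebra : Algebra ℚ (AlgebraicClosure ℚ)) =
      AlgebraicClosure.instAlgebra ℚ := Subsingleton.elim _ _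
  have := AlgebraicClosure.isAlgebraic ℚ
  rw [← h] at this
  exact this

/-- `ℚ̄ / ℚ` is Galois (for the `ℚ`-algebra structure used in the statement). -/
theorem isGalois_Qbar : IsGalois ℚ (AlgebraicClosure ℚ) := by
  have : Algebra.IsAlgebraic ℚ (AlgebraicClosure ℚ) := isAlgebraic_Qbar
  have : IsAlgClosure ℚ (AlgebraicClosure ℚ) := ⟨inferInstance, inferInstance⟩
  have : Normal ℚ (AlgebraicClosure ℚ) := IsAlgClosure.normal ℚ (AlgebraicClosure ℚ)
  exact isGalois_iff.mpr ⟨inferInstance, inferInstance⟩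

/-- An element of `ℚ̄` fixed by the whole Galois group is rational. -/
theorem exists_rat_of_fixed (x : AlgebraicClosure ℚ)
    (h : ∀ σ : AlgebraicClosure ℚ ≃ₐ[ℚ] AlgebraicClosure ℚ, σ x = x) :
    ∃ q : ℚ, algebraMap ℚ (AlgebraicClosure ℚ) q = x := by
  have := isGalois_Qbar
  exact (InfiniteGalois.mem_range_algebraMap_iff_fixed x).mpr h

/-- The Galois action on an affine point is coordinatewise. -/
theorem smul_some (W' : Affine ℚ) (σ : AlgebraicClosure ℚ ≃ₐ[ℚ] AlgebraicClosure ℚ)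
    {x y : AlgebraicClosure ℚ} (h : (W'⁄(AlgebraicClosure ℚ)).Nonsingular x y) :
    ∃ h' : (W'⁄(AlgebraicClosure ℚ)).Nonsingular (σ x) (σ y),
      σ • (Point.some x y h : (W'⁄(AlgebraicClosure ℚ)).Point) = Point.some (σ x) (σ y) h' :=
  ⟨_, rfl⟩

/-- The Galois action fixes the zero point. -/
theorem smul_zero_pt (W' : Affine ℚ) (σ : AlgebraicClosure ℚ ≃ₐ[ℚ] AlgebraicClosure ℚ) :
    σ • (0 : (W'⁄(AlgebraicClosure ℚ)).Point) = 0 :=
  rfl

/-- Coercion of the Galois action on torsion points. -/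
theorem coe_smul_torsion (W' : Affine ℚ) (n : ℕ)
    (σ : AlgebraicClosure ℚ ≃ₐ[ℚ] AlgebraicClosure ℚ)
    (P : Submodule.torsionBy ℤ (W'⁄(AlgebraicClosure ℚ)).Point n) :
    ((σ • P : Submodule.torsionBy ℤ (W'⁄(AlgebraicClosure ℚ)).Point n) :
      (W'⁄(AlgebraicClosure ℚ)).Point) = σ • (P : (W'⁄(AlgebraicClosure ℚ)).Point) :=
  rfl

end Fermat.Agent.S51.T171
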