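import Mathlib

set_option autoImplicit false

namespace Fermat.Agent.S51.T171

open Module in
/-- In a finite `𝔽_p`-vector space with fewer than `p³` elements, a proper nonzero subspace is a
line. -/
theorem exists_smul_of_mem_proper {p : ℕ} [Fact p.Prime] {T : Type*} [AddCommGroup T]
    [Module (ZMod p) T] [Finite T] (hcard : Nat.card T < p ^ 3)
    (N : Submodule (ZMod p) T) (htop : N ≠ ⊤)
    {P : T} (hP : P ∈ N) (hP0 : P ≠ 0) {Q : T} (hQ : Q ∈ N) : ∃ k : ZMod p, Q = k • P := by
  have hp : p.Prime := Fact.out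
  have : Module.Finite (ZMod p) T := Module.Finite.of_finite
  have hT : finrank (ZMod p) T ≤ 2 := by
    have h1 : Nat.card T = p ^ finrank (ZMod p) T := by
      rw [Module.natCard_eq_pow_finrank (K := ZMod p) (V := T), Nat.card_zmod]
    rw [h1] at hcard
    have := (Nat.pow_lt_pow_iff_right hp.one_lt).mp hcard
    omega
  have hN : finrank (ZMod p) N < finrank (ZMod p) T := Submodule.finrank_lt htop
  have hN0 : finrank (ZMod p) N ≠ 0 := by
    intro h0
    have : N = ⊥ := Submodule.finrank_eq_zero.mp h0
    rw [this, Submodule.mem_bot] at hP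
    exact hP0 hP
  have hN1 : finrank (ZMod p) N = 1 := by omega
  have hP0' : (⟨P, hP⟩ : N) ≠ 0 := by
    intro h
    exact hP0 (congrArg Subtype.val h)
  obtain ⟨c, hc⟩ := (finrank_eq_one_iff_of_nonzero' (⟨P, hP⟩ : N) hP0').mp hN1 ⟨Q, hQ⟩
  exact ⟨c, (congrArg Subtype.val hc).symm⟩

theorem zmod3_smul_cases {T : Type*} [AddCommGroup T] [Module (ZMod 3) T] (k : ZMod 3) (P : T) :
    k • P = 0 ∨ k • P = P ∨ k • P = -P := by
  fin_cases k
  · left
    show (0 : ZMod 3) • P = 0
    exact zero_smul _ _
  · right; left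
    show (1 : ZMod 3) • P = P
    exact one_smul _ _
  · right; right
    show (2 : ZMod 3) • P = -P
    have : (2 : ZMod 3) = -1 := by decide
    rw [this, neg_smul, one_smul]

theorem zmod5_smul_cases {T : Type*} [AddCommGroup T] [Module (ZMod 5) T] (k : ZMod 5) (P : T) :
    k • P = 0 ∨ k • P = P ∨ k • P = -P ∨ k • P = P + P ∨ k • P = -(P + P) := by
  fin_cases k
  · left
    show (0 : ZMod 5) • P = 0
    exact zero_smul _ _
  · right; left
    show (1 : ZMod 5) • P = P
    exact one_smul _ _
  · right; right; right; left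
    show (2 : ZMod 5) • P = P + P
    rw [two_smul]
  · right; right; right; right
    show (3 : ZMod 5) • P = -(P + P)
    have : (3 : ZMod 5) = -2 := by decide
    rw [this, neg_smul, two_smul]
  · right; right; left
    show (4 : ZMod 5) • P = -P
    have : (4 : ZMod 5) = -1 := by decide
    rw [this, neg_smul, one_smul]

end Fermat.Agent.S51.T171
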