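import Fermat.Statements.S51
import Fermat.Agent.S51.T171Galois
import Fermat.Agent.S51.T171Exist
import Fermat.Agent.S51.T171Count
import Fermat.Agent.S51.T171Line

set_option autoImplicit false
open WeierstrassCurve WeierstrassCurve.Affine WeierstrassCurve.Affine.Point

namespace Fermat.Agent.S51.T171

/-- The discriminant of the base change to `ℚ̄` is nonzero. -/
theorem baseChange_Δ_ne_zero (W : WeierstrassCurve ℤ) (hΔ : W.Δ ≠ 0) :
    ((W.map (Int.castRingHom ℚ) : Affine ℚ)⁄(AlgebraicClosure ℚ)).Δ ≠ 0 := by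
  show ((W.map (Int.castRingHom ℚ)).map (algebraMap ℚ (AlgebraicClosure ℚ))).Δ ≠ 0
  rw [WeierstrassCurve.map_Δ, WeierstrassCurve.map_Δ]
  simp only [eq_intCast, map_intCast, ne_eq, Int.cast_eq_zero]
  exact hΔ

/-- The torsion subgroup `E[3](ℚ̄)` is nontrivial. -/
theorem nontrivial_three (W : WeierstrassCurve ℤ) (hΔ : W.Δ ≠ 0) :
    Nontrivial (Submodule.torsionBy ℤ
      ((W.map (Int.castRingHom ℚ) : Affine ℚ)⁄(AlgebraicClosure ℚ)).Point ((3 : ℕ) : ℤ)) := by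
  obtain ⟨P, hP0, hP3⟩ := exists_three_torsion
    ((W.map (Int.castRingHom ℚ) : Affine ℚ)⁄(AlgebraicClosure ℚ)) (baseChange_Δ_ne_zero W hΔ)
    (by norm_num) (by norm_num)
  refine ⟨⟨⟨P, (Submodule.mem_torsionBy_iff _ _).mpr hP3⟩, 0, ?_⟩⟩
  intro h
  exact hP0 (congrArg Subtype.val h)

/-- `E[3](ℚ̄)` is finite with at most `9` elements. -/
theorem finite_card_three (W : WeierstrassCurve ℤ) :
    Finite (Submodule.torsionBy ℤ
      ((W.map (Int.castRingHom ℚ) : Affine ℚ)⁄(AlgebraicClosure ℚ)).Point ((3 : ℕ) : ℤ)) ∧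
    Nat.card (Submodule.torsionBy ℤ
      ((W.map (Int.castRingHom ℚ) : Affine ℚ)⁄(AlgebraicClosure ℚ)).Point ((3 : ℕ) : ℤ)) ≤ 9 := by
  have h3 : (3 : AlgebraicClosure ℚ) ≠ 0 := by norm_num
  obtain ⟨hfin, hcard⟩ := finite_ncard_le_of_roots
    ((W.map (Int.castRingHom ℚ) : Affine ℚ)⁄(AlgebraicClosure ℚ))
    (psi3Poly ((W.map (Int.castRingHom ℚ) : Affine ℚ)⁄(AlgebraicClosure ℚ)))
    (psi3Poly_ne_zero _ h3)
    (Submodule.torsionBy ℤ
      ((W.map (Int.castRingHom ℚ) : Affine ℚ)⁄(AlgebraicClosure ℚ)).Point ((3 : ℕ) : ℤ) :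
      Set ((W.map (Int.castRingHom ℚ) : Affine ℚ)⁄(AlgebraicClosure ℚ)).Point)
    (by
      intro x y h hP
      rw [psi3Poly_eval]
      exact dPsi3_eq_zero_of_three_torsion h ((Submodule.mem_torsionBy_iff _ _).mp hP))
  rw [psi3Poly_natDegree _ h3] at hcard
  refine ⟨hfin.to_subtype, ?_⟩
  have : Nat.card (Submodule.torsionBy ℤ
      ((W.map (Int.castRingHom ℚ) : Affine ℚ)⁄(AlgebraicClosure ℚ)).Point ((3 : ℕ) : ℤ)) =
      Set.ncard (Submodule.torsionBy ℤ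
      ((W.map (Int.castRingHom ℚ) : Affine ℚ)⁄(AlgebraicClosure ℚ)).Point ((3 : ℕ) : ℤ) :
      Set ((W.map (Int.castRingHom ℚ) : Affine ℚ)⁄(AlgebraicClosure ℚ)).Point) := rfl
  rw [this]
  omega

/-- The `b`-invariants of the base change. -/
theorem dPsi3_baseChange (W : WeierstrassCurve ℤ) (q : ℚ) :
    dPsi3 ((W.map (Int.castRingHom ℚ) : Affine ℚ)⁄(AlgebraicClosure ℚ))
      (algebraMap ℚ (AlgebraicClosure ℚ) q) =
    algebraMap ℚ (AlgebraicClosure ℚ)
      (3 * q ^ 4 + (W.b₂ : ℚ) * q ^ 3 + 3 * (W.b₄ : ℚ) * q ^ 2 + 3 * (W.b₆ : ℚ) * q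
        + (W.b₈ : ℚ)) := by
  show dPsi3 ((W.map (Int.castRingHom ℚ)).map (algebraMap ℚ (AlgebraicClosure ℚ)) : Affine (AlgebraicClosure ℚ)) _ = _
  simp only [dPsi3, WeierstrassCurve.map_b₂, WeierstrassCurve.map_b₄, WeierstrassCurve.map_b₆,
    WeierstrassCurve.map_b₈, eq_intCast, map_add, map_mul, map_pow, map_ofNat, map_intCast]

/-- **(I1)** If the mod-`3` representation is not irreducible, then `ψ₃` has a rational root. -/
theorem three_main (W : WeierstrassCurve ℤ) (hΔ : W.Δ ≠ 0) (h : ¬ W.ModRepIsIrreducible 3) :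
    ∃ x : ℚ, 3 * x ^ 4 + (W.b₂ : ℚ) * x ^ 3 + 3 * (W.b₄ : ℚ) * x ^ 2 + 3 * (W.b₆ : ℚ) * x
      + (W.b₈ : ℚ) = 0 := by
  unfold WeierstrassCurve.ModRepIsIrreducible
    WeierstrassCurve.Affine.Point.GaloisRepIsIrreducible at h
  rw [not_and_or] at h
  rcases h with h | h
  · exact absurd (nontrivial_three W hΔ) h
  push Not at h
  obtain ⟨N, hstab, hbot, htop⟩ := h
  obtain ⟨hfin, hcard⟩ := finite_card_three W
  have := hfin
  obtain ⟨P, hPN, hP0⟩ := Submodule.exists_mem_ne_zero_of_ne_bot hbot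
  -- `P` is an affine point
  obtain ⟨_ | ⟨x, y, hxy⟩, hPt⟩ := P
  · exact absurd rfl hP0
  -- every conjugate of `x` is `x`
  have hfix : ∀ σ : AlgebraicClosure ℚ ≃ₐ[ℚ] AlgebraicClosure ℚ, σ x = x := by
    intro σ
    have hσ := hstab σ _ hPN
    obtain ⟨k, hk⟩ := exists_smul_of_mem_proper (p := 3) (by omega) N htop hPN hP0 hσ
    have hval : ((σ • (⟨Point.some x y hxy, hPt⟩ : Submodule.torsionBy ℤ
        ((W.map (Int.castRingHom ℚ) : Affine ℚ)⁄(AlgebraicClosure ℚ)).Point ((3 : ℕ) : ℤ)) :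
        Submodule.torsionBy ℤ
        ((W.map (Int.castRingHom ℚ) : Affine ℚ)⁄(AlgebraicClosure ℚ)).Point ((3 : ℕ) : ℤ)) :
        ((W.map (Int.castRingHom ℚ) : Affine ℚ)⁄(AlgebraicClosure ℚ)).Point) =
        σ • (Point.some x y hxy) := rfl
    obtain ⟨h', hs⟩ := smul_some (W.map (Int.castRingHom ℚ) : Affine ℚ) σ hxy
    rw [hs] at hval
    rcases zmod3_smul_cases k (⟨Point.some x y hxy, hPt⟩ : Submodule.torsionBy ℤ
        ((W.map (Int.castRingHom ℚ) : Affine ℚ)⁄(AlgebraicClosure ℚ)).Point ((3 : ℕ) : ℤ))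
      with hc | hc | hc
    · rw [hk, hc] at hval
      exact absurd hval.symm (some_ne_zero h')
    · rw [hk, hc] at hval
      exact ((Point.some.inj hval).1).symm
    · rw [hk, hc] at hval
      have : (Point.some x (((W.map (Int.castRingHom ℚ) : Affine ℚ)⁄(AlgebraicClosure ℚ)).negY x y)
          ((nonsingular_neg ..).mpr hxy) :
          ((W.map (Int.castRingHom ℚ) : Affine ℚ)⁄(AlgebraicClosure ℚ)).Point) =
          Point.some (σ x) (σ y) h' := hval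
      exact ((Point.some.inj this).1).symm
  obtain ⟨q, hq⟩ := exists_rat_of_fixed x hfix
  refine ⟨q, ?_⟩
  have hroot := dPsi3_eq_zero_of_three_torsion hxy ((Submodule.mem_torsionBy_iff _ _).mp hPt)
  rw [← hq, dPsi3_baseChange] at hroot
  exact (map_eq_zero_iff _ (algebraMap ℚ (AlgebraicClosure ℚ)).injective).mp hroot

end Fermat.Agent.S51.T171
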