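import Fermat.Agent.S51.T171Dup

set_option autoImplicit false
open WeierstrassCurve WeierstrassCurve.Affine WeierstrassCurve.Affine.Point

namespace Fermat.Agent.S51.T171

variable {F : Type*} [Field F] [DecidableEq F] {W : Affine F}

theorem three_zsmul (P : W.Point) : ((3 : ℕ) : ℤ) • P = P + P + P := by
  have : ((3 : ℕ) : ℤ) = 1 + 1 + 1 := by norm_num
  rw [this, add_smul, add_smul, one_smul]

theorem three_zsmul_eq_zero_iff (P : W.Point) : ((3 : ℕ) : ℤ) • P = 0 ↔ P + P = -P := by
  rw [three_zsmul]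
  constructor
  · intro h
    exact eq_neg_of_add_eq_zero_left h
  · intro h
    rw [h]; exact neg_add_cancel P

/-- A nonzero `3`-torsion point has `ψ₃(x) = 0`. -/
theorem dPsi3_eq_zero_of_three_torsion {x y : F} (h : W.Nonsingular x y)
    (h3 : ((3 : ℕ) : ℤ) • (Point.some x y h) = 0) : dPsi3 W x = 0 := by
  rw [three_zsmul_eq_zero_iff] at h3
  by_cases hy : y = W.negY x y
  · rw [two_nsmul_some_of_eq h hy] at h3
    exact absurd (neg_eq_zero.mp h3.symm) (some_ne_zero h)
  · obtain ⟨x', y', h', hadd, hx'⟩ := two_nsmul_some h hy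
    rw [hadd, neg_some] at h3
    have hxx : x' = x := (Point.some.inj h3).1
    rw [dPsi3_eq, ← hx', hxx]; ring

/-- A point with `ψ₃(x) = 0` is `3`-torsion. -/
theorem three_torsion_of_dPsi3_eq_zero (h2 : (2 : F) ≠ 0) {x y : F} (h : W.Nonsingular x y)
    (h3 : dPsi3 W x = 0) : ((3 : ℕ) : ℤ) • (Point.some x y h) = 0 := by
  rw [three_zsmul_eq_zero_iff]
  have hy : y ≠ W.negY x y := fun hy => dPsi3_ne_zero_of_Y_eq h2 h hy h3
  obtain ⟨x', y', h', hadd, hx'⟩ := two_nsmul_some h hy
  have hB : dB6 W x ≠ 0 := dB6_ne_zero h.1 hy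
  have hxx : x' = x := by
    rw [dPsi3_eq] at h3
    have : x' * dB6 W x = x * dB6 W x := by rw [hx']; linear_combination -h3
    exact mul_right_cancel₀ hB this
  subst hxx
  rw [hadd]
  rcases eq_or_eq_neg_of_x_eq h' h with he | he
  · -- `P + P = P` forces `P = 0`
    exfalso
    rw [he] at hadd
    have h0 : Point.some x' y h = 0 :=
      add_left_cancel (a := Point.some x' y h) (by rw [hadd, add_zero])
    exact some_ne_zero h h0
  · exact he

end Fermat.Agent.S51.T171
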