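import Fermat.Agent.S51.X015Main
import Fermat.Prelude.Def_FLTPrelim_Modularity

set_option autoImplicit false

namespace Fermat.Agent.S51.X015

theorem prime_five_int : Prime (5 : ℤ) := by
  rw [Int.prime_iff_natAbs_prime]; norm_num

/-- arithmetic core of (I4): `A c³ = 5^k B D` with `5 ∤ A`, `5 ∤ B`, `k ∈ {1, 2}`
forces `5 ∣ c` and `5 ∣ D`. -/
theorem five_dvd_both (A B c D : ℤ) (hA : ¬ (5 : ℤ) ∣ A) (hB : ¬ (5 : ℤ) ∣ B)
    (h : A * c^3 = 5 * B * D ∨ A * c^3 = 25 * B * D) : (5 : ℤ) ∣ c ∧ (5 : ℤ) ∣ D := by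
  have hc : (5 : ℤ) ∣ c := by
    have h5 : (5 : ℤ) ∣ A * c^3 := by
      rcases h with h | h
      · exact ⟨B * D, by rw [h]; ring⟩
      · exact ⟨5 * B * D, by rw [h]; ring⟩
    exact prime_five_int.dvd_of_dvd_pow ((prime_five_int.dvd_or_dvd h5).resolve_left hA)
  refine ⟨hc, ?_⟩
  obtain ⟨k, rfl⟩ := hc
  have hBD : (5 : ℤ) ∣ B * D := by
    rcases h with h | h
    · refine ⟨5 * A * k^3, ?_⟩
      apply mul_left_cancel₀ (by norm_num : (5 : ℤ) ≠ 0)
      linear_combination (-1 : ℤ) * h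
    · refine ⟨A * k^3, ?_⟩
      apply mul_left_cancel₀ (by norm_num : (25 : ℤ) ≠ 0)
      linear_combination (-1 : ℤ) * h
  exact (prime_five_int.dvd_or_dvd hBD).resolve_left hB

/-- (I4): none of the four `t`-values of the non-cuspidal rational points of `X₀(15)` is
compatible with a semistable model. -/
theorem not_semistable_of_t (W : WeierstrassCurve ℤ) (hW : W.IsSemistableModel) (t : ℚ)
    (ht : t = -2 ∨ t = -729/32 ∨ t = -729/2 ∨ t = -32)
    (h3 : (W.c₄ : ℚ)^3 * t = (W.Δ : ℚ) * (t+27) * (t+3)^3) : False := by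
  have key : ∀ A B : ℤ, ¬ (5 : ℤ) ∣ A → ¬ (5 : ℤ) ∣ B →
      (A * W.c₄^3 = 5 * B * W.Δ ∨ A * W.c₄^3 = 25 * B * W.Δ) → False := by
    intro A B hA hB h
    obtain ⟨hc, hD⟩ := five_dvd_both A B W.c₄ W.Δ hA hB h
    exact hW 5 (by norm_num) (by exact_mod_cast hD) (by exact_mod_cast hc)
  rcases ht with rfl | rfl | rfl | rfl
  · -- t = -2 : -2 c₄³ = 25 Δ
    refine key (-2) 1 (by norm_num) (by norm_num) (Or.inr ?_)
    have : ((-2 * W.c₄^3 : ℤ) : ℚ) = ((25 * 1 * W.Δ : ℤ) : ℚ) := by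
      push_cast; linear_combination h3
    exact_mod_cast this
  · -- t = -729/32 : 32768 c₄³ = 5 · 211³ Δ
    refine key 32768 9393931 (by norm_num) (by norm_num) (Or.inl ?_)
    have : ((32768 * W.c₄^3 : ℤ) : ℚ) = ((5 * 9393931 * W.Δ : ℤ) : ℚ) := by
      push_cast; linear_combination (-1048576/729 : ℚ) * h3
    exact_mod_cast this
  · -- t = -729/2 : -8 c₄³ = 25 · 241³ Δ
    refine key (-8) 13997521 (by norm_num) (by norm_num) (Or.inr ?_)
    have : ((-8 * W.c₄^3 : ℤ) : ℚ) = ((25 * 13997521 * W.Δ : ℤ) : ℚ) := by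
      push_cast; linear_combination (8*2/729 : ℚ) * h3
    exact_mod_cast this
  · -- t = -32 : -32 c₄³ = 5 · 29³ Δ
    refine key (-32) 24389 (by norm_num) (by norm_num) (Or.inl ?_)
    have : ((-32 * W.c₄^3 : ℤ) : ℚ) = ((5 * 24389 * W.Δ : ℤ) : ℚ) := by
      push_cast; linear_combination h3
    exact_mod_cast this

/-- **(I3) + (I4) of the S51 plan.**  A semistable integral Weierstrass curve cannot have
both a rational `3`-isogeny parameter `t` and a rational `5`-isogeny parameter `h`. -/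
theorem no_three_and_five (hdesc : DescentStatement) (W : WeierstrassCurve ℤ) (hΔ : W.Δ ≠ 0)
    (hW : W.IsSemistableModel) (t h : ℚ) (ht : t ≠ 0)
    (h3 : (W.c₄ : ℚ)^3 * t = (W.Δ : ℚ) * (t+27) * (t+3)^3)
    (h5 : (W.c₄ : ℚ)^3 * h = (W.Δ : ℚ) * (h^2+10*h+5)^3) : False := by
  have hΔ' : (W.Δ : ℚ) ≠ 0 := by exact_mod_cast hΔ
  have hF : (t+27)*(t+3)^3*h = (h^2+10*h+5)^3*t := by
    apply mul_left_cancel₀ hΔ'
    linear_combination (-h) * h3 + t * h5
  exact not_semistable_of_t W hW t (t_mem_of_curve hdesc t h ht hF) h3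

end Fermat.Agent.S51.X015
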