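import Mathlib

set_option autoImplicit false

namespace Fermat.Agent.S51.X015

/-- numerator of the modular unit `u` on `X₀(15)` in terms of the Hauptmoduln `t` (level 3), `h` (level 5) -/
def Au (t h : ℚ) : ℚ := t^2 + 18*t - 3*h*(h^2 + 13*h + 35)

/-- common denominator -/
def D1 (t h : ℚ) : ℚ := (t + 3)*(h^2 + 4*h - 1)

/-- numerator of `m = u*w` -/
def Am (t h : ℚ) : ℚ :=
  9*(-1 - 64*h - 77*h^2 - 17*h^3 - h^4 + t*(11 + 9*h + 11*h^2 + h^3) + t^2*(1 - h))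

theorem identQ (t h : ℚ) (hF : (t+27)*(t+3)^3*h - (h^2+10*h+5)^3*t = 0) :
    (Am t h)^2 * D1 t h + (t+3)*((Au t h)^2 + 5 * Au t h * D1 t h - (D1 t h)^2) * Am t h
      + 9*(t+3)^2*(Au t h)^2 * D1 t h = 0 := by
  unfold Am Au D1
  linear_combination (9*t^3*h + 27*t^3 - 36*t^2*h^2 + 45*t^2*h + 603*t^2 - 54*t*h^3 - 1026*t*h^2 - 2943*t*h + 1539*t - 162*h^3 - 2754*h^2 - 8991*h - 81) * hF

theorem identK (t h : ℚ) (hF : (t+27)*(t+3)^3*h - (h^2+10*h+5)^3*t = 0) :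
    t * (Am t h)^3 - 729 * Au t h * (t+3)^5 * (h^2+4*h-1)^2 = 0 := by
  unfold Am Au
  linear_combination (-729*t^3*h^3 - 6561*t^3*h^2 - 8019*t^3*h + 3645*t^3 + 2187*t^2*h^4 + 21870*t^2*h^3 + 17496*t^2*h^2 - 39366*t^2*h + 32805*t^2 - 2187*t*h^5 - 32805*t*h^4 - 133407*t*h^3 - 177147*t*h^2 - 293058*t*h + 43740*t + 729*h^6 + 15309*h^5 + 111537*h^4 + 330966*h^3 + 282123*h^2 - 194643*h + 25515) * hF

theorem identH (t h : ℚ) (hF : (t+27)*(t+3)^3*h - (h^2+10*h+5)^3*t = 0) :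
    h*(t+3)*(Au t h)^3 - ((t+3)*((D1 t h)^3 - 9 * Au t h * (D1 t h)^2 + 9 * (Au t h)^2 * D1 t h)
      + (-(D1 t h)^2 + 4 * Au t h * D1 t h + (Au t h)^2) * Am t h) = 0 := by
  unfold Am Au D1
  linear_combination (t^3 - 9*t^2*h - 6*t^2 - 18*t*h^2 - 234*t*h - 441*t + 27*h^4 + 432*h^3 + 1944*h^2 + 2619*h - 27) * hF

end Fermat.Agent.S51.X015
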