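import Fermat.Agent.S51.X015Ident

set_option autoImplicit false

namespace Fermat.Agent.S51.X015

theorem not_isSquare_five_rat : ¬ IsSquare (5 : ℚ) := by
  have h : ¬ IsSquare (5 : ℕ) := by
    rintro ⟨k, hk⟩
    have hk3 : k < 3 := by nlinarith
    interval_cases k <;> omega
  intro hs
  apply h
  have := (Rat.isSquare_natCast_iff (n := 5)).mp (by simpa using hs)
  exact this

theorem sq_ne_five (x : ℚ) : x^2 ≠ 5 := by
  intro e
  exact not_isSquare_five_rat ⟨x, by rw [← e]; ring⟩

theorem sq_ne_twenty (x : ℚ) : x^2 ≠ 20 := by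
  intro e
  exact sq_ne_five (x/2) (by linear_combination e/4)

/-- The descent input: the rational points of `y² = x (x+9) (x-16)` (the curve `15a1 ≅ X₀(15)`). -/
def DescentStatement : Prop :=
  ∀ x y : ℚ, y^2 = x*(x+9)*(x-16) → x = 0 ∨ x = -9 ∨ x = 16 ∨ x = 36 ∨ x = -4

/-- rational points on the conic-bundle model `m² + (u²+5u-1) m + 9u² = 0` of `X₀(15)` -/
theorem um_of_descent (hdesc : DescentStatement) (u m : ℚ) (hu : u ≠ 0)
    (hQ : m^2 + (u^2 + 5*u - 1)*m + 9*u^2 = 0) :
    (u = 2 ∧ m = -9) ∨ (u = 2 ∧ m = -4) ∨ (u = -1/2 ∧ m = 1) ∨ (u = -1/2 ∧ m = 9/4) := by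
  have hXY : (4*m*(2*u^2 + 5*u + 2*m)/u^3)^2 = (4*m/u^2) * (4*m/u^2 + 9) * (4*m/u^2 - 16) := by
    have hu6 : u^6 ≠ 0 := pow_ne_zero 6 hu
    have e1 : (4*m*(2*u^2 + 5*u + 2*m)/u^3)^2 = (4*m*(2*u^2 + 5*u + 2*m))^2 / u^6 := by
      rw [div_pow]; congr 1; ring
    have e2 : (4*m/u^2) * (4*m/u^2 + 9) * (4*m/u^2 - 16)
        = (4*m) * (4*m + 9*u^2) * (4*m - 16*u^2) / u^6 := by
      have hu2 : u^2 ≠ 0 := pow_ne_zero 2 hu
      field_simp
    rw [e1, e2]
    congr 1
    linear_combination (16 * m * (4*m + 4*u^2)) * hQ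
  have hm : m ≠ 0 := by
    rintro rfl
    apply hu
    have : 9 * u^2 = 0 := by linear_combination hQ
    simpa using this
  have hu2 : u^2 ≠ 0 := pow_ne_zero 2 hu
  have key : ∀ c : ℚ, 4*m/u^2 = c → m = c/4 * u^2 := by
    intro c hc
    field_simp at hc
    linear_combination hc/4
  rcases hdesc _ _ hXY with hX | hX | hX | hX | hX
  · -- X = 0
    exfalso
    have := key 0 hX
    simp at this
    exact hm this
  · -- X = -9 : m = -9/4 u^2, Q = 45/16 u^2 (u-2)^2
    have h1 := key _ hX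
    have h2 : u^2 * (u - 2)^2 = 0 := by
      rw [h1] at hQ
      linear_combination (16/45 : ℚ) * hQ
    have h3 : u = 2 := by
      rcases mul_eq_zero.mp h2 with h | h
      · exact absurd h hu2
      · have := pow_eq_zero_iff (n := 2) (by norm_num) |>.mp h
        linarith
    left
    refine ⟨h3, ?_⟩
    rw [h1, h3]; norm_num
  · -- X = 16 : m = 4 u^2, Q = 5 u^2 (2u+1)^2
    have h1 := key _ hX
    have h2 : u^2 * (2*u + 1)^2 = 0 := by
      rw [h1] at hQ
      linear_combination (1/5 : ℚ) * hQ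
    have h3 : u = -1/2 := by
      rcases mul_eq_zero.mp h2 with h | h
      · exact absurd h hu2
      · have := pow_eq_zero_iff (n := 2) (by norm_num) |>.mp h
        linarith
    right; right; left
    refine ⟨h3, ?_⟩
    rw [h1, h3]; norm_num
  · -- X = 36 : m = 9 u^2, Q = 45 u^3 (2u+1)
    have h1 := key _ hX
    have h2 : u^2 * (u * (2*u + 1)) = 0 := by
      rw [h1] at hQ
      linear_combination (1/45 : ℚ) * hQ
    have h3 : u = -1/2 := by
      rcases mul_eq_zero.mp h2 with h | h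
      · exact absurd h hu2
      · rcases mul_eq_zero.mp h with h | h
        · exact absurd h hu
        · linarith
    right; right; right
    refine ⟨h3, ?_⟩
    rw [h1, h3]; norm_num
  · -- X = -4 : m = -u^2, Q = u^2 (10 - 5u)
    have h1 := key _ hX
    have h2 : u^2 * (u - 2) = 0 := by
      rw [h1] at hQ
      linear_combination (-1/5 : ℚ) * hQ
    have h3 : u = 2 := by
      rcases mul_eq_zero.mp h2 with h | h
      · exact absurd h hu2
      · linarith
    right; left
    refine ⟨h3, ?_⟩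
    rw [h1, h3]; norm_num

/-- **Rational points of `X₀(15)` in Hauptmodul coordinates.**
If `t ≠ 0` and `(t, h)` lies on the fibre product `X₀(3) ×_{X(1)} X₀(5)`,
i.e. `(t+27)(t+3)³ / t = (h²+10h+5)³ / h`, then `t ∈ {-2, -729/32, -729/2, -32}`. -/
theorem t_mem_of_curve (hdesc : DescentStatement) (t h : ℚ) (ht : t ≠ 0)
    (hF : (t+27)*(t+3)^3*h = (h^2+10*h+5)^3*t) :
    t = -2 ∨ t = -729/32 ∨ t = -729/2 ∨ t = -32 := by
  have hF0 : (t+27)*(t+3)^3*h - (h^2+10*h+5)^3*t = 0 := by linear_combination hF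
  have h1 : h^2 + 10*h + 5 ≠ 0 := fun e => sq_ne_twenty (h+5) (by linear_combination e)
  have h2 : h^2 + 4*h - 1 ≠ 0 := fun e => sq_ne_five (h+2) (by linear_combination e)
  have ht3 : t + 3 ≠ 0 := by
    intro e
    have e' : t = -3 := by linarith
    rw [e'] at hF
    have : (h^2+10*h+5)^3 = 0 := by linear_combination (1/3 : ℚ) * hF
    exact h1 (pow_eq_zero_iff (n := 3) (by norm_num) |>.mp this)
  have hD1 : D1 t h ≠ 0 := mul_ne_zero ht3 h2
  set u : ℚ := Au t h / D1 t h with hu_def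
  set m : ℚ := Am t h / ((t+3) * D1 t h) with hm_def
  have hAu : Au t h = u * D1 t h := by
    rw [hu_def]; field_simp
  have hAm : Am t h = m * ((t+3) * D1 t h) := by
    rw [hm_def]; field_simp
  have hQ : m^2 + (u^2 + 5*u - 1)*m + 9*u^2 = 0 := by
    have e := identQ t h hF0
    rw [hAu, hAm] at e
    have e' : ((t+3)^2 * (D1 t h)^3) * (m^2 + (u^2 + 5*u - 1)*m + 9*u^2) = 0 := by
      linear_combination e
    rcases mul_eq_zero.mp e' with h | h
    · exact absurd h (mul_ne_zero (pow_ne_zero 2 ht3) (pow_ne_zero 3 hD1))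
    · exact h
  have hK : t * m^3 = 729 * u := by
    have e := identK t h hF0
    rw [hAu, hAm] at e
    have e' : ((t+3)^3 * (D1 t h)^3) * (t * m^3 - 729 * u) = 0 := by
      unfold D1 at e ⊢
      linear_combination e
    rcases mul_eq_zero.mp e' with h | h
    · exact absurd h (mul_ne_zero (pow_ne_zero 3 ht3) (pow_ne_zero 3 hD1))
    · linear_combination h
  have hH : h * u^3 = 1 - 9*u + 9*u^2 + (-1 + 4*u + u^2)*m := by
    have e := identH t h hF0
    rw [hAu, hAm] at e
    have e' : ((t+3) * (D1 t h)^3) * (h * u^3 - (1 - 9*u + 9*u^2 + (-1 + 4*u + u^2)*m)) = 0 := by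
      linear_combination e
    rcases mul_eq_zero.mp e' with h | h
    · exact absurd h (mul_ne_zero ht3 (pow_ne_zero 3 hD1))
    · linear_combination h
  have hu : u ≠ 0 := by
    intro e
    rw [e] at hK hH
    have hm0 : m = 0 := by
      have : t * m^3 = 0 := by linear_combination hK
      rcases mul_eq_zero.mp this with h | h
      · exact absurd h ht
      · exact pow_eq_zero_iff (n := 3) (by norm_num) |>.mp h
    rw [hm0] at hH
    norm_num at hH
  have hm3 : ∀ c : ℚ, m^3 = c → c ≠ 0 → t = 729 * u / c := by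
    intro c hc hc0
    rw [hc] at hK
    field_simp
    linear_combination hK
  rcases um_of_descent hdesc u m hu hQ with ⟨e1, e2⟩ | ⟨e1, e2⟩ | ⟨e1, e2⟩ | ⟨e1, e2⟩
  · left
    rw [hm3 (-729) (by rw [e2]; norm_num) (by norm_num), e1]; norm_num
  · right; left
    rw [hm3 (-64) (by rw [e2]; norm_num) (by norm_num), e1]; norm_num
  · right; right; left
    rw [hm3 1 (by rw [e2]; norm_num) (by norm_num), e1]; norm_num
  · right; right; right
    rw [hm3 (729/64) (by rw [e2]; norm_num) (by norm_num), e1]; norm_num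

end Fermat.Agent.S51.X015
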