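import Mathlib

/-!
# Rational points of `X₀(15)`: reduction to the elliptic curve `15a1`

Parameters `t` (Hauptmodul of `X₀(3)`) and `h` (Hauptmodul of `X₀(5)`) with
`j = (t+27)(t+3)^3 / t = (h^2+10h+5)^3 / h`.  We show that a rational pair `(t,h)` with
`t, h ≠ 0` produces a rational point of `V^2 = U (U+9) (U-16)`, and that the known list of
rational points of that curve forces `j` to lie in an explicit list of four values.
-/

set_option autoImplicit false

namespace Fermat.Agent.S51.X15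

/-- No rational number squares to `5`. -/
theorem sq_ne_five (r : ℚ) : r ^ 2 ≠ 5 := by
  intro h
  have hirr : Irrational (Real.sqrt 5) := by
    have := Nat.Prime.irrational_sqrt (p := 5) (by norm_num)
    simpa using this
  have h1 : ((|r| : ℚ) : ℝ) = Real.sqrt 5 := by
    have h2 : ((|r| : ℚ) : ℝ) ^ 2 = 5 := by
      have : (|r| : ℚ) ^ 2 = 5 := by rw [sq_abs]; exact h
      exact_mod_cast this
    have h3 : (0 : ℝ) ≤ ((|r| : ℚ) : ℝ) := by exact_mod_cast abs_nonneg r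
    rw [← Real.sqrt_sq h3, h2]
  exact hirr ⟨|r|, h1⟩

/-- No rational number squares to `20`. -/
theorem sq_ne_twenty (r : ℚ) : r ^ 2 ≠ 20 := by
  intro h
  apply sq_ne_five (r / 2)
  linear_combination h / 4

/-- The quartic model `Y^2 = X^4 - 10X^3 - 13X^2 + 10X + 1` of `X₀(15)`:
its rational points have `X ∈ {0, -2, 1/2}`, given the rational points of `15a1`. -/
theorem quartic_points
    (hD : ∀ x y : ℚ, y ^ 2 = x * (x + 9) * (x - 16) →
      x = 0 ∨ x = -9 ∨ x = 16 ∨ x = 36 ∨ x = -4)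
    (X Y : ℚ) (hXY : Y ^ 2 = X ^ 4 - 10 * X ^ 3 - 13 * X ^ 2 + 10 * X + 1) :
    X = 0 ∨ X = -2 ∨ X = 1 / 2 := by
  set s : ℚ := Y - X ^ 2 + 5 * X with hs
  have hquad : -(38 + 2 * s) * X ^ 2 + (10 + 10 * s) * X + (1 - s ^ 2) = 0 := by
    rw [hs]; linear_combination -hXY
  have hUV : (2 * (5 + 5 * s) - 2 * (38 + 2 * s) * X) ^ 2 =
      (-2 * s - 2) * ((-2 * s - 2) + 9) * ((-2 * s - 2) - 16) := by
    rw [hs]; linear_combination (-8 * X ^ 2 + 40 * X + 8 * Y + 152) * hXY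
  rcases hD _ _ hUV with h | h | h | h | h
  · -- U = 0, s = -1
    have hs1 : s = -1 := by linarith
    rw [hs1] at hquad
    left
    have : X ^ 2 = 0 := by linarith
    exact pow_eq_zero_iff (two_ne_zero) |>.mp this
  · -- U = -9, s = 7/2
    have hs1 : s = 7 / 2 := by linarith
    rw [hs1] at hquad
    right; right
    have : (X - 1 / 2) ^ 2 = 0 := by linear_combination (-1 / 45 : ℚ) * hquad
    have := pow_eq_zero_iff (two_ne_zero) |>.mp this
    linarith
  · -- U = 16, s = -9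
    have hs1 : s = -9 := by linarith
    rw [hs1] at hquad
    right; left
    have : (X + 2) ^ 2 = 0 := by linear_combination (-1 / 20 : ℚ) * hquad
    have := pow_eq_zero_iff (two_ne_zero) |>.mp this
    linarith
  · -- U = 36, s = -19
    have hs1 : s = -19 := by linarith
    rw [hs1] at hquad
    right; left
    linarith
  · -- U = -4, s = 1
    have hs1 : s = 1 := by linarith
    rw [hs1] at hquad
    have : X * (X - 1 / 2) = 0 := by linear_combination (-1 / 40 : ℚ) * hquad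
    rcases mul_eq_zero.mp this with h0 | h0
    · left; exact h0
    · right; right; linarith

/-- The key polynomial identity: on the plane model `F(t,h) = 0`, the function
`X = -Dx/Nx` satisfies the `(4,2)`-correspondence with `h`. -/
theorem phi_eq_zero (t h X : ℚ)
    (hF : (t + 27) * (t + 3) ^ 3 * h - (h ^ 2 + 10 * h + 5) ^ 3 * t = 0)
    (hXN : X * ((t + 3) * (h ^ 2 + 4 * h - 1)) =
      -(t ^ 2 + 18 * t - 3 * h * (h ^ 2 + 13 * h + 35)))
    (hN : (t + 3) * (h ^ 2 + 4 * h - 1) ≠ 0) :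
    X ^ 3 * h ^ 2 + (1 + 9 * X + 9 * X ^ 3 - X ^ 4) * h + 125 * X = 0 := by
  apply mul_left_cancel₀ (pow_ne_zero 4 hN)
  rw [mul_zero]
  have e1 : ((t + 3) * (h ^ 2 + 4 * h - 1)) ^ 4 *
      (X ^ 3 * h ^ 2 + (1 + 9 * X + 9 * X ^ 3 - X ^ 4) * h + 125 * X) =
      (X * ((t + 3) * (h ^ 2 + 4 * h - 1))) ^ 3 * ((t + 3) * (h ^ 2 + 4 * h - 1)) * h ^ 2
      + (((t + 3) * (h ^ 2 + 4 * h - 1)) ^ 4
        + 9 * (X * ((t + 3) * (h ^ 2 + 4 * h - 1))) * ((t + 3) * (h ^ 2 + 4 * h - 1)) ^ 3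
        + 9 * (X * ((t + 3) * (h ^ 2 + 4 * h - 1))) ^ 3 * ((t + 3) * (h ^ 2 + 4 * h - 1))
        - (X * ((t + 3) * (h ^ 2 + 4 * h - 1))) ^ 4) * h
      + 125 * (X * ((t + 3) * (h ^ 2 + 4 * h - 1))) * ((t + 3) * (h ^ 2 + 4 * h - 1)) ^ 3 := by
    ring
  rw [e1, hXN]
  linear_combination
    (-t^4 - t^3*h^3 - 13*t^3*h^2 - 35*t^3*h - 27*t^3 - 9*t^2*h^3 - 117*t^2*h^2
      - 315*t^2*h - 189*t^2 + 216*t*h^4 + 1917*t*h^3 + 5481*t*h^2 + 4887*t*h - 513*t
      - 27*h^7 - 594*h^6 - 4833*h^5 - 18468*h^4 - 32832*h^3 - 19305*h^2 + 5616*h - 486) * hF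

/-- **Rational points of `X₀(15)`**, given the rational points of `15a1`.
If `j = (t+27)(t+3)^3/t = (h^2+10h+5)^3/h` with `t, h ∈ ℚ^×`, then `j` is one of the four
`j`-invariants of elliptic curves over `ℚ` with a rational `15`-isogeny. -/
theorem j_mem_of_descent
    (hD : ∀ x y : ℚ, y ^ 2 = x * (x + 9) * (x - 16) →
      x = 0 ∨ x = -9 ∨ x = 16 ∨ x = 36 ∨ x = -4)
    (t h j : ℚ) (ht : t ≠ 0) (hh : h ≠ 0)
    (h3 : j * t = (t + 27) * (t + 3) ^ 3) (h5 : j * h = (h ^ 2 + 10 * h + 5) ^ 3) :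
    j = -25 / 2 ∨ j = -349938025 / 8 ∨ j = -121945 / 32 ∨ j = 46969655 / 32768 := by
  -- the equation of the (singular) plane model
  have hF : (t + 27) * (t + 3) ^ 3 * h - (h ^ 2 + 10 * h + 5) ^ 3 * t = 0 := by
    linear_combination t * h5 - h * h3
  -- `t ≠ -3`
  have ht3 : t + 3 ≠ 0 := by
    intro h0
    have ht' : t = -3 := by linarith
    have hj : j = 0 := by
      have : j * t = 0 := by rw [h3, h0]; ring
      rcases mul_eq_zero.mp this with h1 | h1
      · exact h1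
      · exact absurd h1 ht
    have h6 : (h ^ 2 + 10 * h + 5) ^ 3 = 0 := by rw [← h5, hj]; ring
    have h7 : h ^ 2 + 10 * h + 5 = 0 := pow_eq_zero_iff (by norm_num) |>.mp h6
    exact sq_ne_twenty (h + 5) (by linear_combination h7)
  have hh4 : h ^ 2 + 4 * h - 1 ≠ 0 := by
    intro h0
    exact sq_ne_five (h + 2) (by linear_combination h0)
  have hN : (t + 3) * (h ^ 2 + 4 * h - 1) ≠ 0 := mul_ne_zero ht3 hh4
  -- the degree two function `X = -1/x`
  obtain ⟨X, hXN⟩ : ∃ X : ℚ, X * ((t + 3) * (h ^ 2 + 4 * h - 1)) =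
      -(t ^ 2 + 18 * t - 3 * h * (h ^ 2 + 13 * h + 35)) :=
    ⟨-(t ^ 2 + 18 * t - 3 * h * (h ^ 2 + 13 * h + 35)) / ((t + 3) * (h ^ 2 + 4 * h - 1)),
      div_mul_cancel₀ _ hN⟩
  have hPhi : X ^ 3 * h ^ 2 + (1 + 9 * X + 9 * X ^ 3 - X ^ 4) * h + 125 * X = 0 :=
    phi_eq_zero t h X hF hXN hN
  have hX0 : X ≠ 0 := by
    intro h0
    rw [h0] at hPhi
    apply hh
    linear_combination hPhi
  have hB : 1 + 4 * X - X ^ 2 ≠ 0 := by
    intro h0
    exact sq_ne_five (X - 2) (by linear_combination -h0)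
  -- the point on the quartic
  obtain ⟨Y, hY⟩ : ∃ Y : ℚ, Y * (1 + 4 * X - X ^ 2) =
      -(2 * h * X ^ 3 + (1 + 9 * X + 9 * X ^ 3 - X ^ 4)) :=
    ⟨-(2 * h * X ^ 3 + (1 + 9 * X + 9 * X ^ 3 - X ^ 4)) / (1 + 4 * X - X ^ 2),
      div_mul_cancel₀ _ hB⟩
  have hXY : Y ^ 2 = X ^ 4 - 10 * X ^ 3 - 13 * X ^ 2 + 10 * X + 1 := by
    apply mul_left_cancel₀ (pow_ne_zero 2 hB)
    linear_combination
      (Y * (1 + 4 * X - X ^ 2) - (2 * h * X ^ 3 + (1 + 9 * X + 9 * X ^ 3 - X ^ 4))) * hY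
        + 4 * X ^ 3 * hPhi
  rcases quartic_points hD X Y hXY with h0 | h0 | h0
  · exact absurd h0 hX0
  · -- X = -2
    rw [h0] at hPhi
    have : (h + 10) * (8 * h + 25) = 0 := by linear_combination -hPhi
    rcases mul_eq_zero.mp this with h1 | h1
    · have hh' : h = -10 := by linarith
      left
      have : j * h = -25 / 2 * h := by rw [h5, hh']; norm_num
      exact mul_right_cancel₀ hh this
    · have hh' : h = -25 / 8 := by linarith
      right; right; right
      have : j * h = 46969655 / 32768 * h := by rw [h5, hh']; norm_num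
      exact mul_right_cancel₀ hh this
  · -- X = 1/2
    rw [h0] at hPhi
    have : (h + 40) * (2 * h + 25) = 0 := by linear_combination 16 * hPhi
    rcases mul_eq_zero.mp this with h1 | h1
    · have hh' : h = -40 := by linarith
      right; left
      have : j * h = -349938025 / 8 * h := by rw [h5, hh']; norm_num
      exact mul_right_cancel₀ hh this
    · have hh' : h = -25 / 2 := by linarith
      right; right; left
      have : j * h = -121945 / 32 * h := by rw [h5, hh']; norm_num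
      exact mul_right_cancel₀ hh this

end Fermat.Agent.S51.X15
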